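import Fermat.Agent.MR.Node.Interface

/-!
# MR / Node : NODE-D6 (FG), `R_s` is a localisation of a finitely generated `A`-algebra
-/

set_option autoImplicit false

namespace Fermat.Agent.MR.Node

open Polynomial
open Fermat.Agent.INJ (IsInt RedData)

theorem FG_aeval_mem {K F : Type*} [Field K] [Field F] [Algebra K F] (A : ValuationSubring K)
    (S : Set F) (T : F) (hT : T ∈ S) (c : K[X]) (hc : ∀ m, c.coeff m ∈ A) :
    aeval T c ∈ PL.adj A S := by
  rw [aeval_eq_sum_range]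
  refine sum_mem fun m _ => ?_
  rw [Algebra.smul_def]
  refine mul_mem (Subring.subset_closure (Or.inl ⟨_, hc m, rfl⟩)) (pow_mem ?_ _)
  exact Subring.subset_closure (Or.inr hT)

theorem FG_BB_le_Rs {K F k κ : Type*} [Field K] [Field F] [Algebra K F] [Field k] [Field κ]
    [Algebra k κ] (D₁ D₂ : RedData K F k κ) (T : F) (x₁ : ValuationSubring κ) {z : F}
    (hz : z ∈ BB D₁ D₂ T) : z ∈ Rs D₁ D₂ T x₁ :=
  ⟨z, hz, 1, one_mem _, by rw [RedData.rd_one, map_one], mul_one z⟩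

theorem FG_not_mem_ns {K F k κ : Type*} [Field K] [Field F] [Algebra K F] [Field k] [Field κ]
    [Algebra k κ] (D₁ D₂ : RedData K F k κ) (T : F) (x₁ : ValuationSubring κ) {v : F}
    (hv : v ∈ BB D₁ D₂ T) (h1 : x₁.valuation (D₁.rd v) = 1) : v ∉ ns D₁ D₂ T x₁ := by
  rintro ⟨u', -, v', hv', h1', h2', h3'⟩
  rw [← h3', InR.val_mul hv hv' h1 h1'] at h2'
  exact lt_irrefl _ h2'

theorem fg : Stmt_FG := by
  classical
  intro K F k κ _ _ _ _ _ _ D₁ D₂ T n b hT hb hgen x₁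
  refine ⟨insert T (Finset.univ.image b), ?_, ?_⟩
  · intro s hs
    rw [Finset.mem_insert, Finset.mem_image] at hs
    rcases hs with rfl | ⟨i, -, rfl⟩
    · exact FG_BB_le_Rs D₁ D₂ _ x₁ hT
    · exact FG_BB_le_Rs D₁ D₂ T x₁ (hb i)
  · have hle : ∀ z ∈ BB D₁ D₂ T,
        z ∈ PL.adj D₁.A ((insert T (Finset.univ.image b) : Finset F) : Set F) := by
      intro z hz
      obtain ⟨c, hc, rfl⟩ := hgen z hz
      refine sum_mem fun i _ => mul_mem (FG_aeval_mem _ _ T ?_ (c i) (hc i)) ?_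
      · exact Finset.mem_coe.2 (Finset.mem_insert_self _ _)
      · refine Subring.subset_closure (Or.inr (Finset.mem_coe.2 ?_))
        exact Finset.mem_insert_of_mem (Finset.mem_image_of_mem _ (Finset.mem_univ i))
    rintro z ⟨u, hu, v, hv, h1, h2⟩
    exact ⟨u, hle u hu, v, hle v hv, FG_not_mem_ns D₁ D₂ T x₁ hv h1, h2⟩

end Fermat.Agent.MR.Node
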