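import Fermat.Agent.MR.Node.Interface

/-!
# MR / Node / NODE-D2 : a place not centred at `s` is killed by a unit at `s` (helper8, task 1386)
-/

set_option autoImplicit false

namespace Fermat.Agent.MR.Node

open Polynomial IntermediateField AlgebraicCurve
open Fermat.Agent.INJ (IsInt RedData)
open Fermat.Agent.RED

section Aux

variable {K F k κ : Type*} [Field K] [Field F] [Algebra K F] [Field k] [Field κ] [Algebra k κ]

/-- constants of `A` lie in `BB`. -/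
theorem Kill_const_mem {D₁ D₂ : RedData K F k κ} {T : F} (hA : D₁.A = D₂.A) {c : K}
    (hc : c ∈ D₁.A) : algebraMap K F c ∈ BB D₁ D₂ T := by
  refine ⟨?_, RedData.algebraMap_mem hc, RedData.algebraMap_mem (hA ▸ hc)⟩
  unfold IsInt
  rw [IsScalarTower.algebraMap_apply K (Algebra.adjoin K {T}) F]
  exact isIntegral_algebraMap

/-- constants of `𝔪_A` reduce to `0`. -/
theorem Kill_rd_const_zero {D : RedData K F k κ} {c : K} (hc : c ∈ D.A.nonunits) :
    D.rd (algebraMap K F c) = 0 := by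
  by_contra h
  have h1 := RedData.inv_mem_of_rd_ne_zero h
  rw [← map_inv₀, D.mem_iff] at h1
  rcases (EV_mem_nonunits_iff _ _).1 hc with rfl | h2
  · exact h (by rw [map_zero, RedData.rd_zero])
  · exact h2 h1

theorem Kill_ra_ne_zero_iff {D : RedData K F k κ} {c : K} (hc : c ∈ D.A) :
    D.ra c ≠ 0 ↔ c ∉ D.A.nonunits := by
  constructor
  · intro h hn
    have h1 := Kill_rd_const_zero hn
    rw [RedData.rd_algebraMap hc, map_eq_zero] at h1
    exact h h1
  · intro hn h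
    rw [EV_mem_nonunits_iff, not_or, not_not] at hn
    have h1 := RedData.rd_ne_zero_of_inv_mem (D := D) (x := algebraMap K F c) (by simpa using hn.1)
      (RedData.algebraMap_mem hc) (by rw [← map_inv₀]; exact RedData.algebraMap_mem hn.2)
    rw [RedData.rd_algebraMap hc, h, map_zero] at h1
    exact h1 rfl

/-- nonzero constants are units at every point. -/
theorem Kill_val_const {x : ValuationSubring κ} (hx : IsPt k x) {c : k} (hc : c ≠ 0) :
    x.valuation (algebraMap k κ c) = 1 := by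
  have h1 := (x.valuation_le_one_iff _).2 (hx.const c)
  have h2 := (x.valuation_le_one_iff _).2 (hx.const c⁻¹)
  rw [map_inv₀, map_inv₀] at h2
  have h0 : x.valuation (algebraMap k κ c) ≠ 0 := (Valuation.ne_zero_iff _).2 (by simpa using hc)
  exact le_antisymm h1 ((inv_le_one₀ (zero_lt_iff.2 h0)).1 h2)

end Aux

/-- values of fractions `u / v`, `v` a unit at `s`, if all elements of `BB` vanishing at `s` have
values in `𝔪_A` at `P`. -/
theorem Kill_frac (h1 : Stmt_PtRes) {K F k κ : Type} [Field K] [Field F] [Algebra K F] [Field k]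
    [IsAlgClosed k] [Field κ] [Algebra k κ] {D₁ D₂ : RedData K F k κ} {T : F} {τ : κ}
    (hC : Compat D₁ D₂ T τ) {x₁ : ValuationSubring κ} (hx₁ : IsPt k x₁) {P : Place K F}
    (hval : ∀ z ∈ BB D₁ D₂ T, ∃ c ∈ D₁.A, Ev P z c)
    (hstar : ∀ z ∈ BB D₁ D₂ T, x₁.valuation (D₁.rd z) < 1 → ∀ c, Ev P z c → c ∈ D₁.A.nonunits)
    {x u v : F} (hu : u ∈ BB D₁ D₂ T) (hv : v ∈ BB D₁ D₂ T) (hv1 : x₁.valuation (D₁.rd v) = 1)
    (hxv : x * v = u) :
    ∃ c ∈ D₁.A, Ev P x c ∧ (x₁.valuation (D₁.rd u) < 1 → c ∈ D₁.A.nonunits) := by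
  obtain ⟨cu, hcuA, hcu⟩ := hval u hu
  obtain ⟨cv, hcvA, hcv⟩ := hval v hv
  have hvx : D₁.rd v ∈ x₁ := (x₁.valuation_le_one_iff _).1 hv1.le
  obtain ⟨c, hc⟩ := h1 k κ τ hC.trans hC.fin x₁ hx₁ _ hvx
  have hc0 : c ≠ 0 := by
    rintro rfl
    rw [map_zero, sub_zero, hv1] at hc
    exact lt_irrefl _ hc
  obtain ⟨ct, hctA, hct⟩ := RedData.exists_ra_eq (D := D₁) c
  have hw : v - algebraMap K F ct ∈ BB D₁ D₂ T := sub_mem hv (Kill_const_mem hC.A_eq hctA)
  have hrd : D₁.rd (v - algebraMap K F ct) = D₁.rd v - algebraMap k κ c := by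
    rw [RedData.rd_sub hv.2.1 (RedData.algebraMap_mem hctA), RedData.rd_algebraMap hctA, hct]
  have hn := hstar _ hw (by rw [hrd]; exact hc) (cv - ct) (ev_sub hcv (ev_const P ct))
  have hctu : ct ∉ D₁.A.nonunits := (Kill_ra_ne_zero_iff hctA).1 (by rw [hct]; exact hc0)
  have hcvu : cv ∉ D₁.A.nonunits := fun h => hctu (by
    have h2 := EV_nonunits_sub _ h hn
    rwa [sub_sub_cancel] at h2)
  rw [EV_mem_nonunits_iff, not_or, not_not] at hcvu
  have hv0 : v ≠ 0 := EV_ne_zero hcv hcvu.1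
  have hx : x = u / v := eq_div_of_mul_eq hv0 hxv
  refine ⟨cu / cv, ?_, ?_, fun hu1 => ?_⟩
  · rw [div_eq_mul_inv]
    exact mul_mem hcuA hcvu.2
  · rw [hx]
    exact ev_div hcu hcv hcvu.1
  · rw [div_eq_mul_inv]
    exact EV_nonunits_mul_mem _ (hstar u hu hu1 cu hcu) hcvu.2

/-- **NODE-D2**. -/
theorem kill (h1 : Stmt_PtRes) (_hR : Stmt_RingR) : Stmt_Kill := by
  intro K F k κ _ _ _ _ _ _ _ D₁ D₂ T τ hC hT hPF hVal x₁ hx₁ _hτ P hTP hnc
  obtain ⟨t₀, ht₀⟩ := hPF.resK P T hTP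
  by_cases ht₀A : t₀ ∈ D₁.A
  · have hval : ∀ z ∈ BB D₁ D₂ T, ∃ c ∈ D₁.A, Ev P z c := by
      intro z hz
      obtain ⟨c, hc⟩ := hPF.resK P z (hPF.reg z hz.1 P hTP)
      exact ⟨c, hVal P t₀ ht₀ ht₀A z hz c hc, hc⟩
    by_contra hcon
    push Not at hcon
    apply hnc
    have hstar : ∀ z ∈ BB D₁ D₂ T, x₁.valuation (D₁.rd z) < 1 → ∀ c, Ev P z c →
        c ∈ D₁.A.nonunits := by
      intro z hz hz1 c hc
      by_contra hcu
      have hcA := hVal P t₀ ht₀ ht₀A z hz c hc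
      refine hcon (z - algebraMap K F c) (sub_mem hz (Kill_const_mem hC.A_eq hcA)) ?_ ?_
      · rw [RedData.rd_sub hz.2.1 (RedData.algebraMap_mem hcA), RedData.rd_algebraMap hcA]
        have h2 := Kill_val_const hx₁ ((Kill_ra_ne_zero_iff hcA).2 hcu)
        rw [Valuation.map_sub_eq_of_lt_right _ (by rw [h2]; exact hz1), h2]
      · have h2 := ev_sub hc (ev_const P c)
        rwa [sub_self] at h2
    intro x hx
    obtain ⟨u, hu, v, hv, hv1, hxv⟩ := hx
    obtain ⟨c, hcA, hc, -⟩ := Kill_frac h1 hC hx₁ hval hstar hu hv hv1 hxv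
    refine ⟨c, hcA, hc, fun hxn => ?_⟩
    obtain ⟨u', hu', v', hv', hv1', hu1', hxv'⟩ := hxn
    obtain ⟨c', -, hc', hn⟩ := Kill_frac h1 hC hx₁ hval hstar hu' hv' hv1' hxv'
    rw [ev_unique hc hc']
    exact hn hu1'
  · have ht0 : t₀ ≠ 0 := fun h => ht₀A (h ▸ D₁.A.zero_mem)
    have hinv : t₀⁻¹ ∈ D₁.A.nonunits := (EV_mem_nonunits_iff _ _).2 (Or.inr (by rwa [inv_inv]))
    have hinvA : t₀⁻¹ ∈ D₁.A := EV_nonunits_mem _ hinv
    have hcB := Kill_const_mem (D₂ := D₂) (T := T) hC.A_eq hinvA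
    refine ⟨1 - T * algebraMap K F t₀⁻¹, sub_mem (one_mem _) (mul_mem hT hcB), ?_, ?_⟩
    · rw [RedData.rd_sub (one_mem _) (mul_mem hT.2.1 hcB.2.1), RedData.rd_mul hT.2.1 hcB.2.1,
        Kill_rd_const_zero hinv, mul_zero, sub_zero, RedData.rd_one, map_one]
    · have h2 := ev_sub (ev_one P) (ev_mul ht₀ (ev_const P t₀⁻¹))
      rwa [mul_inv_cancel₀ ht0, sub_self] at h2

end Fermat.Agent.MR.Node
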