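import Fermat.Agent.MR.Node.Interface

/-!
# MR / Node, tasks NODE-E1 + NODE-E2 : assembly of `PL.LocData` and `PL.N3` at nodes and smooth points
-/

set_option autoImplicit false

namespace Fermat.Agent.MR.Node

open Polynomial IntermediateField AlgebraicCurve
open Fermat.Agent.INJ (IsInt RedData Arch Chart)
open Fermat.Agent.RED (Ev)

section Helpers

variable {K F k κ : Type*} [Field K] [Field F] [Algebra K F] [Field k] [Field κ] [Algebra k κ]

theorem Loc_rd_eq_zero {D : RedData K F k κ} {x : F} (hx : x ∈ D.O.nonunits) : D.rd x = 0 := by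
  by_contra h
  have h1 := RedData.inv_mem_of_rd_ne_zero h
  rw [ValuationSubring.mem_nonunits_iff] at hx
  rw [← ValuationSubring.valuation_le_one_iff, map_inv₀] at h1
  have hx0 : x ≠ 0 := by
    rintro rfl
    exact h RedData.rd_zero
  have h2 : D.O.valuation x ≠ 0 := (Valuation.ne_zero_iff _).2 hx0
  have h3 := (inv_le_one₀ (zero_lt_iff.2 h2)).1 h1
  exact absurd hx (not_lt.2 h3)

theorem Loc_ne_zero {D₁ : RedData K F k κ} {x₁ : ValuationSubring κ} {v : F}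
    (h : x₁.valuation (D₁.rd v) = 1) : v ≠ 0 := by
  rintro rfl
  rw [RedData.rd_zero, map_zero] at h
  exact zero_ne_one h

/-- `z / (s v) ∈ R_s`. -/
theorem Loc_div_mem {D₁ D₂ : RedData K F k κ} {T : F} {x₁ : ValuationSubring κ} {z s v : F}
    (hz : z ∈ BB D₁ D₂ T) (hs : s ∈ BB D₁ D₂ T) (hv : v ∈ BB D₁ D₂ T)
    (h1 : x₁.valuation (D₁.rd s) = 1) (h2 : x₁.valuation (D₁.rd v) = 1) :
    z / (s * v) ∈ Rs D₁ D₂ T x₁ :=
  ⟨z, hz, s * v, mul_mem hs hv, InR.val_mul hs hv h1 h2,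
    div_mul_cancel₀ _ (mul_ne_zero (Loc_ne_zero h1) (Loc_ne_zero h2))⟩

end Helpers

/-- **NODE-E1**. -/
theorem nodeLoc (hRingR : Stmt_RingR) (hRingR2 : Stmt_RingR2) (hN1 : Stmt_N1)
    (hN3₁ : Stmt_N3PL₁) (hN3₂ : Stmt_N3PL₂) (hValA : Stmt_ValA) (hKill : Stmt_Kill)
    (hReg : Stmt_Reg) (hSU : Stmt_SepUnif) (hFG : Stmt_FG) : Stmt_NodeLoc := by
  intro K F k κ _ _ _ _ _ _ _ D₁ D₂ T τ hS x₁ x₂ hNode a ha b hb hra hrb hUb hUa
  obtain ⟨RF, hdom, hBBR⟩ := hRingR K F k κ D₁ D₂ T τ hS.compat x₁ hNode.pt₁ hNode.τ₁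
  have h2 := hRingR2 K F k κ D₁ D₂ T τ hS.compat x₁ x₂ hNode
  obtain ⟨m, bs, hbs, hspan⟩ := hS.fin
  have hVal := hValA K F k κ D₁ D₂ T m bs hbs hspan
  have hK := hKill K F k κ D₁ D₂ T τ hS.compat hS.T_mem hS.places hVal x₁ hNode.pt₁ hNode.τ₁
  have hR := hReg K F k κ D₁ D₂ T τ hS.compat hS.T_mem hS.places x₁ hNode.pt₁ hNode.τ₁ hK
  obtain ⟨hsep, hunif⟩ := hSU K F k κ D₁ D₂ T τ hS.compat hS.T_mem hS.places x₁ hNode.pt₁
    hNode.τ₁
  refine ⟨?_, hN3₂ K F k κ D₁ D₂ T τ hS.compat x₁ x₂ hNode a ha hUa,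
    hN3₁ K F k κ D₁ D₂ T τ hS.compat x₁ hNode.pt₁ hNode.τ₁ b hb hUb⟩
  exact
    { n_sub := RF.n_sub
      n_add := RF.n_add
      n_mul := RF.n_mul
      one_not_mem := RF.one_not_mem
      inv_mem := RF.inv_mem
      const_mem := RF.const_mem
      le₁ := RF.le₁
      le₂ := fun x hx => (h2 x hx).1
      small₁ := RF.small₁
      small₂ := fun x hx hxn => by
        rw [(h2 x hx).2.2, Loc_rd_eq_zero hxn, map_zero]
        exact zero_lt_one
      res := RF.res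
      a_mem := by
        rw [(hdom a (hBBR a ha)).2, hra, map_zero]
        exact zero_lt_one
      b_mem := by
        rw [(hdom b (hBBR b hb)).2]
        exact hUb.2.1
      gen := by
        rintro x ⟨u, hu, v, hv, hv1, hu1, hxv⟩
        obtain ⟨s, hs, z₁, hz₁, z₂, hz₂, z₃, hz₃, c, hc, hs1, he⟩ :=
          hN1 K F k κ D₁ D₂ T τ hS.compat x₁ x₂ hNode a ha b hb hra hrb hUb hUa u hu hu1
        refine ⟨z₁ / (s * v), Loc_div_mem hz₁ hs hv hs1 hv1, z₂ / (s * v),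
          Loc_div_mem hz₂ hs hv hs1 hv1, z₃ / (s * v), Loc_div_mem hz₃ hs hv hs1 hv1, c, hc, ?_⟩
        have hs0 := Loc_ne_zero hs1
        have hv0 := Loc_ne_zero hv1
        have hsv : s * v ≠ 0 := mul_ne_zero hs0 hv0
        have e1 : x * (s * v) = a * z₁ + b * z₂ + algebraMap K F c * z₃ := by
          rw [← he, ← hxv]; ring
        rw [mul_div_assoc', mul_div_assoc', mul_div_assoc', ← add_div, ← add_div, ← e1,
          mul_div_cancel_right₀ _ hsv]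
      fg := hFG K F k κ D₁ D₂ T m bs hS.T_mem hbs hspan x₁
      reg := hR
      sep := hsep
      unif := hunif }

/-- **NODE-E2**. -/
theorem smoothLoc (hRingR : Stmt_RingR) (hSmN1 : Stmt_SmN1) (hN3₁ : Stmt_N3PL₁)
    (hValA : Stmt_ValA) (hKill : Stmt_Kill) (hReg : Stmt_Reg) (hRegSm : Stmt_RegSm)
    (hSU : Stmt_SepUnif) (hFG : Stmt_FG) : Stmt_SmoothLoc := by
  intro K F k κ _ _ _ _ _ _ _ D₁ D₂ T τ hS x₁ hSm ϑ hϑ hU
  obtain ⟨RF, hdom, hBBR⟩ := hRingR K F k κ D₁ D₂ T τ hS.compat x₁ hSm.pt hSm.τ₁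
  obtain ⟨m, bs, hbs, hspan⟩ := hS.fin
  have hVal := hValA K F k κ D₁ D₂ T m bs hbs hspan
  have hK := hKill K F k κ D₁ D₂ T τ hS.compat hS.T_mem hS.places hVal x₁ hSm.pt hSm.τ₁
  have hR := hReg K F k κ D₁ D₂ T τ hS.compat hS.T_mem hS.places x₁ hSm.pt hSm.τ₁ hK
  have hR' := hRegSm K F k κ D₁ D₂ T τ hS.compat hS.arch x₁ hSm hR
  obtain ⟨hsep, hunif⟩ := hSU K F k κ D₁ D₂ T τ hS.compat hS.T_mem hS.places x₁ hSm.pt hSm.τ₁
  have hϑn : ϑ ∈ ns D₁ D₂ T x₁ := by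
    rw [(hdom ϑ (hBBR ϑ hϑ)).2]
    exact hU.2.1
  refine ⟨?_, hN3₁ K F k κ D₁ D₂ T τ hS.compat x₁ hSm.pt hSm.τ₁ ϑ hϑ hU⟩
  exact
    { n_sub := RF.n_sub
      n_add := RF.n_add
      n_mul := RF.n_mul
      one_not_mem := RF.one_not_mem
      inv_mem := RF.inv_mem
      const_mem := RF.const_mem
      le₁ := RF.le₁
      le₂ := RF.le₁
      small₁ := RF.small₁
      small₂ := RF.small₁
      res := RF.res
      a_mem := hϑn
      b_mem := hϑn
      gen := by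
        rintro x ⟨u, hu, v, hv, hv1, hu1, hxv⟩
        obtain ⟨s, hs, z₁, hz₁, z₃, hz₃, c, hc, hs1, he⟩ :=
          hSmN1 K F k κ D₁ D₂ T τ hS.compat x₁ hSm ϑ hϑ hU u hu hu1
        refine ⟨z₁ / (s * v), Loc_div_mem hz₁ hs hv hs1 hv1, 0, Subring.zero_mem _,
          z₃ / (s * v), Loc_div_mem hz₃ hs hv hs1 hv1, c, hc, ?_⟩
        have hs0 := Loc_ne_zero hs1
        have hv0 := Loc_ne_zero hv1
        have hsv : s * v ≠ 0 := mul_ne_zero hs0 hv0
        have e1 : x * (s * v) = ϑ * z₁ + algebraMap K F c * z₃ := by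
          rw [← he, ← hxv]; ring
        rw [mul_zero, add_zero, mul_div_assoc', mul_div_assoc', ← add_div, ← e1,
          mul_div_cancel_right₀ _ hsv]
      fg := hFG K F k κ D₁ D₂ T m bs hS.T_mem hbs hspan x₁
      reg := fun x hx _ hP => hR' x hx hP
      sep := hsep
      unif := hunif }

end Fermat.Agent.MR.Node
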