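import Fermat.Agent.MR.Node.Interface
import Fermat.Agent.S24.DegPrincipalCore

/-!
# MR / Node, package NODE-A1 (helper91): the residue field of a point of `κ / k` is `k`.
-/

set_option autoImplicit false

namespace Fermat.Agent.MR.Node

open Polynomial IntermediateField

section

variable {k κ : Type*} [Field k] [Field κ] [Algebra k κ]

/-- nonzero constants are units at a point. -/
theorem PtRes_val_const {x : ValuationSubring κ} (hx : IsPt k x) {c : k} (hc : c ≠ 0) :
    x.valuation (algebraMap k κ c) = 1 := by
  have h1 : x.valuation (algebraMap k κ c) ≤ 1 := (x.valuation_le_one_iff _).2 (hx.const c)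
  have h2 : x.valuation (algebraMap k κ c⁻¹) ≤ 1 := (x.valuation_le_one_iff _).2 (hx.const c⁻¹)
  have h0 : algebraMap k κ c ≠ 0 := (_root_.map_ne_zero _).2 hc
  have h3 : x.valuation (algebraMap k κ c) * x.valuation (algebraMap k κ c⁻¹) = 1 := by
    rw [← map_mul, ← map_mul, mul_inv_cancel₀ hc, map_one, map_one]
  refine le_antisymm h1 ?_
  calc (1 : x.ValueGroup) = x.valuation (algebraMap k κ c) * x.valuation (algebraMap k κ c⁻¹) :=
        h3.symm
    _ ≤ x.valuation (algebraMap k κ c) * 1 := mul_le_mul_right h2 _
    _ = x.valuation (algebraMap k κ c) := mul_one _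

/-- if no `f - c` vanishes at `x`, every nonzero polynomial in `f` is a unit at `x`. -/
theorem PtRes_val_aeval [IsAlgClosed k] {x : ValuationSubring κ} (hx : IsPt k x) {f : κ}
    (h : ∀ c : k, x.valuation (f - algebraMap k κ c) = 1) {P : k[X]} (hP : P ≠ 0) :
    x.valuation (aeval f P) = 1 := by
  have hs := (IsAlgClosed.splits P).eq_prod_roots
  rw [hs, map_mul, aeval_C, map_mul, PtRes_val_const hx (leadingCoeff_ne_zero.2 hP), one_mul,
    map_multiset_prod, map_multiset_prod, Multiset.map_map, Multiset.map_map]
  refine Multiset.prod_eq_one fun y hy => ?_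
  obtain ⟨c, -, rfl⟩ := Multiset.mem_map.1 hy
  simpa using h c

/-- a valuation ring containing a subfield over which `κ` is algebraic is everything. -/
theorem PtRes_eq_top (x : ValuationSubring κ) (E : IntermediateField k κ)
    [Algebra.IsAlgebraic E κ] (hE : ∀ y ∈ E, y ∈ x) : x = ⊤ := by
  rw [eq_top_iff]
  intro z _
  have hz : IsIntegral E z := Algebra.IsIntegral.isIntegral z
  let φ : E →+* x := (algebraMap E κ).codRestrict x.toSubring (fun a => hE a a.2)
  have h1 : IsIntegral x z := IsIntegral.map_of_comp_eq φ (RingHom.id κ) rfl hz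
  obtain ⟨y, hy⟩ := (IsIntegrallyClosed.isIntegral_iff (R := x) (K := κ)).mp h1
  rw [← hy]
  exact y.2

end

/-- **NODE-A1**.  The residue field of a point is `k`. -/
theorem ptRes : Stmt_PtRes := by
  intro k κ _ _ _ _ τ hτ hfd x hx f hf
  by_contra hcon
  push Not at hcon
  have h : ∀ c : k, x.valuation (f - algebraMap k κ c) = 1 := fun c =>
    le_antisymm ((x.valuation_le_one_iff _).2 (sub_mem hf (hx.const c))) (hcon c)
  have hval : ∀ P : k[X], P ≠ 0 → x.valuation (aeval f P) = 1 := fun P hP =>
    PtRes_val_aeval hx h hP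
  have htr : Transcendental k f := by
    rw [transcendental_iff]
    intro P hP
    by_contra hP0
    have := hval P hP0
    rw [hP, map_zero] at this
    exact zero_ne_one this
  have hfd' : FiniteDimensional k⟮f⟯ κ :=
    S24.finiteDimensional_adjoin_simple_of_transcendental τ hτ f htr
  refine hx.ne_top (PtRes_eq_top x k⟮f⟯ ?_)
  intro y hy
  obtain ⟨r, s, rfl⟩ := (mem_adjoin_simple_iff k y).1 hy
  rw [← x.valuation_le_one_iff, map_div₀]
  by_cases hr : r = 0
  · rw [hr, map_zero, map_zero, zero_div]
    exact zero_le_one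
  by_cases hs : s = 0
  · rw [hs, map_zero, map_zero, div_zero]
    exact zero_le_one
  rw [hval r hr, hval s hs, div_one]

end Fermat.Agent.MR.Node
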