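import Fermat.Agent.MR.Node.Interface
import Fermat.Agent.S24.PlaceBasic

/-!
# MR / Node : NODE-D3 + NODE-D4, (REG) at the closed points   (helper3)
-/

set_option autoImplicit false

namespace Fermat.Agent.MR.Node

open Polynomial IntermediateField AlgebraicCurve
open Fermat.Agent.INJ (IsInt RedData Arch Chart)
open Fermat.Agent.RED (Ev)
open Fermat.Agent

section

variable {K F k κ : Type*} [Field K] [Field F] [Algebra K F] [Field k] [Field κ] [Algebra k κ]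

/-- `z * d ^ m` is regular at `P` if `d` vanishes at `P` and `m ≥ - ord_P z`. -/
theorem Reg_mul_pow_mem (P : Place K F) {z d : F} (hd0 : d ≠ 0) (hd : Ev P d 0) :
    z * d ^ (P.ord z).natAbs ∈ P.toValuationSubring := by
  rcases eq_or_ne z 0 with rfl | hz
  · rw [zero_mul]; exact zero_mem _
  have hdn : d ∈ P.toValuationSubring.nonunits := RED.ev_zero_iff.1 hd
  have hdm : d ∈ P.toValuationSubring := RED.EV_nonunits_mem _ hdn
  have hpos : 0 < P.ord d := by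
    have h1 := (S24.mem_maximalIdeal_iff_ord_pos P ⟨d, hdm⟩ (fun h => hd0 (congrArg Subtype.val h)))
    apply h1.1
    rw [IsLocalRing.mem_maximalIdeal, mem_nonunits_iff]
    intro hu
    rw [ValuationSubring.mem_nonunits_iff] at hdn
    have := (ValuationSubring.valuation_eq_one_iff _ (⟨d, hdm⟩ : P.toValuationSubring)).1 hu
    exact absurd this hdn.ne
  apply S24.mem_of_ord_nonneg P (mul_ne_zero hz (pow_ne_zero _ hd0))
  rw [Place.ord_mul _ hz (pow_ne_zero _ hd0), ← zpow_natCast, Place.ord_zpow]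
  have h2 : -(P.ord z) ≤ ((P.ord z).natAbs : ℤ) := by omega
  nlinarith

theorem Reg_BB_le_Rs {D₁ D₂ : RedData K F k κ} {T : F} (x₁ : ValuationSubring κ) {z : F}
    (hz : z ∈ BB D₁ D₂ T) : z ∈ Rs D₁ D₂ T x₁ :=
  ⟨z, hz, 1, one_mem _, by rw [RedData.rd_one, map_one], by ring⟩

theorem Reg_val_pow {D₁ D₂ : RedData K F k κ} {T : F} {x₁ : ValuationSubring κ} {v : F}
    (hv : v ∈ BB D₁ D₂ T) (h : x₁.valuation (D₁.rd v) = 1) (m : ℕ) :
    x₁.valuation (D₁.rd (v ^ m)) = 1 := by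
  rw [RedData.rd_pow hv.2.1, map_pow, h, one_pow]

theorem Reg_val_prod {D₁ D₂ : RedData K F k κ} {T : F} {x₁ : ValuationSubring κ} {ι : Type*}
    (s : Finset ι) (f : ι → F) (hf : ∀ i ∈ s, f i ∈ BB D₁ D₂ T)
    (h : ∀ i ∈ s, x₁.valuation (D₁.rd (f i)) = 1) :
    x₁.valuation (D₁.rd (∏ i ∈ s, f i)) = 1 := by
  rw [RedData.rd_prod s f (fun i hi => (hf i hi).2.1), map_prod]
  exact Finset.prod_eq_one h

end

theorem reg : Stmt_Reg := by
  intro K F k κ _ _ _ _ _ _ _ D₁ D₂ T τ _hC _hT hPF x₁ _hx₁ _hτ hKill z hz1 hz2 hcen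
  classical
  -- the poles of `z` where `T` is regular
  set S : Finset (Place K F) := (hPF.fin z).toFinset.filter (fun P => T ∈ P.toValuationSubring)
    with hS
  have hSmem : ∀ P : Place K F, P ∈ S ↔ z ∉ P.toValuationSubring ∧ T ∈ P.toValuationSubring := by
    intro P
    rw [hS, Finset.mem_filter, Set.Finite.mem_toFinset]
    rfl
  have hex : ∀ P : Place K F, ∃ d : F, P ∈ S →
      d ∈ BB D₁ D₂ T ∧ x₁.valuation (D₁.rd d) = 1 ∧ Ev P d 0 := by
    intro P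
    by_cases hP : P ∈ S
    · obtain ⟨h1, h2⟩ := (hSmem P).1 hP
      obtain ⟨d, hd1, hd2, hd3⟩ := hKill P h2 (fun hc => h1 (hcen P hc))
      exact ⟨d, fun _ => ⟨hd1, hd2, hd3⟩⟩
    · exact ⟨0, fun h => absurd h hP⟩
  choose d hd using hex
  set f : Place K F → F := fun P => d P ^ (P.ord z).natAbs with hf
  have hfBB : ∀ P ∈ S, f P ∈ BB D₁ D₂ T := fun P hP => pow_mem (hd P hP).1 _
  have hfval : ∀ P ∈ S, x₁.valuation (D₁.rd (f P)) = 1 := fun P hP =>
    Reg_val_pow (hd P hP).1 (hd P hP).2.1 _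
  set v : F := ∏ P ∈ S, f P with hv
  have hvBB : v ∈ BB D₁ D₂ T := Subring.prod_mem _ hfBB
  refine ⟨z * v, ⟨?_, mul_mem hz1 hvBB.2.1, mul_mem hz2 hvBB.2.2⟩, v, hvBB,
    Reg_val_prod S f hfBB hfval, rfl⟩
  apply hPF.int
  intro P hTP
  by_cases hzP : z ∈ P.toValuationSubring
  · exact mul_mem hzP (hPF.reg v hvBB.1 P hTP)
  · have hPS : P ∈ S := (hSmem P).2 ⟨hzP, hTP⟩
    have hd0 : d P ≠ 0 := by
      intro h0
      have := (hd P hPS).2.1
      rw [h0, RedData.rd_zero, map_zero] at this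
      exact zero_ne_one this
    rw [hv, ← Finset.mul_prod_erase S f hPS, ← mul_assoc]
    refine mul_mem (Reg_mul_pow_mem P hd0 (hd P hPS).2.2) ?_
    have : ∏ Q ∈ S.erase P, f Q ∈ BB D₁ D₂ T :=
      Subring.prod_mem _ (fun Q hQ => hfBB Q (Finset.mem_of_mem_erase hQ))
    exact hPF.reg _ this.1 P hTP

theorem regSm : Stmt_RegSm := by
  intro K F k κ _ _ _ _ _ _ _ D₁ D₂ T τ hC hArch x₁ hsm hReg z hz1 hcen
  obtain ⟨e, heBB, he2, he1⟩ := hsm.sep
  have he0 : e ≠ 0 := by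
    rintro rfl
    rw [RedData.rd_zero, map_zero] at he1
    exact zero_ne_one he1
  rcases eq_or_ne z 0 with rfl | hz0
  · exact zero_mem _
  -- `|e|₂ = |π|`
  obtain ⟨a, ha0, ha1, ha2⟩ := D₂.unram e he0
  obtain ⟨c, hc0, hc1, -⟩ := D₂.unram z hz0
  have haF : algebraMap K F a ≠ 0 := (_root_.map_ne_zero _).2 ha0
  have hcF : algebraMap K F c ≠ 0 := (_root_.map_ne_zero _).2 hc0
  -- `π = a⁻¹ ∈ 𝔪_A`
  have hπO : algebraMap K F a⁻¹ ∈ D₂.O := by
    have : algebraMap K F a⁻¹ = e * (e * algebraMap K F a)⁻¹ := by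
      rw [map_inv₀]; field_simp
    rw [this]
    exact mul_mem heBB.2.2 ha2
  have hπA2 : a⁻¹ ∈ D₂.A := (D₂.mem_iff _).1 hπO
  have hπrd : D₂.rd (algebraMap K F a⁻¹) = 0 := by
    have : algebraMap K F a⁻¹ = e * (e * algebraMap K F a)⁻¹ := by
      rw [map_inv₀]; field_simp
    rw [this, RedData.rd_mul heBB.2.2 ha2, he2, zero_mul]
  have hπra2 : D₂.ra a⁻¹ = 0 := by
    rw [RedData.rd_algebraMap hπA2] at hπrd
    exact (map_eq_zero _).1 hπrd
  have hπA1 : a⁻¹ ∈ D₁.A := by rw [hC.A_eq]; exact hπA2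
  have hπra1 : D₁.ra a⁻¹ = 0 := by rw [hC.ra_eq]; exact hπra2
  obtain ⟨m, hm⟩ := hArch a⁻¹ hπA1 hπra1 c hc0
  have hm2 : algebraMap K F (a⁻¹ ^ m * c⁻¹) ∈ D₂.O := by
    apply (D₂.mem_iff _).2
    rw [← hC.A_eq]; exact hm
  have hzem2 : z * e ^ m ∈ D₂.O := by
    have : z * e ^ m = (z * algebraMap K F c) * (e * algebraMap K F a) ^ m
        * algebraMap K F (a⁻¹ ^ m * c⁻¹) := by
      rw [map_mul, map_pow, map_inv₀, map_inv₀, mul_pow]
      have h1 : algebraMap K F a ^ m * (algebraMap K F a)⁻¹ ^ m = 1 := by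
        rw [← mul_pow, mul_inv_cancel₀ haF, one_pow]
      calc z * e ^ m = z * e ^ m * (algebraMap K F a ^ m * (algebraMap K F a)⁻¹ ^ m)
            * (algebraMap K F c * (algebraMap K F c)⁻¹) := by
              rw [h1, mul_inv_cancel₀ hcF, mul_one, mul_one]
        _ = _ := by ring
    rw [this]
    exact mul_mem (mul_mem hc1 (pow_mem ha1 m)) hm2
  have hemBB : e ^ m ∈ BB D₁ D₂ T := pow_mem heBB m
  have hmem : z * e ^ m ∈ Rs D₁ D₂ T x₁ := by
    refine hReg _ (mul_mem hz1 hemBB.2.1) hzem2 (fun P hP => mul_mem (hcen P hP) ?_)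
    obtain ⟨c', -, hc', -⟩ := hP (e ^ m) (Reg_BB_le_Rs x₁ hemBB)
    exact RED.ev_mem hc'
  obtain ⟨u, hu, v, hv, hv1, huv⟩ := hmem
  exact ⟨u, hu, e ^ m * v, mul_mem hemBB hv, InR.val_mul hemBB hv (Reg_val_pow heBB he1 m) hv1, by
    rw [← huv]; ring⟩

end Fermat.Agent.MR.Node
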