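import Fermat.Agent.MR.Node.Interface

/-!
# MR / Node : NODE-C2, NODE-C3.  `(R_s, n_s)` is a local ring with residue field `k`   (helper19)
-/

set_option autoImplicit false

namespace Fermat.Agent.MR.Node

open Polynomial IntermediateField
open Fermat.Agent.INJ (IsInt RedData)

section

variable {K F k κ : Type*} [Field K] [Field F] [Algebra K F] [Field k] [Field κ] [Algebra k κ]

/-- valuation rings are integrally closed. -/
theorem RingR_mem_of_isInt {x : ValuationSubring κ} (hc : ∀ c : k, algebraMap k κ c ∈ x) {τ f : κ}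
    (hτ : τ ∈ x) (hf : IsInt k τ f) : f ∈ x := by
  have hle : ∀ s ∈ Algebra.adjoin k {τ}, s ∈ x := by
    intro s hs
    induction hs using Algebra.adjoin_induction with
    | mem y hy =>
      rw [Set.mem_singleton_iff] at hy
      rw [hy]
      exact hτ
    | algebraMap c => exact hc c
    | add a b _ _ ha hb => exact add_mem ha hb
    | mul a b _ _ ha hb => exact mul_mem ha hb
  obtain ⟨p, hp, hpf⟩ := hf
  let i : Algebra.adjoin k {τ} →+* x :=
    { toFun := fun s => ⟨s.1, hle s.1 s.2⟩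
      map_one' := rfl
      map_mul' := fun _ _ => rfl
      map_zero' := rfl
      map_add' := fun _ _ => rfl }
  have hint : IsIntegral x f := by
    refine ⟨p.map i, hp.map i, ?_⟩
    rw [Polynomial.eval₂_map]
    exact hpf
  obtain ⟨y, hy⟩ := IsIntegrallyClosed.isIntegral_iff.mp hint
  rw [← hy]
  exact y.2

/-- reduction of a fraction. -/
theorem RingR_frac (D : RedData K F k κ) (x : ValuationSubring κ) {z u v : F} (hu : u ∈ D.O)
    (h1 : x.valuation (D.rd v) = 1) (h : z * v = u) :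
    z ∈ D.O ∧ x.valuation (D.rd z) = x.valuation (D.rd u) := by
  have hrv : D.rd v ≠ 0 := by
    intro h0
    rw [h0, map_zero] at h1
    exact zero_ne_one h1
  have hv0 : v ≠ 0 := by
    rintro rfl
    exact hrv RedData.rd_zero
  have hz : z = u / v := eq_div_of_mul_eq hv0 h
  rw [hz]
  refine ⟨RedData.div_mem hu hrv, ?_⟩
  rw [RedData.rd_div hu hrv, map_div₀, h1, div_one]

theorem RingR_rd_of_nonunit (D : RedData K F k κ) {z : F} (hz : z ∈ D.O.nonunits) :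
    D.rd z = 0 := by
  by_contra h
  have h1 := RedData.inv_mem_of_rd_ne_zero h
  rw [ValuationSubring.mem_nonunits_iff] at hz
  rw [← ValuationSubring.valuation_le_one_iff, map_inv₀] at h1
  have hz0 : D.O.valuation z ≠ 0 := by
    intro h0
    rw [map_eq_zero] at h0
    rw [h0] at h
    exact h RedData.rd_zero
  have h2 : 1 ≤ D.O.valuation z := (inv_le_one₀ (zero_lt_iff.mpr hz0)).1 h1
  exact absurd hz (not_lt.mpr h2)

variable {D₁ D₂ : RedData K F k κ} {T : F} {τ : κ}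

theorem RingR_rd₁_mem (hC : Compat D₁ D₂ T τ) {x₁ : ValuationSubring κ} (hpt : IsPt k x₁)
    (hτ : τ ∈ x₁) {z : F} (hz : z ∈ BB D₁ D₂ T) : D₁.rd z ∈ x₁ :=
  RingR_mem_of_isInt hpt.const hτ (hC.int₁ z hz)

theorem RingR_rd₂_mem (hC : Compat D₁ D₂ T τ) {x₂ : ValuationSubring κ} (hpt : IsPt k x₂)
    (hτ : τ ∈ x₂) {z : F} (hz : z ∈ BB D₁ D₂ T) : D₂.rd z ∈ x₂ :=
  RingR_mem_of_isInt hpt.const hτ (hC.int₂ z hz)

theorem RingR_BB_le {x₁ : ValuationSubring κ} {z : F} (hz : z ∈ BB D₁ D₂ T) :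
    z ∈ Rs D₁ D₂ T x₁ :=
  ⟨z, hz, 1, one_mem _, by rw [RedData.rd_one, map_one], by ring⟩

theorem RingR_mem_O (x₁ : ValuationSubring κ) {z : F} (hz : z ∈ Rs D₁ D₂ T x₁) : z ∈ D₁.O := by
  obtain ⟨u, hu, v, hv, h1, h2⟩ := hz
  exact (RingR_frac D₁ x₁ hu.2.1 h1 h2).1

theorem RingR_rd_mem (hC : Compat D₁ D₂ T τ) {x₁ : ValuationSubring κ} (hpt : IsPt k x₁)
    (hτ : τ ∈ x₁) {z : F} (hz : z ∈ Rs D₁ D₂ T x₁) : D₁.rd z ∈ x₁ := by
  obtain ⟨u, hu, v, hv, h1, h2⟩ := hz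
  rw [← ValuationSubring.valuation_le_one_iff, (RingR_frac D₁ x₁ hu.2.1 h1 h2).2,
    ValuationSubring.valuation_le_one_iff]
  exact RingR_rd₁_mem hC hpt hτ hu

theorem RingR_ns_sub {x₁ : ValuationSubring κ} {z : F} (hz : z ∈ ns D₁ D₂ T x₁) :
    z ∈ Rs D₁ D₂ T x₁ := by
  obtain ⟨u, hu, v, hv, h1, -, h2⟩ := hz
  exact ⟨u, hu, v, hv, h1, h2⟩

theorem RingR_mem_ns_iff {x₁ : ValuationSubring κ} {z : F} (hz : z ∈ Rs D₁ D₂ T x₁) :
    z ∈ ns D₁ D₂ T x₁ ↔ x₁.valuation (D₁.rd z) < 1 := by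
  constructor
  · rintro ⟨u, hu, v, hv, h1, h3, h2⟩
    rw [(RingR_frac D₁ x₁ hu.2.1 h1 h2).2]
    exact h3
  · intro h
    obtain ⟨u, hu, v, hv, h1, h2⟩ := hz
    refine ⟨u, hu, v, hv, h1, ?_, h2⟩
    rw [← (RingR_frac D₁ x₁ hu.2.1 h1 h2).2]
    exact h

theorem RingR_const_mem (hC : Compat D₁ D₂ T τ) {c : K} (hc : c ∈ D₁.A) :
    algebraMap K F c ∈ BB D₁ D₂ T := by
  refine ⟨?_, RedData.algebraMap_mem hc, RedData.algebraMap_mem (hC.A_eq ▸ hc)⟩
  have : algebraMap K F c = algebraMap (Algebra.adjoin K {T}) F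
      (algebraMap K (Algebra.adjoin K {T}) c) := rfl
  unfold IsInt
  rw [this]
  exact isIntegral_algebraMap

end

/-- **NODE-C2** -/
theorem ringR (h1 : Stmt_PtRes) : Stmt_RingR := by
  intro K F k κ _ _ _ _ _ _ _ D₁ D₂ T τ hC x₁ hpt hτ
  refine ⟨?_, fun z hz => ⟨RingR_rd_mem hC hpt hτ hz, RingR_mem_ns_iff hz⟩,
    fun z hz => RingR_BB_le hz⟩
  refine
    { n_sub := fun x hx => RingR_ns_sub hx
      n_add := ?_
      n_mul := ?_
      one_not_mem := ?_
      inv_mem := ?_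
      const_mem := fun c hc => RingR_BB_le (RingR_const_mem hC hc)
      le₁ := fun x hx => RingR_mem_O x₁ hx
      small₁ := ?_
      res := ?_ }
  · intro x hx y hy
    have hx' := RingR_ns_sub hx
    have hy' := RingR_ns_sub hy
    rw [RingR_mem_ns_iff (add_mem hx' hy'),
      RedData.rd_add (RingR_mem_O x₁ hx') (RingR_mem_O x₁ hy')]
    exact Valuation.map_add_lt _ ((RingR_mem_ns_iff hx').1 hx) ((RingR_mem_ns_iff hy').1 hy)
  · intro x hx y hy
    have hy' := RingR_ns_sub hy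
    rw [RingR_mem_ns_iff (mul_mem hx hy'),
      RedData.rd_mul (RingR_mem_O x₁ hx) (RingR_mem_O x₁ hy'), map_mul]
    have e1 : x₁.valuation (D₁.rd x) ≤ 1 :=
      (ValuationSubring.valuation_le_one_iff _ _).2 (RingR_rd_mem hC hpt hτ hx)
    calc x₁.valuation (D₁.rd x) * x₁.valuation (D₁.rd y)
        ≤ 1 * x₁.valuation (D₁.rd y) := mul_le_mul_left e1 _
      _ = x₁.valuation (D₁.rd y) := one_mul _
      _ < 1 := (RingR_mem_ns_iff hy').1 hy
  · intro h
    have := (RingR_mem_ns_iff (one_mem _)).1 h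
    rw [RedData.rd_one, map_one] at this
    exact lt_irrefl _ this
  · intro x hx hxn
    have e1 : x₁.valuation (D₁.rd x) ≤ 1 :=
      (ValuationSubring.valuation_le_one_iff _ _).2 (RingR_rd_mem hC hpt hτ hx)
    have e2 : x₁.valuation (D₁.rd x) = 1 :=
      le_antisymm e1 (not_lt.1 fun h => hxn ((RingR_mem_ns_iff hx).2 h))
    obtain ⟨u, hu, v, hv, hv1, h2⟩ := hx
    have e3 := (RingR_frac D₁ x₁ hu.2.1 hv1 h2).2
    have hx0 : x ≠ 0 := by
      rintro rfl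
      rw [RedData.rd_zero, map_zero] at e2
      exact zero_ne_one e2
    refine ⟨v, hv, u, hu, by rw [← e3, e2], ?_⟩
    rw [← h2, ← mul_assoc, inv_mul_cancel₀ hx0, one_mul]
  · intro x hx hxn
    rw [RingR_mem_ns_iff hx, RingR_rd_of_nonunit D₁ hxn, map_zero]
    exact zero_lt_one
  · intro x hx
    obtain ⟨cb, hcb⟩ := h1 k κ τ hC.trans hC.fin x₁ hpt (D₁.rd x) (RingR_rd_mem hC hpt hτ hx)
    obtain ⟨c, hc, hcc⟩ := D₁.exists_ra_eq cb
    refine ⟨c, hc, ?_⟩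
    have hcR : algebraMap K F c ∈ Rs D₁ D₂ T x₁ := RingR_BB_le (RingR_const_mem hC hc)
    rw [RingR_mem_ns_iff (sub_mem hx hcR),
      RedData.rd_sub (RingR_mem_O x₁ hx) (RedData.algebraMap_mem hc), RedData.rd_algebraMap hc, hcc]
    exact hcb

/-- **NODE-C3** -/
theorem ringR2 : Stmt_RingR2 := by
  intro K F k κ _ _ _ _ _ _ _ D₁ D₂ T τ hC x₁ x₂ hN z hz
  have hns := RingR_mem_ns_iff hz
  obtain ⟨u, hu, v, hv, hv1, h2⟩ := hz
  have e1 : x₂.valuation (D₂.rd v) ≤ 1 :=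
    (ValuationSubring.valuation_le_one_iff _ _).2 (RingR_rd₂_mem hC hN.pt₂ hN.τ₂ hv)
  have e2 : x₂.valuation (D₂.rd v) = 1 := by
    refine le_antisymm e1 (not_lt.1 fun h => ?_)
    have := (hN.same v hv).2 h
    rw [hv1] at this
    exact lt_irrefl _ this
  obtain ⟨k1, k2⟩ := RingR_frac D₂ x₂ hu.2.2 e2 h2
  refine ⟨k1, ?_, ?_⟩
  · rw [← ValuationSubring.valuation_le_one_iff, k2, ValuationSubring.valuation_le_one_iff]
    exact RingR_rd₂_mem hC hN.pt₂ hN.τ₂ hu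
  · rw [hns, (RingR_frac D₁ x₁ hu.2.1 hv1 h2).2, k2]
    exact hN.same u hu

end Fermat.Agent.MR.Node
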