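import Fermat.Agent.MR.Node.Interface
import Fermat.Agent.MR.PL.Basic

/-!
# MR / Node : NODE-D5, (SEP) and (UNIF)
-/

set_option autoImplicit false

namespace Fermat.Agent.MR.Node

open Polynomial IntermediateField AlgebraicCurve
open Fermat.Agent.INJ (IsInt RedData Arch Chart)
open Fermat.Agent.RED (Ev)

section Places

variable {K F : Type*} [Field K] [Field F] [Algebra K F]

theorem SepUnif_ord_neg {v : Place K F} {f : F} (hv : f ∉ v.toValuationSubring) :
    f ≠ 0 ∧ v.ord f < 0 := by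
  have hf0 : f ≠ 0 := by
    rintro rfl
    exact hv (zero_mem _)
  refine ⟨hf0, ?_⟩
  by_contra hcon
  exact hv (Fermat.Agent.S24.mem_of_ord_nonneg v hf0 (not_lt.1 hcon))

/-- two DVRs of `F`, one inside the other, are equal. -/
theorem SepUnif_place_eq {v w : Place K F}
    (h : ∀ f, f ∈ v.toValuationSubring → f ∈ w.toValuationSubring) : v = w := by
  apply Place.ext
  refine SetLike.ext fun f => ⟨h f, fun hw => ?_⟩
  by_contra hv
  obtain ⟨hf0, hord⟩ := SepUnif_ord_neg hv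
  apply w.ne_top'
  refine SetLike.ext fun g => ⟨fun _ => ValuationSubring.mem_top g, fun _ => ?_⟩
  rcases eq_or_ne g 0 with rfl | hg0
  · exact zero_mem _
  obtain ⟨n, hn⟩ : ∃ n : ℕ, 0 ≤ v.ord g + n * (-v.ord f) := by
    refine ⟨(-v.ord g).toNat, ?_⟩
    have h1 : -v.ord g ≤ ((-v.ord g).toNat : ℤ) := Int.self_le_toNat _
    have h2 : (0 : ℤ) ≤ ((-v.ord g).toNat : ℤ) := Int.natCast_nonneg _
    nlinarith
  have h1 : g * (f⁻¹) ^ n ∈ v.toValuationSubring := by
    refine Fermat.Agent.S24.mem_of_ord_nonneg v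
      (mul_ne_zero hg0 (pow_ne_zero _ (inv_ne_zero hf0))) ?_
    rw [v.ord_mul hg0 (pow_ne_zero _ (inv_ne_zero hf0)), ← zpow_natCast, v.ord_zpow, v.ord_inv]
    exact hn
  have h2 := mul_mem (h _ h1) (pow_mem hw n)
  have h3 : g * f⁻¹ ^ n * f ^ n = g := by
    rw [mul_assoc, ← mul_pow, inv_mul_cancel₀ hf0, one_pow, mul_one]
  rwa [h3] at h2

/-- two distinct places are separated by a function. -/
theorem SepUnif_exists_sep {P P' : Place K F} (h : P ≠ P') :
    ∃ x : F, x ≠ 0 ∧ 0 < P.ord x ∧ P'.ord x = 0 := by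
  have h1 : ¬ ∀ f, f ∈ P'.toValuationSubring → f ∈ P.toValuationSubring :=
    fun hh => h (SepUnif_place_eq hh).symm
  simp only [not_forall] at h1
  obtain ⟨y, hy', hy⟩ := h1
  obtain ⟨hy0, hordP⟩ := SepUnif_ord_neg hy
  have hordP' : 0 ≤ P'.ord y := Fermat.Agent.S24.ord_nonneg_of_mem P' hy'
  rcases hordP'.eq_or_lt with h0 | hpos
  · refine ⟨y⁻¹, inv_ne_zero hy0, ?_, ?_⟩
    · rw [P.ord_inv]
      omega
    · rw [P'.ord_inv, ← h0, neg_zero]
  · have h1y : 1 + y ≠ 0 := by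
      intro hh
      apply hy
      rw [eq_neg_of_add_eq_zero_right hh]
      exact neg_mem (one_mem _)
    have e1 : P'.ord (1 + y) = 0 := by
      rw [Fermat.Agent.S24.ord_add_eq_of_lt P' one_ne_zero hy0 (by rw [P'.ord_one]; exact hpos),
        P'.ord_one]
    have e2 : P.ord (1 + y) = P.ord y := by
      rw [add_comm]
      exact Fermat.Agent.S24.ord_add_eq_of_lt P hy0 one_ne_zero (by rw [P.ord_one]; exact hordP)
    refine ⟨(1 + y)⁻¹, inv_ne_zero h1y, ?_, ?_⟩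
    · rw [P.ord_inv, e2]
      omega
    · rw [P'.ord_inv, e1, neg_zero]

end Places

section BBfacts

variable {K F k κ : Type*} [Field K] [Field F] [Algebra K F] [Field k] [Field κ] [Algebra k κ]
  {D₁ D₂ : RedData K F k κ} {T : F}

theorem SepUnif_BB_le_Rs (x₁ : ValuationSubring κ) {z : F} (hz : z ∈ BB D₁ D₂ T) :
    z ∈ Rs D₁ D₂ T x₁ :=
  ⟨z, hz, 1, one_mem _, by rw [RedData.rd_one, map_one], mul_one z⟩

theorem SepUnif_isInt_const (c : K) : IsInt K T (algebraMap K F c) := by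
  have h : algebraMap K F c = algebraMap (Algebra.adjoin K {T}) F (algebraMap K _ c) := rfl
  unfold IsInt
  rw [h]
  exact isIntegral_algebraMap

/-- every integral element has a nonzero constant multiple in `BB`. -/
theorem SepUnif_scale (hA : D₁.A = D₂.A) {y : F} (hy : IsInt K T y) :
    ∃ c : K, c ≠ 0 ∧ y * algebraMap K F c ∈ BB D₁ D₂ T := by
  rcases eq_or_ne y 0 with rfl | hy0
  · exact ⟨1, one_ne_zero, by rw [zero_mul]; exact zero_mem _⟩
  obtain ⟨c₁, hc₁, h₁, -⟩ := D₁.unram y hy0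
  obtain ⟨c₂, hc₂, h₂, -⟩ := D₂.unram y hy0
  rcases D₁.A.mem_or_inv_mem (c₂ / c₁) with h | h
  · refine ⟨c₂, hc₂, IsIntegral.mul hy (SepUnif_isInt_const c₂), ?_, h₂⟩
    have e : y * algebraMap K F c₂ = y * algebraMap K F c₁ * algebraMap K F (c₂ / c₁) := by
      rw [mul_assoc, ← map_mul, mul_div_cancel₀ c₂ hc₁]
    rw [e]
    exact mul_mem h₁ ((D₁.mem_iff _).2 h)
  · refine ⟨c₁, hc₁, IsIntegral.mul hy (SepUnif_isInt_const c₁), h₁, ?_⟩
    rw [inv_div, hA] at h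
    have e : y * algebraMap K F c₁ = y * algebraMap K F c₂ * algebraMap K F (c₁ / c₂) := by
      rw [mul_assoc, ← map_mul, mul_div_cancel₀ c₁ hc₂]
    rw [e]
    exact mul_mem h₂ ((D₂.mem_iff _).2 h)

end BBfacts

theorem sepUnif : Stmt_SepUnif := by
  intro K F k κ _ _ _ _ _ _ _ D₁ D₂ T τ hC hT hPF x₁ _ _
  have hTreg : ∀ P : Place K F, PL.Centred D₁.A (Rs D₁ D₂ T x₁) (ns D₁ D₂ T x₁) P →
      T ∈ P.toValuationSubring := by
    intro P hP
    exact Fermat.Agent.RED.ev_mem (hP.ev (SepUnif_BB_le_Rs x₁ hT))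
  constructor
  · intro P P' hP hP' hval
    by_contra hne
    obtain ⟨x, hx0, hxP, hxP'⟩ := SepUnif_exists_sep hne
    obtain ⟨n, d, hn, hd, hdP', hd0, hxd⟩ := hPF.loc P' (hTreg P' hP') x
      (Fermat.Agent.S24.mem_of_ord_nonneg P' hx0 hxP'.ge)
    obtain ⟨c, hc, hz⟩ := SepUnif_scale hC.A_eq hn
    have hc' : algebraMap K F c ≠ 0 := by simpa using hc
    have hn0 : n ≠ 0 := by
      rw [← hxd]
      exact mul_ne_zero hx0 hd0
    have hz0 : n * algebraMap K F c ≠ 0 := mul_ne_zero hn0 hc'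
    have hdP : 0 ≤ P.ord d := Fermat.Agent.S24.ord_nonneg_of_mem P (hPF.reg d hd P (hTreg P hP))
    have ho : 0 < P.ord (n * algebraMap K F c) := by
      rw [P.ord_mul hn0 hc', Fermat.Agent.S24.ord_algebraMap, add_zero, ← hxd, P.ord_mul hx0 hd0]
      omega
    have ho' : P'.ord (n * algebraMap K F c) = 0 := by
      rw [P'.ord_mul hn0 hc', Fermat.Agent.S24.ord_algebraMap, add_zero, ← hxd,
        P'.ord_mul hx0 hd0, hxP', hdP', add_zero]
    have hzR := SepUnif_BB_le_Rs x₁ hz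
    have h1 : PL.val P (n * algebraMap K F c) = 0 :=
      PL.val_eq ((Fermat.Agent.RED.ev_zero_iff_ord hz0).2 ho)
    have h2 := hP'.ev hzR
    rw [← hval _ hzR, h1, Fermat.Agent.RED.ev_zero_iff_ord hz0, ho'] at h2
    exact lt_irrefl _ h2
  · intro P hP
    obtain ⟨ϖ, hϖ⟩ := Fermat.Agent.S24.exists_ord_eq_one P
    have hϖ0 : ϖ ≠ 0 := by
      rintro rfl
      rw [P.ord_zero] at hϖ
      exact zero_ne_one hϖ
    obtain ⟨n, d, hn, hd, hdP, hd0, hxd⟩ := hPF.loc P (hTreg P hP) ϖ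
      (Fermat.Agent.S24.mem_of_ord_nonneg P hϖ0 (by rw [hϖ]; exact zero_le_one))
    obtain ⟨c, hc, hz⟩ := SepUnif_scale hC.A_eq hn
    have hc' : algebraMap K F c ≠ 0 := by simpa using hc
    have hn0 : n ≠ 0 := by
      rw [← hxd]
      exact mul_ne_zero hϖ0 hd0
    have hz0 : n * algebraMap K F c ≠ 0 := mul_ne_zero hn0 hc'
    have ho : P.ord (n * algebraMap K F c) = 1 := by
      rw [P.ord_mul hn0 hc', Fermat.Agent.S24.ord_algebraMap, add_zero, ← hxd,
        P.ord_mul hϖ0 hd0, hϖ, hdP, add_zero]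
    have h1 : PL.val P (n * algebraMap K F c) = 0 :=
      PL.val_eq ((Fermat.Agent.RED.ev_zero_iff_ord hz0).2 (by rw [ho]; exact one_pos))
    refine ⟨n * algebraMap K F c, SepUnif_BB_le_Rs x₁ hz, ?_⟩
    rw [h1, map_zero, sub_zero, ho]

end Fermat.Agent.MR.Node
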