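import Fermat.Agent.MR.Node.Interface
import Fermat.Agent.RED.EvBasic

/-!
# MR / Node : NODE-D1, values of elements of `BB` at a place with `T(P) ∈ A` lie in `A`
-/

set_option autoImplicit false

namespace Fermat.Agent.MR.Node

open Polynomial IntermediateField AlgebraicCurve
open Fermat.Agent.INJ (IsInt RedData Arch Chart)
open Fermat.Agent.RED (Ev polyHom)

/-- a polynomial with coefficients in `A` comes from `A[X]`. -/
theorem ValA_lift {K F : Type*} [Field K] [Field F] [Algebra K F] (A : ValuationSubring K) (T : F)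
    (c : K[X]) (hc : ∀ m, c.coeff m ∈ A) : ∃ f : (↥A)[X], polyHom A T f = aeval T c := by
  have h1 : c ∈ Polynomial.lifts A.subtype := by
    rw [Polynomial.lifts_iff_coeff_lifts]
    intro m
    exact ⟨⟨c.coeff m, hc m⟩, rfl⟩
  obtain ⟨f, rfl⟩ := h1
  refine ⟨f, ?_⟩
  show eval₂ ((algebraMap K F).comp A.subtype) T f = aeval T (f.map A.subtype)
  rw [aeval_def, eval₂_map]

/-- integrality over `A[X] → F`, `X ↦ T`. -/
theorem ValA_integral {K F : Type*} [Field K] [Field F] [Algebra K F] (A : ValuationSubring K)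
    (T : F) (B : Subring F) (n : ℕ) (b : Fin n → F) (hb : ∀ i, b i ∈ B)
    (hspan : ∀ z ∈ B, ∃ c : Fin n → K[X], (∀ i m, (c i).coeff m ∈ A) ∧
      z = ∑ i, aeval T (c i) * b i) (z : F) (hz : z ∈ B) :
    (polyHom A T).IsIntegralElem z := by
  let _ : Algebra (↥A)[X] F := (polyHom A T).toAlgebra
  have hsm : ∀ (f : (↥A)[X]) (y : F), f • y = polyHom A T f * y := fun f y => rfl
  let N : Submodule (↥A)[X] F := Submodule.span (↥A)[X] (Set.range b)
  have hBN : ∀ y ∈ B, y ∈ N := by
    intro y hy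
    obtain ⟨c, hc, rfl⟩ := hspan y hy
    refine Submodule.sum_mem _ fun i _ => ?_
    obtain ⟨f, hf⟩ := ValA_lift A T (c i) (hc i)
    rw [← hf, ← hsm]
    exact Submodule.smul_mem _ _ (Submodule.subset_span ⟨i, rfl⟩)
  have hN0 : N ≠ ⊥ := by
    intro h
    have h1 : (1 : F) ∈ N := hBN 1 B.one_mem
    rw [h, Submodule.mem_bot] at h1
    exact one_ne_zero h1
  have hfg : N.FG := Submodule.fg_span (Set.finite_range b)
  have hstab : ∀ y ∈ N, z • y ∈ N := by
    intro y hy
    induction hy using Submodule.span_induction with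
    | mem y hy =>
      obtain ⟨i, rfl⟩ := hy
      exact hBN _ (B.mul_mem hz (hb i))
    | zero => rw [smul_zero]; exact N.zero_mem
    | add x y _ _ hx hy => rw [smul_add]; exact N.add_mem hx hy
    | smul f y _ hy =>
      rw [smul_comm]
      exact N.smul_mem f hy
  exact isIntegral_of_smul_mem_submodule N hN0 hfg z hstab

theorem valA : Stmt_ValA := by
  intro K F k κ _ _ _ _ _ _ D₁ D₂ T n b hb hspan P t₀ hT ht₀ z hz c hc
  obtain ⟨p, hp, hpz⟩ := ValA_integral D₁.A T (BB D₁ D₂ T) n b hb hspan z hz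
  -- the reduced polynomial
  let p' : (↥D₁.A)[X] := p.map (evalRingHom (⟨t₀, ht₀⟩ : D₁.A))
  have hp' : p'.Monic := hp.map _
  have hev : Ev P ((p.map (polyHom D₁.A T)).eval z) ((p'.map D₁.A.subtype).eval c) := by
    refine Fermat.Agent.RED.ev_eval_coeff _ _ (fun i => ?_) hc
    rw [coeff_map, coeff_map, coeff_map]
    have h1 := Fermat.Agent.RED.ev_polyHom (A := D₁.A) hT (p.coeff i)
    have h2 : (p.coeff i).eval₂ D₁.A.subtype t₀
        = D₁.A.subtype (evalRingHom (⟨t₀, ht₀⟩ : D₁.A) (p.coeff i)) := by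
      rw [coe_evalRingHom, eval, hom_eval₂]
      rfl
    rwa [h2] at h1
  rw [eval_map, hpz] at hev
  have h0 := Fermat.Agent.RED.ev_unique hev (Fermat.Agent.RED.ev_zero P)
  have hint : IsIntegral D₁.A c := ⟨p', hp', by rw [← h0, eval_map]; rfl⟩
  obtain ⟨y, hy⟩ := IsIntegrallyClosed.isIntegral_iff.1 hint
  rw [← hy]
  exact y.2

end Fermat.Agent.MR.Node
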