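import Fermat.Agent.MR.Node.Interface

/-!
# MR / Node : NODE-C5 and NODE-C6, (N1) at the nodes and at the smooth points
-/

set_option autoImplicit false

namespace Fermat.Agent.MR.Node

open Polynomial IntermediateField AlgebraicCurve
open Fermat.Agent.INJ (IsInt RedData Arch Chart)

/-- elements integral over `k[τ]` are regular at the points where `τ` is. -/
theorem N1_mem_of_isInt {k κ : Type*} [Field k] [Field κ] [Algebra k κ] (x : ValuationSubring κ)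
    (hx : IsPt k x) (τ f : κ) (hτ : τ ∈ x) (hf : IsInt k τ f) : f ∈ x := by
  have hle : ∀ y ∈ Algebra.adjoin k {τ}, (RingHom.id κ) y ∈ x := by
    intro y hy
    induction hy using Algebra.adjoin_induction with
    | mem y hy =>
      rw [Set.mem_singleton_iff.1 hy]
      exact hτ
    | algebraMap c => exact hx.const c
    | add y y' _ _ h h' => exact add_mem h h'
    | mul y y' _ _ h h' => exact mul_mem h h'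
  have h1 : IsIntegral x f :=
    IsIntegral.map_of_comp_eq ((RingHom.id κ).restrict (Algebra.adjoin k {τ}) x hle)
      (RingHom.id κ) (by ext y; rfl) hf
  obtain ⟨y, hy⟩ := IsIntegrallyClosed.isIntegral_iff.1 h1
  rw [← hy]
  exact y.2

/-- one step: division by a uniformiser, denominators cleared. -/
theorem N1_step (hU : Stmt_PtUnif) {K F k κ : Type} [Field K] [Field F] [Algebra K F] [Field k]
    [Field κ] [Algebra k κ] (D₁ D₂ : RedData K F k κ) (T : F) (τ : κ) (hC : Compat D₁ D₂ T τ)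
    (D : RedData K F k κ) (hDO : ∀ z ∈ BB D₁ D₂ T, z ∈ D.O)
    (hsurj : ∀ f : κ, IsInt k τ f → ∃ ξ ∈ BB D₁ D₂ T, D.rd ξ = f)
    (x : ValuationSubring κ) (hx : IsPt k x) (hτ : τ ∈ x) (b : F) (hb : b ∈ BB D₁ D₂ T)
    (hbu : IsUnifAt x (D.rd b)) (z : F) (hz : z ∈ BB D₁ D₂ T) (hzv : x.valuation (D.rd z) < 1) :
    ∃ Δ ∈ BB D₁ D₂ T, ∃ N ∈ BB D₁ D₂ T, x.valuation (D.rd Δ) = 1 ∧
      D.rd (Δ * z - b * N) = 0 := by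
  obtain ⟨hb0, -, hdiv⟩ := hbu
  obtain ⟨n, d, hn, hd, hdv, hnd⟩ :=
    (hU k κ τ hC.trans hC.fin hC.sep x hx hτ).2.1 _ (hdiv _ hzv)
  obtain ⟨N, hN, hNr⟩ := hsurj n hn
  obtain ⟨Δ, hΔ, hΔr⟩ := hsurj d hd
  refine ⟨Δ, hΔ, N, hN, by rw [hΔr]; exact hdv, ?_⟩
  rw [RedData.rd_sub (mul_mem (hDO _ hΔ) (hDO _ hz)) (mul_mem (hDO _ hb) (hDO _ hN)),
    RedData.rd_mul (hDO _ hΔ) (hDO _ hz), RedData.rd_mul (hDO _ hb) (hDO _ hN), hΔr, hNr, ← hnd]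
  field_simp
  ring

/-- **NODE-C5**. -/
theorem n1 (hU : Stmt_PtUnif) (hS : Stmt_Small) : Stmt_N1 := by
  intro K F k κ _ _ _ _ _ _ D₁ D₂ T τ hC x₁ x₂ hN a ha b hb hra hrb hbu hau z hz hzv
  obtain ⟨Δ₁, hΔ₁, N₁, hN₁, hv₁, hr₁⟩ := N1_step hU D₁ D₂ T τ hC D₁ (fun _ h => h.2.1) hC.surj₁
    x₁ hN.pt₁ hN.τ₁ b hb hbu z hz hzv
  have hz' : Δ₁ * z - b * N₁ ∈ BB D₁ D₂ T := sub_mem (mul_mem hΔ₁ hz) (mul_mem hb hN₁)
  have hz'v : x₂.valuation (D₂.rd (Δ₁ * z - b * N₁)) < 1 := by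
    rw [← hN.same _ hz', hr₁, map_zero]
    exact zero_lt_one
  obtain ⟨Δ₂, hΔ₂, N₂, hN₂, hv₂, hr₂⟩ := N1_step hU D₁ D₂ T τ hC D₂ (fun _ h => h.2.2) hC.surj₂
    x₂ hN.pt₂ hN.τ₂ a ha hau _ hz' hz'v
  have hz'' : Δ₂ * (Δ₁ * z - b * N₁) - a * N₂ ∈ BB D₁ D₂ T :=
    sub_mem (mul_mem hΔ₂ hz') (mul_mem ha hN₂)
  have hr₁' : D₁.rd (Δ₂ * (Δ₁ * z - b * N₁) - a * N₂) = 0 := by
    rw [RedData.rd_sub (mul_mem hΔ₂.2.1 hz'.2.1) (mul_mem ha.2.1 hN₂.2.1),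
      RedData.rd_mul hΔ₂.2.1 hz'.2.1, RedData.rd_mul ha.2.1 hN₂.2.1, hr₁, hra, mul_zero, zero_mul,
      sub_zero]
  obtain ⟨c, hc, z₃, hz₃, he⟩ := hS K F k κ D₁ D₂ T hC.A_eq _ hz'' hr₁' hr₂
  refine ⟨Δ₂ * Δ₁, mul_mem hΔ₂ hΔ₁, N₂, hN₂, Δ₂ * N₁, mul_mem hΔ₂ hN₁, z₃, hz₃, c, hc, ?_, ?_⟩
  · have h1 : x₁.valuation (D₁.rd Δ₂) = 1 := by
      refine le_antisymm ?_ ?_
      · rw [ValuationSubring.valuation_le_one_iff]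
        exact N1_mem_of_isInt x₁ hN.pt₁ τ _ hN.τ₁ (hC.int₁ _ hΔ₂)
      · rw [← not_lt, hN.same _ hΔ₂, hv₂]
        exact lt_irrefl _
    rw [RedData.rd_mul hΔ₂.2.1 hΔ₁.2.1, map_mul, h1, hv₁, one_mul]
  · linear_combination he

/-- **NODE-C6**. -/
theorem smN1 (hU : Stmt_PtUnif) (hS : Stmt_Small) : Stmt_SmN1 := by
  intro K F k κ _ _ _ _ _ _ D₁ D₂ T τ hC x₁ hSm ϑ hϑ hϑu z hz hzv
  obtain ⟨e, he, hre₂, hve⟩ := hSm.sep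
  obtain ⟨Δ₁, hΔ₁, N₁, hN₁, hv₁, hr₁⟩ := N1_step hU D₁ D₂ T τ hC D₁ (fun _ h => h.2.1) hC.surj₁
    x₁ hSm.pt hSm.τ₁ ϑ hϑ hϑu z hz hzv
  have hz' : Δ₁ * z - ϑ * N₁ ∈ BB D₁ D₂ T := sub_mem (mul_mem hΔ₁ hz) (mul_mem hϑ hN₁)
  have hez' : e * (Δ₁ * z - ϑ * N₁) ∈ BB D₁ D₂ T := mul_mem he hz'
  have h1 : D₁.rd (e * (Δ₁ * z - ϑ * N₁)) = 0 := by
    rw [RedData.rd_mul he.2.1 hz'.2.1, hr₁, mul_zero]
  have h2 : D₂.rd (e * (Δ₁ * z - ϑ * N₁)) = 0 := by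
    rw [RedData.rd_mul he.2.2 hz'.2.2, hre₂, zero_mul]
  obtain ⟨c, hc, z₃, hz₃, hcz⟩ := hS K F k κ D₁ D₂ T hC.A_eq _ hez' h1 h2
  refine ⟨e * Δ₁, mul_mem he hΔ₁, e * N₁, mul_mem he hN₁, z₃, hz₃, c, hc, ?_, ?_⟩
  · rw [RedData.rd_mul he.2.1 hΔ₁.2.1, map_mul, hve, hv₁, one_mul]
  · linear_combination hcz

end Fermat.Agent.MR.Node
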