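import Fermat.Agent.MR.Node.Defs
import Fermat.Agent.MR.PL.Defs
import Fermat.Agent.S36.Reg.Interface

/-!
# MR / Node : the local data of `MR/PL` at the closed points of the special fibre (architect helper51)

ABSTRACT PART.  Everything is stated for a pair of INJ reduction data `D₁ = D_∞`, `D₂ = D_0` of `F / K`
with the same residue field `κ`, a chart coordinate `T : F` and a coordinate `τ : κ` of the residue curve
with `Compat D₁ D₂ T τ` (`MR/Node/Defs.lean`).  Output: `PL.LocData` (+ `PL.N3`) at the nodes and at the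
smooth points, the dichotomy node / smooth, and "cusps are smooth".

All statements are `Prop`s, each proved in its own file, with the earlier `Stmt_*` as explicit hypotheses.
-/

set_option autoImplicit false

namespace Fermat.Agent.MR.Node

open Polynomial IntermediateField AlgebraicCurve
open Fermat.Agent.INJ (IsInt RedData Arch Chart)
open Fermat.Agent.BR.Inv (TC IsPairData Normal SData SChart SN)
open Fermat.Agent.RED (Ev)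

/-! ### A. points of the residue curve -/

/-- **NODE-A1**.  The residue field of a point is `k`. -/
def Stmt_PtRes : Prop :=
  ∀ (k κ : Type) [Field k] [IsAlgClosed k] [Field κ] [Algebra k κ] (τ : κ), Transcendental k τ →
    FiniteDimensional k⟮τ⟯ κ → ∀ x : ValuationSubring κ, IsPt k x → ∀ f ∈ x,
      ∃ c : k, x.valuation (f - algebraMap k κ c) < 1

/-- **NODE-A2**.  A point `x` with `τ ∈ x` is the localisation of the integral closure of `k[τ]` at a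
maximal ideal; it is discrete, with a uniformiser integral over `k[τ]`. -/
def Stmt_PtUnif : Prop :=
  ∀ (k κ : Type) [Field k] [Field κ] [Algebra k κ] (τ : κ), Transcendental k τ →
    FiniteDimensional k⟮τ⟯ κ → Algebra.IsSeparable k⟮τ⟯ κ →
    ∀ x : ValuationSubring κ, IsPt k x → τ ∈ x →
      (∃ π : κ, IsInt k τ π ∧ IsUnifAt x π) ∧
      (∀ f ∈ x, ∃ n d : κ, IsInt k τ n ∧ IsInt k τ d ∧ x.valuation d = 1 ∧ f * d = n) ∧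
      (∀ π : κ, IsUnifAt x π → ∀ f : κ, f ≠ 0 → ∃ m : ℤ, x.valuation (f / π ^ m) = 1)

/-! ### B. the ring `BB` -/

/-- **NODE-B1**.  Elements of `BB` with both reductions `0` are divisible by a constant of `𝔪_A`. -/
def Stmt_Small : Prop :=
  ∀ (K F k κ : Type) [Field K] [Field F] [Algebra K F] [Field k] [Field κ] [Algebra k κ]
    (D₁ D₂ : RedData K F k κ) (T : F), D₁.A = D₂.A → ∀ z ∈ BB D₁ D₂ T, D₁.rd z = 0 → D₂.rd z = 0 →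
    ∃ c ∈ D₁.A.nonunits, ∃ z' ∈ BB D₁ D₂ T, z = algebraMap K F c * z'

/-- **NODE-B2**.  `BB` is a finite `A[T]`-module. -/
def Stmt_BBFin : Prop :=
  ∀ (K F k κ : Type) [Field K] [IsAlgClosed K] [CharZero K] [Field F] [Algebra K F] [Field k]
    [Field κ] [Algebra k κ] (D₁ D₂ : RedData K F k κ) (S : SData K F k (κ × κ)),
    IsPairData D₁ D₂ S → ∀ T : F, SChart S T → SN S T →
    ∃ (n : ℕ) (b : Fin n → F), (∀ i, b i ∈ BB D₁ D₂ T) ∧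
      ∀ z ∈ BB D₁ D₂ T, ∃ c : Fin n → K[X], (∀ i m, (c i).coeff m ∈ D₁.A) ∧
        z = ∑ i, aeval T (c i) * b i

/-- **NODE-B3**.  The two copies package gives `Compat` with `τ = j (rd x)`. -/
def Stmt_Compat : Prop :=
  ∀ (K F' F k L κ : Type) [Field K] [Field F'] [Algebra K F'] [Field F] [Algebra K F]
    [Field k] [Field L] [Algebra k L] [Field κ] [Algebra k κ]
    (D' : RedData K F' k L) (D₁ D₂ : RedData K F k κ) (ι₁ ι₂ : F' →ₐ[K] F) (j : L →ₐ[k] κ)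
    (Fr : L →+* L) (φb : L ≃+* L) (r : ℕ), TC D' D₁ D₂ ι₁ ι₂ j Fr φb r → Function.Surjective j →
    ∀ S : SData K F k (κ × κ), IsPairData D₁ D₂ S →
    ∀ x : F', Chart D' x → φb (D'.rd x) = D'.rd x → Normal D' x → SChart S (ι₁ x * ι₂ x) →
      IsInt K (ι₁ x * ι₂ x) (ι₁ x) → IsInt K (ι₁ x * ι₂ x) (ι₂ x) →
      Compat D₁ D₂ (ι₁ x * ι₂ x) (j (D'.rd x)) ∧
      (∀ a : L, IsInt k (D'.rd x) a → ∃ ξ ∈ BB D₁ D₂ (ι₁ x * ι₂ x),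
        D₁.rd ξ = j a ∧ D₂.rd ξ = j (Fr a)) ∧
      (∀ a : L, IsInt k (D'.rd x) a → ∃ ξ ∈ BB D₁ D₂ (ι₁ x * ι₂ x),
        D₁.rd ξ = j (Fr a) ∧ D₂.rd ξ = j a)

/-- **NODE-B4**.  `BB` is integrally closed with fraction field `F`. -/
def Stmt_BBNormal : Prop :=
  ∀ (K F k κ : Type) [Field K] [Field F] [Algebra K F] [Field k] [Field κ] [Algebra k κ]
    (D₁ D₂ : RedData K F k κ) (T : F), D₁.A = D₂.A → Algebra.IsAlgebraic K⟮T⟯ F →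
    IsFractionRing (BB D₁ D₂ T) F ∧ IsIntegrallyClosed (BB D₁ D₂ T)

/-! ### C. closed points -/

/-- **NODE-C1**.  Node or smooth. -/
def Stmt_Dich : Prop :=
  ∀ (K F k κ : Type) [Field K] [Field F] [Algebra K F] [Field k] [IsAlgClosed k] [Field κ]
    [Algebra k κ] (D₁ D₂ : RedData K F k κ) (T : F) (τ : κ), Compat D₁ D₂ T τ →
    ∀ x₁ : ValuationSubring κ, IsPt k x₁ → τ ∈ x₁ →
      (∃ x₂ : ValuationSubring κ, IsNode D₁ D₂ T τ x₁ x₂) ∨ IsSmooth D₁ D₂ T τ x₁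

/-- the elementary part of `PL.LocData`. -/
structure RingFacts {K F : Type*} [Field K] [Field F] [Algebra K F] (A : ValuationSubring K)
    (W₁ : ValuationSubring F) (R : Subring F) (n : Set F) : Prop where
  n_sub : ∀ x ∈ n, x ∈ R
  n_add : ∀ x ∈ n, ∀ y ∈ n, x + y ∈ n
  n_mul : ∀ x ∈ R, ∀ y ∈ n, x * y ∈ n
  one_not_mem : (1 : F) ∉ n
  inv_mem : ∀ x ∈ R, x ∉ n → x⁻¹ ∈ R
  const_mem : ∀ c ∈ A, algebraMap K F c ∈ R
  le₁ : ∀ x ∈ R, x ∈ W₁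
  small₁ : ∀ x ∈ R, x ∈ W₁.nonunits → x ∈ n
  res : ∀ x ∈ R, ∃ c ∈ A, x - algebraMap K F c ∈ n

/-- **NODE-C2**.  `(R_s, n_s)` is a local ring with residue field `k`, dominated by the composite of
`D₁` and `x₁`. -/
def Stmt_RingR : Prop :=
  ∀ (K F k κ : Type) [Field K] [Field F] [Algebra K F] [Field k] [IsAlgClosed k] [Field κ]
    [Algebra k κ] (D₁ D₂ : RedData K F k κ) (T : F) (τ : κ), Compat D₁ D₂ T τ →
    ∀ x₁ : ValuationSubring κ, IsPt k x₁ → τ ∈ x₁ →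
      RingFacts D₁.A D₁.O (Rs D₁ D₂ T x₁) (ns D₁ D₂ T x₁) ∧
      (∀ z ∈ Rs D₁ D₂ T x₁, D₁.rd z ∈ x₁ ∧
        (z ∈ ns D₁ D₂ T x₁ ↔ x₁.valuation (D₁.rd z) < 1)) ∧
      (∀ z ∈ BB D₁ D₂ T, z ∈ Rs D₁ D₂ T x₁)

/-- **NODE-C3**.  At a node the local ring is also dominated by the composite of `D₂` and `x₂`. -/
def Stmt_RingR2 : Prop :=
  ∀ (K F k κ : Type) [Field K] [Field F] [Algebra K F] [Field k] [IsAlgClosed k] [Field κ]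
    [Algebra k κ] (D₁ D₂ : RedData K F k κ) (T : F) (τ : κ), Compat D₁ D₂ T τ →
    ∀ x₁ x₂ : ValuationSubring κ, IsNode D₁ D₂ T τ x₁ x₂ →
      ∀ z ∈ Rs D₁ D₂ T x₁, z ∈ D₂.O ∧ D₂.rd z ∈ x₂ ∧
        (z ∈ ns D₁ D₂ T x₁ ↔ x₂.valuation (D₂.rd z) < 1)

/-- **NODE-C4** (N3).  `h ∈ BB`, `|h|_∞ ≤ |ϖ|`, `rd₂ h` a uniformiser at `x₂` : then `rd₂ a` is one. -/
def Stmt_N3 : Prop :=
  ∀ (K F k κ : Type) [Field K] [Field F] [Algebra K F] [Field k] [Field κ] [Algebra k κ]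
    (D₁ D₂ : RedData K F k κ) (T : F) (τ : κ), Compat D₁ D₂ T τ →
    ∀ x₁ x₂ : ValuationSubring κ, IsNode D₁ D₂ T τ x₁ x₂ →
    ∀ (a b h : F) (ϖ : K), ϖ ≠ 0 → a ∈ BB D₁ D₂ T → b ∈ BB D₁ D₂ T → a * b = algebraMap K F ϖ →
      D₁.rd a = 0 → D₂.rd a ≠ 0 → h ∈ BB D₁ D₂ T → h / algebraMap K F ϖ ∈ D₁.O →
      IsUnifAt x₂ (D₂.rd h) → IsUnifAt x₂ (D₂.rd a)

/-- **NODE-C5** (N1 at a node), denominators cleared. -/
def Stmt_N1 : Prop :=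
  ∀ (K F k κ : Type) [Field K] [Field F] [Algebra K F] [Field k] [Field κ] [Algebra k κ]
    (D₁ D₂ : RedData K F k κ) (T : F) (τ : κ), Compat D₁ D₂ T τ →
    ∀ x₁ x₂ : ValuationSubring κ, IsNode D₁ D₂ T τ x₁ x₂ →
    ∀ a ∈ BB D₁ D₂ T, ∀ b ∈ BB D₁ D₂ T, D₁.rd a = 0 → D₂.rd b = 0 →
      IsUnifAt x₁ (D₁.rd b) → IsUnifAt x₂ (D₂.rd a) →
    ∀ z ∈ BB D₁ D₂ T, x₁.valuation (D₁.rd z) < 1 →
      ∃ s ∈ BB D₁ D₂ T, ∃ z₁ ∈ BB D₁ D₂ T, ∃ z₂ ∈ BB D₁ D₂ T, ∃ z₃ ∈ BB D₁ D₂ T,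
        ∃ c ∈ D₁.A.nonunits, x₁.valuation (D₁.rd s) = 1 ∧
          s * z = a * z₁ + b * z₂ + algebraMap K F c * z₃

/-- **NODE-C6** (N1 at a smooth point). -/
def Stmt_SmN1 : Prop :=
  ∀ (K F k κ : Type) [Field K] [Field F] [Algebra K F] [Field k] [Field κ] [Algebra k κ]
    (D₁ D₂ : RedData K F k κ) (T : F) (τ : κ), Compat D₁ D₂ T τ →
    ∀ x₁ : ValuationSubring κ, IsSmooth D₁ D₂ T τ x₁ →
    ∀ ϑ ∈ BB D₁ D₂ T, IsUnifAt x₁ (D₁.rd ϑ) →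
    ∀ z ∈ BB D₁ D₂ T, x₁.valuation (D₁.rd z) < 1 →
      ∃ s ∈ BB D₁ D₂ T, ∃ z₁ ∈ BB D₁ D₂ T, ∃ z₃ ∈ BB D₁ D₂ T,
        ∃ c ∈ D₁.A.nonunits, x₁.valuation (D₁.rd s) = 1 ∧
          s * z = ϑ * z₁ + algebraMap K F c * z₃

/-- **NODE-C7** (`PL.N3` from a uniformiser).  `i = 1`: the branch `(D₁, x₁)`. -/
def Stmt_N3PL₁ : Prop :=
  ∀ (K F k κ : Type) [Field K] [Field F] [Algebra K F] [Field k] [IsAlgClosed k] [Field κ]
    [Algebra k κ] (D₁ D₂ : RedData K F k κ) (T : F) (τ : κ), Compat D₁ D₂ T τ →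
    ∀ x₁ : ValuationSubring κ, IsPt k x₁ → τ ∈ x₁ → ∀ b ∈ BB D₁ D₂ T, IsUnifAt x₁ (D₁.rd b) →
      PL.N3 D₁.O b (Rs D₁ D₂ T x₁) (ns D₁ D₂ T x₁)

/-- **NODE-C8** (`PL.N3` from a uniformiser).  `i = 2`: the branch `(D₂, x₂)` of a node. -/
def Stmt_N3PL₂ : Prop :=
  ∀ (K F k κ : Type) [Field K] [Field F] [Algebra K F] [Field k] [IsAlgClosed k] [Field κ]
    [Algebra k κ] (D₁ D₂ : RedData K F k κ) (T : F) (τ : κ), Compat D₁ D₂ T τ →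
    ∀ x₁ x₂ : ValuationSubring κ, IsNode D₁ D₂ T τ x₁ x₂ → ∀ a ∈ BB D₁ D₂ T,
      IsUnifAt x₂ (D₂.rd a) → PL.N3 D₂.O a (Rs D₁ D₂ T x₁) (ns D₁ D₂ T x₁)

/-! ### D. places of `F / K` and the closed points -/

/-- the facts on the places of `F / K` which are used (all known for `F = FF N`, `K = ℚ̄`). -/
structure PlaceFacts (K F : Type*) [Field K] [Field F] [Algebra K F] (T : F) : Prop where
  resK : PL.ResK K F
  /-- finitely many poles -/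
  fin : ∀ x : F, {P : Place K F | x ∉ P.toValuationSubring}.Finite
  /-- regular at all places where `T` is regular implies integral over `K[T]` -/
  int : ∀ x : F, (∀ P : Place K F, T ∈ P.toValuationSubring → x ∈ P.toValuationSubring) →
    IsInt K T x
  /-- integral elements are regular where `T` is -/
  reg : ∀ x : F, IsInt K T x → ∀ P : Place K F, T ∈ P.toValuationSubring →
    x ∈ P.toValuationSubring
  /-- the local ring of a place where `T` is regular is a localisation of the integral closure -/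
  loc : ∀ P : Place K F, T ∈ P.toValuationSubring → ∀ f ∈ P.toValuationSubring,
    ∃ n d : F, IsInt K T n ∧ IsInt K T d ∧ P.ord d = 0 ∧ d ≠ 0 ∧ f * d = n

/-- **NODE-D1**.  Values of elements of `BB` at a place with `T(P) ∈ A` lie in `A`. -/
def Stmt_ValA : Prop :=
  ∀ (K F k κ : Type) [Field K] [Field F] [Algebra K F] [Field k] [Field κ] [Algebra k κ]
    (D₁ D₂ : RedData K F k κ) (T : F) (n : ℕ) (b : Fin n → F), (∀ i, b i ∈ BB D₁ D₂ T) →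
    (∀ z ∈ BB D₁ D₂ T, ∃ c : Fin n → K[X], (∀ i m, (c i).coeff m ∈ D₁.A) ∧
        z = ∑ i, aeval T (c i) * b i) →
    ∀ (P : Place K F) (t₀ : K), Ev P T t₀ → t₀ ∈ D₁.A → ∀ z ∈ BB D₁ D₂ T, ∀ c : K, Ev P z c →
      c ∈ D₁.A

/-- **NODE-D2** (criterion).  A place `P` with `T` regular at `P` which is not centred at `s`:
there is `d ∈ BB`, a unit at `s`, vanishing at `P`. -/
def Stmt_Kill : Prop :=
  ∀ (K F k κ : Type) [Field K] [Field F] [Algebra K F] [Field k] [IsAlgClosed k] [Field κ]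
    [Algebra k κ] (D₁ D₂ : RedData K F k κ) (T : F) (τ : κ), Compat D₁ D₂ T τ → T ∈ BB D₁ D₂ T →
    PlaceFacts K F T →
    (∀ (P : Place K F) (t₀ : K), Ev P T t₀ → t₀ ∈ D₁.A → ∀ z ∈ BB D₁ D₂ T, ∀ c : K, Ev P z c →
      c ∈ D₁.A) →
    ∀ x₁ : ValuationSubring κ, IsPt k x₁ → τ ∈ x₁ →
    ∀ P : Place K F, T ∈ P.toValuationSubring →
      ¬ PL.Centred D₁.A (Rs D₁ D₂ T x₁) (ns D₁ D₂ T x₁) P →
      ∃ d ∈ BB D₁ D₂ T, x₁.valuation (D₁.rd d) = 1 ∧ Ev P d 0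

/-- **NODE-D3** (REG). -/
def Stmt_Reg : Prop :=
  ∀ (K F k κ : Type) [Field K] [Field F] [Algebra K F] [Field k] [IsAlgClosed k] [Field κ]
    [Algebra k κ] (D₁ D₂ : RedData K F k κ) (T : F) (τ : κ), Compat D₁ D₂ T τ → T ∈ BB D₁ D₂ T →
    PlaceFacts K F T →
    ∀ x₁ : ValuationSubring κ, IsPt k x₁ → τ ∈ x₁ →
    (∀ P : Place K F, T ∈ P.toValuationSubring →
      ¬ PL.Centred D₁.A (Rs D₁ D₂ T x₁) (ns D₁ D₂ T x₁) P →
      ∃ d ∈ BB D₁ D₂ T, x₁.valuation (D₁.rd d) = 1 ∧ Ev P d 0) →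
    ∀ z ∈ D₁.O, z ∈ D₂.O →
      (∀ P : Place K F, PL.Centred D₁.A (Rs D₁ D₂ T x₁) (ns D₁ D₂ T x₁) P →
        z ∈ P.toValuationSubring) → z ∈ Rs D₁ D₂ T x₁

/-- **NODE-D4** (REG at a smooth point: only `z ∈ O_∞` is needed). -/
def Stmt_RegSm : Prop :=
  ∀ (K F k κ : Type) [Field K] [Field F] [Algebra K F] [Field k] [IsAlgClosed k] [Field κ]
    [Algebra k κ] (D₁ D₂ : RedData K F k κ) (T : F) (τ : κ), Compat D₁ D₂ T τ → Arch D₁ →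
    ∀ x₁ : ValuationSubring κ, IsSmooth D₁ D₂ T τ x₁ →
    (∀ z ∈ D₁.O, z ∈ D₂.O →
      (∀ P : Place K F, PL.Centred D₁.A (Rs D₁ D₂ T x₁) (ns D₁ D₂ T x₁) P →
        z ∈ P.toValuationSubring) → z ∈ Rs D₁ D₂ T x₁) →
    ∀ z ∈ D₁.O,
      (∀ P : Place K F, PL.Centred D₁.A (Rs D₁ D₂ T x₁) (ns D₁ D₂ T x₁) P →
        z ∈ P.toValuationSubring) → z ∈ Rs D₁ D₂ T x₁

/-- **NODE-D5** (SEP) and (UNIF). -/
def Stmt_SepUnif : Prop :=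
  ∀ (K F k κ : Type) [Field K] [Field F] [Algebra K F] [Field k] [IsAlgClosed k] [Field κ]
    [Algebra k κ] (D₁ D₂ : RedData K F k κ) (T : F) (τ : κ), Compat D₁ D₂ T τ → T ∈ BB D₁ D₂ T →
    PlaceFacts K F T →
    ∀ x₁ : ValuationSubring κ, IsPt k x₁ → τ ∈ x₁ →
    (∀ P P' : Place K F, PL.Centred D₁.A (Rs D₁ D₂ T x₁) (ns D₁ D₂ T x₁) P →
      PL.Centred D₁.A (Rs D₁ D₂ T x₁) (ns D₁ D₂ T x₁) P' →
      (∀ z ∈ Rs D₁ D₂ T x₁, PL.val P z = PL.val P' z) → P = P') ∧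
    (∀ P : Place K F, PL.Centred D₁.A (Rs D₁ D₂ T x₁) (ns D₁ D₂ T x₁) P →
      ∃ z ∈ Rs D₁ D₂ T x₁, P.ord (z - algebraMap K F (PL.val P z)) = 1)

/-- **NODE-D6** (FG). -/
def Stmt_FG : Prop :=
  ∀ (K F k κ : Type) [Field K] [Field F] [Algebra K F] [Field k] [Field κ] [Algebra k κ]
    (D₁ D₂ : RedData K F k κ) (T : F) (n : ℕ) (b : Fin n → F), T ∈ BB D₁ D₂ T →
    (∀ i, b i ∈ BB D₁ D₂ T) →
    (∀ z ∈ BB D₁ D₂ T, ∃ c : Fin n → K[X], (∀ i m, (c i).coeff m ∈ D₁.A) ∧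
        z = ∑ i, aeval T (c i) * b i) →
    ∀ x₁ : ValuationSubring κ, ∃ S : Finset F, (∀ s ∈ S, s ∈ Rs D₁ D₂ T x₁) ∧
      ∀ z ∈ Rs D₁ D₂ T x₁, ∃ y ∈ PL.adj D₁.A (S : Set F), ∃ w ∈ PL.adj D₁.A (S : Set F),
        w ∉ ns D₁ D₂ T x₁ ∧ z * w = y

/-! ### E. assembly -/

/-- the standing hypotheses of the assembly. -/
structure Std {K F k κ : Type*} [Field K] [Field F] [Algebra K F] [Field k] [Field κ] [Algebra k κ]
    (D₁ D₂ : RedData K F k κ) (T : F) (τ : κ) : Prop where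
  compat : Compat D₁ D₂ T τ
  arch : Arch D₁
  T_mem : T ∈ BB D₁ D₂ T
  places : PlaceFacts K F T
  fin : ∃ (n : ℕ) (b : Fin n → F), (∀ i, b i ∈ BB D₁ D₂ T) ∧
      ∀ z ∈ BB D₁ D₂ T, ∃ c : Fin n → K[X], (∀ i m, (c i).coeff m ∈ D₁.A) ∧
        z = ∑ i, aeval T (c i) * b i

/-- **NODE-E1** : `PL.LocData` and `PL.N3` at a node. -/
def Stmt_NodeLoc : Prop :=
  ∀ (K F k κ : Type) [Field K] [Field F] [Algebra K F] [Field k] [IsAlgClosed k] [Field κ]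
    [Algebra k κ] (D₁ D₂ : RedData K F k κ) (T : F) (τ : κ), Std D₁ D₂ T τ →
    ∀ x₁ x₂ : ValuationSubring κ, IsNode D₁ D₂ T τ x₁ x₂ →
    ∀ a ∈ BB D₁ D₂ T, ∀ b ∈ BB D₁ D₂ T, D₁.rd a = 0 → D₂.rd b = 0 →
      IsUnifAt x₁ (D₁.rd b) → IsUnifAt x₂ (D₂.rd a) →
      PL.LocData D₁.A D₁.O D₂.O a b (Rs D₁ D₂ T x₁) (ns D₁ D₂ T x₁) ∧
      PL.N3 D₂.O a (Rs D₁ D₂ T x₁) (ns D₁ D₂ T x₁) ∧
      PL.N3 D₁.O b (Rs D₁ D₂ T x₁) (ns D₁ D₂ T x₁)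

/-- **NODE-E2** : `PL.LocData` and `PL.N3` at a smooth point. -/
def Stmt_SmoothLoc : Prop :=
  ∀ (K F k κ : Type) [Field K] [Field F] [Algebra K F] [Field k] [IsAlgClosed k] [Field κ]
    [Algebra k κ] (D₁ D₂ : RedData K F k κ) (T : F) (τ : κ), Std D₁ D₂ T τ →
    ∀ x₁ : ValuationSubring κ, IsSmooth D₁ D₂ T τ x₁ →
    ∀ ϑ ∈ BB D₁ D₂ T, IsUnifAt x₁ (D₁.rd ϑ) →
      PL.LocData D₁.A D₁.O D₁.O ϑ ϑ (Rs D₁ D₂ T x₁) (ns D₁ D₂ T x₁) ∧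
      PL.N3 D₁.O ϑ (Rs D₁ D₂ T x₁) (ns D₁ D₂ T x₁)

/-! ### F. the two copies: uniformisers at the nodes, cusps -/

/-- **NODE-F1**.  At a node `Fr² c - c` is a uniformiser at `x₂` if `c` is. -/
def Stmt_FrobPt : Prop :=
  ∀ (K F' F k L κ : Type) [Field K] [Field F'] [Algebra K F'] [Field F] [Algebra K F]
    [Field k] [Field L] [Algebra k L] [Field κ] [Algebra k κ]
    (D' : RedData K F' k L) (D₁ D₂ : RedData K F k κ) (ι₁ ι₂ : F' →ₐ[K] F) (j : L →ₐ[k] κ)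
    (Fr : L →+* L) (φb : L ≃+* L) (r : ℕ), TC D' D₁ D₂ ι₁ ι₂ j Fr φb r →
    ∀ x : F', φb (D'.rd x) = D'.rd x →
    (∀ a : L, IsInt k (D'.rd x) a → ∃ ξ ∈ BB D₁ D₂ (ι₁ x * ι₂ x),
        D₁.rd ξ = j a ∧ D₂.rd ξ = j (Fr a)) →
    (∀ a : L, IsInt k (D'.rd x) a → ∃ ξ ∈ BB D₁ D₂ (ι₁ x * ι₂ x),
        D₁.rd ξ = j (Fr a) ∧ D₂.rd ξ = j a) →
    ∀ x₁ x₂ : ValuationSubring κ, IsNode D₁ D₂ (ι₁ x * ι₂ x) (j (D'.rd x)) x₁ x₂ →
    ∀ c : L, IsInt k (D'.rd x) c → IsUnifAt x₂ (j c) → IsUnifAt x₂ (j (Fr (Fr c) - c))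

/-- the Frobenius congruence: `g'` is a "Frobenius conjugate" of `g`. -/
def FrobCong {K F' F k L κ : Type*} [Field K] [Field F'] [Algebra K F'] [Field F] [Algebra K F]
    [Field k] [Field L] [Algebra k L] [Field κ] [Algebra k κ] (D' : RedData K F' k L)
    (D₁ : RedData K F k κ) (ι₁ ι₂ : F' →ₐ[K] F) (φb : L ≃+* L) (r : ℕ) (x g g' : F') : Prop :=
  g ∈ D'.O ∧ g' ∈ D'.O ∧ IsInt K x g ∧ IsInt K x g' ∧ D'.rd g' = φb (D'.rd g) ∧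
    (ι₁ g ^ r - ι₂ g') / algebraMap K F (r : K) ∈ D₁.O

/-- **NODE-F2**.  `rd₂ a` is a uniformiser at `x₂`, for every node (from F1, C4, A1, A2). -/
def Stmt_UnifA : Prop :=
  ∀ (K F' F k L κ : Type) [Field K] [CharZero K] [Field F'] [Algebra K F'] [Field F] [Algebra K F]
    [Field k] [IsAlgClosed k] [Field L] [Algebra k L] [Field κ] [Algebra k κ]
    (D' : RedData K F' k L) (D₁ D₂ : RedData K F k κ) (ι₁ ι₂ : F' →ₐ[K] F) (j : L →ₐ[k] κ)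
    (Fr : L →+* L) (φb : L ≃+* L) (r : ℕ), TC D' D₁ D₂ ι₁ ι₂ j Fr φb r → Function.Surjective j →
    ∀ x : F', φb (D'.rd x) = D'.rd x → Compat D₁ D₂ (ι₁ x * ι₂ x) (j (D'.rd x)) →
      IsInt K (ι₁ x * ι₂ x) (ι₁ x) → IsInt K (ι₁ x * ι₂ x) (ι₂ x) →
    (∀ a : L, IsInt k (D'.rd x) a → ∃ ξ ∈ BB D₁ D₂ (ι₁ x * ι₂ x),
        D₁.rd ξ = j a ∧ D₂.rd ξ = j (Fr a)) →
    (∀ a : L, IsInt k (D'.rd x) a → ∃ ξ ∈ BB D₁ D₂ (ι₁ x * ι₂ x),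
        D₁.rd ξ = j (Fr a) ∧ D₂.rd ξ = j a) →
    (∀ f : L, IsInt k (D'.rd x) f → ∃ g g' : F', FrobCong D' D₁ ι₁ ι₂ φb r x g g' ∧ D'.rd g = f) →
    ∀ a ∈ BB D₁ D₂ (ι₁ x * ι₂ x), ∀ b ∈ BB D₁ D₂ (ι₁ x * ι₂ x),
      a * b = algebraMap K F (r : K) → D₁.rd a = 0 → D₂.rd a ≠ 0 →
    ∀ x₁ x₂ : ValuationSubring κ, IsNode D₁ D₂ (ι₁ x * ι₂ x) (j (D'.rd x)) x₁ x₂ →
      IsUnifAt x₂ (D₂.rd a)

/-- **NODE-F3**.  Cusps are not nodes.  `Z = 1 / j(q^d)`, `W = 1 / j(q^(d r))`. -/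
def Stmt_CuspSmooth : Prop :=
  ∀ (K F k κ : Type) [Field K] [Field F] [Algebra K F] [Field k] [IsAlgClosed k] [Field κ]
    [Algebra k κ] (D₁ D₂ : RedData K F k κ) (T : F) (τ : κ), Compat D₁ D₂ T τ →
    Algebra.IsAlgebraic K⟮T⟯ F →
    ∀ (r : ℕ) (c : ℕ → ℕ → ℤ) (Z W : F) (ζ : κ), 2 ≤ r →
      S36.Reg.PhiShape r c → ζ ≠ 0 →
      (∑ a ∈ Finset.range (r + 2), ∑ b ∈ Finset.range (r + 2), (c a b : F) * Z ^ a * W ^ b = 0) →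
      D₁.rd Z = ζ → D₁.rd W = ζ ^ r → D₂.rd Z = ζ ^ r → D₂.rd W = ζ →
    ∀ x₁ : ValuationSubring κ, IsPt k x₁ → τ ∈ x₁ → x₁.valuation ζ < 1 →
      Z ∈ Rs D₁ D₂ T x₁ → W ∈ Rs D₁ D₂ T x₁ → IsSmooth D₁ D₂ T τ x₁

end Fermat.Agent.MR.Node
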