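/-
TEAM MR (S44), block [Node], task NODE-A2 (helper26): a point `x` with `τ ∈ x` is the localisation of
the integral closure of `k[τ]` at a maximal ideal; it is discrete (`Stmt_PtUnif`).
-/
import Fermat.Agent.MR.Node.Interface
import Fermat.Agent.S24.FundId

set_option autoImplicit false

namespace Fermat.Agent.MR.Node

open Polynomial IntermediateField IsDedekindDomain
open Fermat.Agent.INJ (IsInt)
open Fermat.Agent.S24 (polyRing intRing polyRing_isPrincipalIdealRing intRing_isFractionRing)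
open scoped IntermediateField.algebraAdjoinAdjoin

section Abstract

variable {B κ : Type*} [CommRing B] [IsDedekindDomain B] [Field κ] [Algebra B κ]
  [IsFractionRing B κ]

/-- a proper valuation subring containing the Dedekind domain `B` is the valuation ring of a
maximal ideal of `B`. -/
theorem PtUnif_exists_prime (x : ValuationSubring κ) (h : ∀ r : B, algebraMap B κ r ∈ x)
    (hx : x ≠ ⊤) : ∃ P : HeightOneSpectrum B, (P.valuation κ).valuationSubring = x := by
  classical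
  let φ : B →+* x := (algebraMap B κ).codRestrict x.toSubring h
  have hφ : ∀ r, ((φ r : x) : κ) = algebraMap B κ r := fun r => rfl
  let 𝔭 : Ideal B := (IsLocalRing.maximalIdeal x).comap φ
  have hprime : 𝔭.IsPrime := Ideal.comap_isPrime φ _
  have hmem𝔭 : ∀ r, r ∈ 𝔭 ↔ ¬ IsUnit (φ r) := by
    intro r
    rw [Ideal.mem_comap, IsLocalRing.mem_maximalIdeal, mem_nonunits_iff]
  have hinv : ∀ d : B, d ∉ 𝔭 → (algebraMap B κ d)⁻¹ ∈ x := by
    intro d hd
    rw [hmem𝔭, not_not] at hd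
    obtain ⟨u, hu⟩ := hd
    have h3 : ((u : x) : κ) * (((u⁻¹ : xˣ) : x) : κ) = 1 := congrArg (Subtype.val) (u.mul_inv)
    rw [← hφ d, ← hu, inv_eq_of_mul_eq_one_right h3]
    exact Subtype.property _
  have hne : 𝔭 ≠ ⊥ := by
    intro hbot
    apply hx
    refine SetLike.ext fun y => ⟨fun _ => ValuationSubring.mem_top y, fun _ => ?_⟩
    obtain ⟨a, b, hb, rfl⟩ := IsFractionRing.div_surjective (A := B) y
    have hb0 : b ≠ 0 := nonZeroDivisors.ne_zero hb
    have hb𝔭 : b ∉ 𝔭 := by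
      rw [hbot, Ideal.mem_bot]
      exact hb0
    rw [div_eq_mul_inv]
    exact x.mul_mem _ _ (h a) (hinv b hb𝔭)
  let P : HeightOneSpectrum B := ⟨𝔭, hprime, hne⟩
  have hle : (P.valuation κ).valuationSubring ≤ x := by
    intro y hy
    rw [Valuation.mem_valuationSubring_iff] at hy
    obtain ⟨n, d, hnd⟩ := P.exists_primeCompl_mul_eq_of_integer y hy
    have hd𝔭 : (d : B) ∉ 𝔭 := d.2
    have hd0 : algebraMap B κ (d : B) ≠ 0 := by
      intro h0
      apply hd𝔭
      have : (d : B) = 0 := (IsFractionRing.injective B κ) (by rw [h0, map_zero])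
      rw [this]
      exact 𝔭.zero_mem
    have hy' : y = algebraMap B κ n * (algebraMap B κ (d : B))⁻¹ := by
      rw [← hnd, mul_assoc, mul_inv_cancel₀ hd0, mul_one]
    rw [hy']
    exact x.mul_mem _ _ (h n) (hinv d hd𝔭)
  refine ⟨P, ?_⟩
  rw [← P.valuationSubringAtPrime_eq_valuationSubring] at hle ⊢
  exact ValuationSubring.eq_of_le_of_ne_top _ hle hx

/-- in `ℤᵐ⁰`, `a < 1` implies `a ≤ exp (-1)`. -/
theorem PtUnif_le_exp {a : WithZero (Multiplicative ℤ)} (ha : a < 1) :
    a ≤ WithZero.exp (-1 : ℤ) := by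
  by_cases h0 : a = 0
  · rw [h0]; exact zero_le
  · rw [← WithZero.exp_log h0, ← WithZero.exp_zero, WithZero.exp_lt_exp] at ha
    rw [← WithZero.exp_log h0, WithZero.exp_le_exp]
    omega

/-- the three assertions for the valuation ring of a maximal ideal of `B`. -/
theorem PtUnif_abs (P : HeightOneSpectrum B) :
    (∃ π : B, IsUnifAt (P.valuation κ).valuationSubring (algebraMap B κ π)) ∧
    (∀ f ∈ (P.valuation κ).valuationSubring, ∃ n d : B,
      (P.valuation κ).valuationSubring.valuation (algebraMap B κ d) = 1 ∧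
        f * algebraMap B κ d = algebraMap B κ n) ∧
    (∀ π : κ, IsUnifAt (P.valuation κ).valuationSubring π → ∀ f : κ, f ≠ 0 →
      ∃ m : ℤ, (P.valuation κ).valuationSubring.valuation (f / π ^ m) = 1) := by
  set w := P.valuation κ with hw
  have heq : w.IsEquiv w.valuationSubring.valuation := Valuation.isEquiv_valuation_valuationSubring w
  have hlt : ∀ f : κ, w.valuationSubring.valuation f < 1 ↔ w f < 1 :=
    fun f => (heq.lt_one_iff_lt_one).symm
  have hone : ∀ f : κ, w.valuationSubring.valuation f = 1 ↔ w f = 1 :=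
    fun f => (heq.eq_one_iff_eq_one).symm
  have hmem : ∀ f : κ, f ∈ w.valuationSubring ↔ w f ≤ 1 :=
    fun f => Valuation.mem_valuationSubring_iff w f
  obtain ⟨π₀, hπ₀⟩ := P.valuation_exists_uniformizer' κ
  have hπ₀' : w (algebraMap B κ π₀) = WithZero.exp (-1 : ℤ) := hπ₀
  have hexp0 : (WithZero.exp (-1 : ℤ) : WithZero (Multiplicative ℤ)) ≠ 0 := WithZero.exp_ne_zero
  have hexp1 : (WithZero.exp (-1 : ℤ) : WithZero (Multiplicative ℤ)) < 1 := by
    rw [← WithZero.exp_zero, WithZero.exp_lt_exp]; omega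
  have hπ₀ne : algebraMap B κ π₀ ≠ 0 := by
    intro h0
    rw [h0, map_zero] at hπ₀'
    exact hexp0 hπ₀'.symm
  refine ⟨⟨π₀, hπ₀ne, ?_, fun f hf => ?_⟩, fun f hf => ?_, fun π hπ f hf => ?_⟩
  · rw [hlt, hπ₀']; exact hexp1
  · rw [hmem, map_div₀, hπ₀']
    exact (div_le_one₀ (zero_lt_iff.2 hexp0)).2 (PtUnif_le_exp ((hlt f).1 hf))
  · obtain ⟨n, d, hnd⟩ := P.exists_primeCompl_mul_eq_of_integer f ((hmem f).1 hf)
    exact ⟨n, d, (hone _).2 (P.valuation_eq_one_iff_notMem.2 d.2), hnd⟩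
  · obtain ⟨hπ0, hπ1, hπ2⟩ := hπ
    have h1 : w π ≤ WithZero.exp (-1 : ℤ) := PtUnif_le_exp ((hlt π).1 hπ1)
    have hwπ0 : w π ≠ 0 := (Valuation.ne_zero_iff w).2 hπ0
    have h2 : WithZero.exp (-1 : ℤ) ≤ w π := by
      have h3 := (hmem _).1 (hπ2 (algebraMap B κ π₀) (by rw [hlt, hπ₀']; exact hexp1))
      rw [map_div₀, hπ₀'] at h3
      exact (div_le_one₀ (zero_lt_iff.2 hwπ0)).1 h3
    have hwπ : w π = WithZero.exp (-1 : ℤ) := le_antisymm h1 h2
    have hwf0 : w f ≠ 0 := (Valuation.ne_zero_iff w).2 hf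
    refine ⟨- WithZero.log (w f), ?_⟩
    rw [hone, map_div₀, map_zpow₀, hwπ, ← WithZero.exp_zsmul, smul_eq_mul, neg_mul_neg, mul_one,
      WithZero.exp_log hwf0, div_self hwf0]

end Abstract

/-- change of the base ring for integrality. -/
theorem PtUnif_isIntegral_of_hom {F R₁ R₂ : Type*} [Field F] [CommRing R₁] [CommRing R₂]
    [Algebra R₁ F] [Algebra R₂ F] (ι : R₁ →+* R₂)
    (hι : ∀ a, algebraMap R₂ F (ι a) = algebraMap R₁ F a) {x : F} (hx : IsIntegral R₁ x) :
    IsIntegral R₂ x := by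
  obtain ⟨p, hp, he⟩ := hx
  refine ⟨p.map ι, hp.map ι, ?_⟩
  rw [eval₂_map]
  have : (algebraMap R₂ F).comp ι = algebraMap R₁ F := RingHom.ext hι
  rw [this]
  exact he

/-- elements integral over `k[τ]` lie in every valuation ring containing `k` and `τ`. -/
theorem PtUnif_mem_of_isInt {k κ : Type*} [Field k] [Field κ] [Algebra k κ] {τ : κ}
    (x : ValuationSubring κ) (hk : ∀ c : k, algebraMap k κ c ∈ x) (hτ : τ ∈ x) {z : κ}
    (hz : IsInt k τ z) : z ∈ x := by
  let O' : Subalgebra k κ := { x.toSubring.toSubsemiring with algebraMap_mem' := hk }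
  have hle : Algebra.adjoin k {τ} ≤ O' := Algebra.adjoin_le (by
    intro y hy
    rw [Set.mem_singleton_iff.1 hy]
    exact hτ)
  have hS : ∀ a : Algebra.adjoin k {τ}, (a : κ) ∈ x := fun a => hle a.2
  have h1 : IsIntegral x z :=
    PtUnif_isIntegral_of_hom ((Algebra.adjoin k {τ}).val.toRingHom.codRestrict x hS)
      (fun a => rfl) hz
  obtain ⟨y, hy⟩ := (IsIntegrallyClosed.isIntegral_iff (R := x) (K := κ)).1 h1
  rw [← hy]
  exact y.2

theorem ptUnif : Stmt_PtUnif := by
  intro k κ _ _ _ τ ht hfd hsep x hx hτ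
  have := polyRing_isPrincipalIdealRing ht
  have : IsDedekindDomain (intRing k τ) := integralClosure.isDedekindDomain (polyRing k τ) k⟮τ⟯ κ
  have := intRing_isFractionRing (K := k) τ
  have hint : ∀ r : intRing k τ, IsInt k τ (algebraMap (intRing k τ) κ r) := fun r => r.2
  obtain ⟨P, hP⟩ := PtUnif_exists_prime (B := intRing k τ) x
    (fun r => PtUnif_mem_of_isInt x hx.const hτ (hint r)) hx.ne_top
  obtain ⟨⟨π, hπ⟩, h2, h3⟩ := PtUnif_abs (κ := κ) P
  rw [hP] at hπ h2 h3
  refine ⟨⟨algebraMap (intRing k τ) κ π, hint π, hπ⟩, fun f hf => ?_, h3⟩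
  obtain ⟨n, d, hd, hnd⟩ := h2 f hf
  exact ⟨algebraMap (intRing k τ) κ n, algebraMap (intRing k τ) κ d, hint n, hint d, hd, hnd⟩

end Fermat.Agent.MR.Node
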