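import Fermat.Agent.MR.Node.Interface

/-!
# MR / Node : (NODE-B1) elements of `BB` with both reductions `0` are in `𝔪_A · BB`
-/

set_option autoImplicit false

namespace Fermat.Agent.MR.Node

open Fermat.Agent.INJ (IsInt RedData)

section

variable {K F k κ : Type*} [Field K] [Field F] [Algebra K F] [Field k] [Field κ] [Algebra k κ]

/-- constants are integral over `K[T]`. -/
theorem Small_isInt_const (T : F) (a : K) : IsInt K T (algebraMap K F a) := by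
  unfold IsInt
  rw [IsScalarTower.algebraMap_apply K (Algebra.adjoin K {T}) F]
  exact isIntegral_algebraMap

/-- a constant which makes an element of reduction `0` a unit is not in `A`. -/
theorem Small_not_mem (D : RedData K F k κ) {z : F} (hz : z ∈ D.O) (hr : D.rd z = 0) {a : K}
    (h0 : z * algebraMap K F a ≠ 0) (h1 : z * algebraMap K F a ∈ D.O)
    (h2 : (z * algebraMap K F a)⁻¹ ∈ D.O) : a ∉ D.A := by
  intro ha
  apply RedData.rd_ne_zero_of_inv_mem h0 h1 h2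
  rw [RedData.rd_mul hz (RedData.algebraMap_mem ha), hr, zero_mul]

theorem Small_inv_mem_nonunits (A : ValuationSubring K) {a : K} (ha : a ∉ A) :
    a⁻¹ ∈ A.nonunits := by
  rw [ValuationSubring.mem_nonunits_iff, map_inv₀]
  have h1 : 1 < A.valuation a := by
    rw [← not_le, ValuationSubring.valuation_le_one_iff]
    exact ha
  exact inv_lt_one_of_one_lt₀ h1

/-- the main step, for an ordered pair of constants. -/
theorem Small_aux (D₁ D₂ : RedData K F k κ) (T : F) {z : F} (hz : IsInt K T z)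
    (hz1 : z ∈ D₁.O) (hr1 : D₁.rd z = 0) {a₁ a₂ : K} (ha1 : a₁ ≠ 0) (ha2 : a₂ ≠ 0) (hz0 : z ≠ 0)
    (h1 : z * algebraMap K F a₁ ∈ D₁.O) (h1' : (z * algebraMap K F a₁)⁻¹ ∈ D₁.O)
    (h2 : z * algebraMap K F a₂ ∈ D₂.O) (h : a₁ / a₂ ∈ D₂.A) :
    ∃ c ∈ D₁.A.nonunits, ∃ z' : F, (IsInt K T z' ∧ z' ∈ D₁.O ∧ z' ∈ D₂.O) ∧
      z = algebraMap K F c * z' := by
  have hA1 : algebraMap K F a₁ ≠ 0 := (map_ne_zero _).2 ha1
  have hA2 : algebraMap K F a₂ ≠ 0 := (map_ne_zero _).2 ha2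
  refine ⟨a₁⁻¹, Small_inv_mem_nonunits _ (Small_not_mem D₁ hz1 hr1 (mul_ne_zero hz0 hA1) h1 h1'),
    z * algebraMap K F a₁, ⟨IsIntegral.mul hz (Small_isInt_const T a₁), h1, ?_⟩, ?_⟩
  · have h3 : z * algebraMap K F a₁ = (z * algebraMap K F a₂) * algebraMap K F (a₁ / a₂) := by
      rw [map_div₀]
      field_simp
    rw [h3]
    exact mul_mem h2 (RedData.algebraMap_mem h)
  · rw [map_inv₀]
    field_simp

end

/-- **NODE-B1** -/
theorem small : Stmt_Small := by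
  intro K F k κ _ _ _ _ _ _ D₁ D₂ T hA z hz hr1 hr2
  obtain ⟨hzi, hz1, hz2⟩ := hz
  by_cases hz0 : z = 0
  · refine ⟨0, ?_, 0, zero_mem _, by rw [hz0, mul_zero]⟩
    rw [ValuationSubring.mem_nonunits_iff, map_zero]
    exact zero_lt_one
  obtain ⟨a₁, ha1, h1, h1'⟩ := D₁.unram z hz0
  obtain ⟨a₂, ha2, h2, h2'⟩ := D₂.unram z hz0
  rcases D₂.A.mem_or_inv_mem (a₁ / a₂) with h | h
  · obtain ⟨c, hc, z', hz', e⟩ := Small_aux D₁ D₂ T hzi hz1 hr1 ha1 ha2 hz0 h1 h1' h2 h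
    exact ⟨c, hc, z', hz', e⟩
  · rw [inv_div, ← hA] at h
    obtain ⟨c, hc, z', ⟨i1, i2, i3⟩, e⟩ := Small_aux D₂ D₁ T hzi hz2 hr2 ha2 ha1 hz0 h2 h2' h1 h
    rw [← hA] at hc
    exact ⟨c, hc, z', ⟨i1, i3, i2⟩, e⟩

end Fermat.Agent.MR.Node
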