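import Fermat.Agent.MR.Node.FinalInterface
import Fermat.Agent.S24.PlaceBasic

/-!
# MR / Node : task NODE-H2 (helper72).  DICT-2 : places of `κ / k`, `ord` versus valuation.
-/

set_option autoImplicit false

namespace Fermat.Agent.MR.Node

open AlgebraicCurve

theorem placeOrd : Stmt_PlaceOrd := by
  intro k κ _ _ _ x
  have hmem : ∀ f : κ, f ≠ 0 → (f ∈ x.toValuationSubring ↔ 0 ≤ x.ord f) :=
    fun f hf => Fermat.Agent.S24.mem_iff_ord_nonneg x hf
  have hlt : ∀ f : κ, f ≠ 0 → (x.toValuationSubring.valuation f < 1 ↔ 0 < x.ord f) := by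
    intro f hf
    have hpos : 0 < x.toValuationSubring.valuation f :=
      zero_lt_iff.2 ((Valuation.ne_zero_iff _).2 hf)
    have h1 := hmem f⁻¹ (inv_ne_zero hf)
    rw [← ValuationSubring.valuation_le_one_iff, map_inv₀, inv_le_one₀ hpos, x.ord_inv] at h1
    rw [← not_le, h1]
    omega
  have heq : ∀ f : κ, f ≠ 0 → (x.toValuationSubring.valuation f = 1 ↔ x.ord f = 0) := by
    intro f hf
    have h1 := hmem f hf
    rw [← ValuationSubring.valuation_le_one_iff] at h1
    have h2 := hlt f hf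
    constructor
    · intro h
      have h3 : 0 ≤ x.ord f := h1.1 h.le
      have h4 : ¬ 0 < x.ord f := fun h5 => (h2.2 h5).ne h
      omega
    · intro h
      have h3 : x.toValuationSubring.valuation f ≤ 1 := h1.2 h.ge
      have h4 : ¬ x.toValuationSubring.valuation f < 1 := fun h5 => by
        have := h2.1 h5
        omega
      exact le_antisymm h3 (not_lt.1 h4)
  refine ⟨⟨x.algebraMap_mem', x.ne_top'⟩, heq, hmem, hlt, ?_⟩
  rintro π ⟨hπ0, hπ1, hπ2⟩
  have h1 : 0 < x.ord π := (hlt π hπ0).1 hπ1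
  obtain ⟨t, ht⟩ := Fermat.Agent.S24.exists_ord_eq_one x
  have ht0 : t ≠ 0 := by
    rintro rfl
    rw [x.ord_zero] at ht
    omega
  have h2 : t / π ∈ x.toValuationSubring := hπ2 t ((hlt t ht0).2 (by omega))
  have h3 := (hmem (t / π) (div_ne_zero ht0 hπ0)).1 h2
  rw [div_eq_mul_inv, x.ord_mul ht0 (inv_ne_zero hπ0), x.ord_inv, ht] at h3
  omega

end Fermat.Agent.MR.Node
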