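import Fermat.Agent.MR.Node.FinalInterface

/-!
# MR / Node : DICT-1, `Shape` and reductions (`Stmt_ShapeRd`)
-/

set_option autoImplicit false

namespace Fermat.Agent.MR.Node

open Fermat.Agent.INJ (IsInt RedData)

section

variable {K F k κ : Type*} [Field K] [Field F] [Algebra K F] [Field k] [Field κ] [Algebra k κ]

theorem ShapeRd_rd_zpow {D : RedData K F k κ} {t : F} (h : D.rd t ≠ 0) (m : ℤ) :
    D.rd (t ^ m) = D.rd t ^ m := by
  have ht := RedData.mem_of_rd_ne_zero h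
  cases m with
  | ofNat n =>
    rw [Int.ofNat_eq_natCast, zpow_natCast, zpow_natCast, RedData.rd_pow ht]
  | negSucc n =>
    rw [zpow_negSucc, zpow_negSucc, RedData.rd_inv (by rw [RedData.rd_pow ht]; exact pow_ne_zero _ h),
      RedData.rd_pow ht]

theorem ShapeRd_rd_one {D : RedData K F k κ} {e : F} (h : D.O.valuation (e - 1) < 1) :
    D.rd e = 1 := by
  have h1 : e - 1 ∈ D.O := (D.O.valuation_le_one_iff _).1 h.le
  have h2 : D.rd (e - 1) = 0 := by
    by_contra h0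
    have h3 := RedData.inv_mem_of_rd_ne_zero h0
    have h4 : D.O.valuation (e - 1)⁻¹ ≤ 1 := (D.O.valuation_le_one_iff _).2 h3
    have h5 : e - 1 ≠ 0 := by
      intro h6
      rw [h6] at h0
      exact h0 RedData.rd_zero
    have h6 : D.O.valuation (e - 1) * D.O.valuation (e - 1)⁻¹ = 1 := by
      rw [← map_mul, mul_inv_cancel₀ h5, map_one]
    have h7 : D.O.valuation (e - 1) * D.O.valuation (e - 1)⁻¹ < 1 :=
      mul_lt_one_of_lt_of_le h h4
    rw [h6] at h7
    exact lt_irrefl _ h7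
  have h3 : e = (e - 1) + 1 := by ring
  rw [h3, RedData.rd_add h1 (one_mem _), h2, RedData.rd_one, zero_add]

theorem ShapeRd_val_const {x : ValuationSubring κ} (hx : IsPt k x) {a : k} (ha : a ≠ 0) :
    x.valuation (algebraMap k κ a) = 1 := by
  have h1 : x.valuation (algebraMap k κ a) ≤ 1 := (x.valuation_le_one_iff _).2 (hx.const a)
  have h2 : x.valuation (algebraMap k κ a⁻¹) ≤ 1 := (x.valuation_le_one_iff _).2 (hx.const a⁻¹)
  have h3 : x.valuation (algebraMap k κ a) * x.valuation (algebraMap k κ a⁻¹) = 1 := by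
    rw [← map_mul, ← map_mul, mul_inv_cancel₀ ha, map_one, map_one]
  refine le_antisymm h1 ?_
  by_contra h4
  have h5 : x.valuation (algebraMap k κ a) * x.valuation (algebraMap k κ a⁻¹) < 1 :=
    mul_lt_one_of_lt_of_le (not_le.1 h4) h2
  rw [h3] at h5
  exact lt_irrefl _ h5

end

theorem shapeRd (hR : Stmt_RingR) : Stmt_ShapeRd := by
  intro K F k κ _ _ _ _ _ _ _ D₁ D₂ T τ hC x₁ hx hτ t u m ht hS c hcu
  obtain ⟨RF, hval, -⟩ := hR K F k κ D₁ D₂ T τ hC x₁ hx hτ
  obtain ⟨c0, e, r, hc0, he, hr, hrn, hu⟩ := hS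
  have he1 : D₁.rd e = 1 := ShapeRd_rd_one he
  have hr1 : x₁.valuation (D₁.rd r) = 1 := by
    obtain ⟨h1, h2⟩ := hval r hr
    refine le_antisymm ((x₁.valuation_le_one_iff _).2 h1) ?_
    by_contra h3
    exact hrn (h2.2 (not_le.1 h3))
  have hr0 : D₁.rd r ≠ 0 := by
    intro h
    rw [h, map_zero] at hr1
    exact zero_ne_one hr1
  have htm : D₁.rd (t ^ m) = D₁.rd t ^ m := ShapeRd_rd_zpow ht m
  have htm0 : D₁.rd (t ^ m) ≠ 0 := by rw [htm]; exact zpow_ne_zero _ ht
  have heO : e ∈ D₁.O := RedData.mem_of_rd_ne_zero (by rw [he1]; exact one_ne_zero)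
  have hrO : r ∈ D₁.O := RedData.mem_of_rd_ne_zero hr0
  have htO : t ^ m ∈ D₁.O := RedData.mem_of_rd_ne_zero htm0
  have hw : D₁.rd (t ^ m * e * r) = D₁.rd t ^ m * D₁.rd r := by
    rw [RedData.rd_mul (mul_mem htO heO) hrO, RedData.rd_mul htO heO, he1, htm, mul_one]
  have hw0 : D₁.rd (t ^ m * e * r) ≠ 0 := by
    rw [hw]; exact mul_ne_zero (zpow_ne_zero _ ht) hr0
  have hwO := RedData.mem_of_rd_ne_zero hw0
  have hwI := RedData.inv_mem_of_rd_ne_zero hw0
  have hwne : t ^ m * e * r ≠ 0 := by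
    intro h
    rw [h] at hw0
    exact hw0 RedData.rd_zero
  have hcu' : algebraMap K F c * u = algebraMap K F (c * c0) * (t ^ m * e * r) := by
    rw [hu, map_mul]; ring
  have hcA : c * c0 ∈ D₁.A := by
    rw [← D₁.mem_iff]
    have h1 : algebraMap K F (c * c0) = (algebraMap K F c * u) * (t ^ m * e * r)⁻¹ := by
      rw [hcu', mul_assoc, mul_inv_cancel₀ hwne, mul_one]
    rw [h1]
    exact mul_mem (RedData.mem_of_rd_ne_zero hcu) hwI
  have hrd : D₁.rd (algebraMap K F c * u) =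
      algebraMap k κ (D₁.ra (c * c0)) * (D₁.rd t ^ m * D₁.rd r) := by
    rw [hcu', RedData.rd_mul (RedData.algebraMap_mem hcA) hwO, RedData.rd_algebraMap hcA, hw]
  have ha0 : D₁.ra (c * c0) ≠ 0 := by
    intro h
    rw [hrd, h, map_zero, zero_mul] at hcu
    exact hcu rfl
  have hfin : D₁.rd (algebraMap K F c * u) / D₁.rd t ^ m =
      algebraMap k κ (D₁.ra (c * c0)) * D₁.rd r := by
    rw [hrd]
    have := zpow_ne_zero m ht
    field_simp
  rw [hfin, map_mul, ShapeRd_val_const hx ha0, hr1, one_mul]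

end Fermat.Agent.MR.Node
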