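import Fermat.Agent.MR.Node.FinalInterface

/-!
# MR / Node : SM-1, the smooth points of one chart (`Stmt_SmoothOrd`)  (helper48)
-/

set_option autoImplicit false

noncomputable section

namespace Fermat.Agent.MR.Node

open AlgebraicCurve
open Fermat.Agent.INJ (IsInt RedData)
open Fermat.Agent.RED (Ev)

section

variable {K F k κ : Type} [Field K] [Field F] [Algebra K F] [Field k] [Field κ] [Algebra k κ]

theorem SM1_mem_of_rd_ne_zero {D : RedData K F k κ} {z : F} (h : D.rd z ≠ 0) : z ∈ D.O := by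
  by_contra h'
  exact h (RedData.rd_of_not_mem h')

theorem SM1_val_eq_one {D : RedData K F k κ} {z : F} (h : D.rd z ≠ 0) : D.O.valuation z = 1 := by
  have h1 : z ∈ D.O := SM1_mem_of_rd_ne_zero h
  have h2 : z⁻¹ ∈ D.O := RedData.inv_mem_of_rd_ne_zero h
  have h3 : D.O.valuation z ≤ 1 := (ValuationSubring.valuation_le_one_iff _ _).2 h1
  have h4 : D.O.valuation z⁻¹ ≤ 1 := (ValuationSubring.valuation_le_one_iff _ _).2 h2
  have hz : z ≠ 0 := by
    rintro rfl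
    exact h RedData.rd_zero
  have hv : D.O.valuation z ≠ 0 := (Valuation.ne_zero_iff _).2 hz
  rw [map_inv₀] at h4
  refine le_antisymm h3 ?_
  exact (inv_le_one₀ (zero_lt_iff.2 hv)).1 h4

theorem SM1_BB_le_Rs (D₁ D₂ : RedData K F k κ) (T : F) (x₁ : ValuationSubring κ) {z : F}
    (hz : z ∈ BB D₁ D₂ T) : z ∈ Rs D₁ D₂ T x₁ :=
  ⟨z, hz, 1, one_mem _, by rw [RedData.rd_one, map_one], by ring⟩

end

/-- **SM-1** -/
theorem smoothOrd (hSm : PL.Stmt_Smooth) (hSD : PL.Stmt_SDec) (hLoc : Stmt_SmoothLoc)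
    (hU : Stmt_PtUnif) (hSh : Stmt_ShapeRd) (hP : Stmt_PlaceOrd) : Stmt_SmoothOrd := by
  intro K F k κ _ _ _ _ _ _ _ D₁ D₂ T τ hstd x hsm
  have hc := hstd.compat
  obtain ⟨⟨π, hπint, hπ⟩, -, -⟩ :=
    hU k κ τ hc.trans hc.fin hc.sep x.toValuationSubring hsm.pt hsm.τ₁
  obtain ⟨ϑ, hϑ, hϑπ⟩ := hc.surj₁ π hπint
  have hϑu : IsUnifAt x.toValuationSubring (D₁.rd ϑ) := by rw [hϑπ]; exact hπ
  have hϑ0 : D₁.rd ϑ ≠ 0 := hϑu.1
  obtain ⟨hloc, -⟩ := hLoc K F k κ D₁ D₂ T τ hstd x.toValuationSubring hsm ϑ hϑ hϑu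
  have hg : PL.Gauss D₁.A D₁.O := PL.Gauss.ofRedData D₁
  have hres : PL.ResK K F := hstd.places.resK
  have hval : D₁.O.valuation ϑ = 1 := SM1_val_eq_one hϑ0
  obtain ⟨-, hP1, -, -, hP4⟩ := hP k κ x
  have hordϑ : x.ord (D₁.rd ϑ) = 1 := hP4 _ hϑu
  -- from a shape to the order
  have key : ∀ (u : F) (m : ℤ) (c : K),
      PL.Shape K D₁.O ϑ (Rs D₁ D₂ T x.toValuationSubring) (ns D₁ D₂ T x.toValuationSubring) u m →
      D₁.rd (algebraMap K F c * u) ≠ 0 → x.ord (D₁.rd (algebraMap K F c * u)) = m := by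
    intro u m c hsh hcu
    have h1 := hSh K F k κ D₁ D₂ T τ hc x.toValuationSubring hsm.pt hsm.τ₁ ϑ u m hϑ0 hsh c hcu
    have hz : D₁.rd ϑ ^ m ≠ 0 := zpow_ne_zero _ hϑ0
    have h2 := (hP1 _ (div_ne_zero hcu hz)).1 h1
    rw [div_eq_mul_inv, x.ord_mul hcu (inv_ne_zero hz), x.ord_inv, x.ord_zpow, hordϑ] at h2
    linarith
  refine ⟨?_, ?_⟩
  · intro p u D c hu hD hcu
    obtain ⟨m, hm⟩ := hSm K F p D₁.A D₁.O ϑ _ _ hg hres hloc hval u D hu hD
    rw [key u _ c hm hcu]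
    exact Dvd.intro m rfl
  · intro g hg0 hord
    have hgne : g ≠ 0 := by
      rintro rfl
      exact hg0 RedData.rd_zero
    have hsh := hSD K F D₁.A D₁.O ϑ _ _ hg hres hloc hval g 0 hgne
      (by
        intro P hP
        obtain ⟨c, -, hev, -⟩ := hP T (SM1_BB_le_Rs D₁ D₂ T _ hstd.T_mem)
        rw [hord P (Fermat.Agent.RED.ev_mem hev)]
        rfl)
      (fun P _ => rfl)
    have hdg : PL.dg (0 : Divisor K F) = 0 := by
      unfold PL.dg
      exact Finsupp.sum_zero_index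
    rw [hdg] at hsh
    have h1 : D₁.rd (algebraMap K F 1 * g) ≠ 0 := by rw [map_one, one_mul]; exact hg0
    have h2 := key g 0 1 hsh h1
    rw [map_one, one_mul] at h2
    exact h2

end Fermat.Agent.MR.Node

end
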