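import Fermat.Agent.MR.Node.FrobInterface

/-!
# MR / Node / Frob : (F4) the Frobenius congruence for ratios
-/

set_option autoImplicit false
set_option synthInstance.maxHeartbeats 400000

noncomputable section

namespace Fermat.Agent.MR.Node

open ModularCurve
open Fermat.Agent
open Fermat.Agent.INJ.Inst (Qb FL kA)
open Fermat.Agent.INJ.Inst.Gauss (inc rho)
open Fermat.Agent.ES.Mid (GQ gal)
open Fermat.Agent.S36.Val (resA)

theorem FR_coeffMap_Vq {R S : Type} [CommRing R] [CommRing S] (f : R →+* S) (d : ℕ)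
    (x : LaurentSeries R) : coeffMap f (S28.Vq R d x) = S28.Vq S d (coeffMap f x) := by
  by_cases h : d = 0
  · simp [S28.Vq, h]
  · have : NeZero d := ⟨h⟩
    rw [S28.Vq_eq, S28.Vq_eq, coeffMap_qExpand]

theorem FR_natCast_residue {A : ValuationSubring Qb} {r : ℕ} (hA : A.LiesOverPrime r) :
    (r : kA A) = 0 := by
  have h1 : ((r : A) : Qb) ∈ A.nonunits := by
    have h0 : (r : Qb) ∈ A.nonunits := hA
    simpa using h0
  have h2 : (r : A) ∈ IsLocalRing.maximalIdeal A :=
    (ValuationSubring.coe_mem_nonunits_iff).mp h1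
  have h3 := (IsLocalRing.residue_eq_zero_iff (r : A)).mpr h2
  simpa using h3

theorem FR_natCast_series {A : ValuationSubring Qb} {r : ℕ} (hA : A.LiesOverPrime r) :
    (r : LaurentSeries (kA A)) = 0 := by
  rw [← map_natCast (HahnSeries.C : kA A →+* LaurentSeries (kA A)), FR_natCast_residue hA, map_zero]

/-- the identity, in a commutative ring. -/
theorem FR_identity {R : Type} [CommRing R] (Xp VY a b G F H1 H2 P : R) (e2 : VY * G = F)
    (e3 : Xp * a = b) (e4 : b = F + P * H1) (e5 : a = G + P * H2) :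
    (Xp - VY) * (a * G) = P * (H1 * G - H2 * F) := by
  linear_combination G * e3 - a * e2 + G * e4 - F * e5

theorem frobRatio (h : Stmt_FrobSer) : Stmt_FrobRatio := by
  intro p A hp hA σ hσ X f g hf hg hρg hX
  obtain ⟨f', h1, hf', hfp⟩ := h p A hp hA σ hσ f hf
  obtain ⟨g', h2, hg', hgp⟩ := h p A hp hA σ hσ g hg
  refine ⟨h1 * S28.Vq A p g' - h2 * S28.Vq A p f', g ^ p * S28.Vq A p g', ?_, ?_⟩
  · have e : rho (resA A) (S28.Vq A p g') = (rho (resA A) g) ^ p := by
      have := congrArg (rho (resA A)) hgp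
      rw [map_pow, map_add, map_mul, map_natCast, FR_natCast_series hA, zero_mul, add_zero] at this
      exact this.symm
    rw [map_mul, map_pow, e]
    exact mul_ne_zero (pow_ne_zero _ hρg) (pow_ne_zero _ hρg)
  · have e1 : coeffMap (σ : Qb →+* Qb) X * coeffMap (σ : Qb →+* Qb) (inc A g)
        = coeffMap (σ : Qb →+* Qb) (inc A f) := by rw [← map_mul, hX]
    rw [← hf', ← hg'] at e1
    have e2 := congrArg (S28.Vq Qb p) e1
    rw [map_mul, ← FR_coeffMap_Vq A.subtype p g', ← FR_coeffMap_Vq A.subtype p f'] at e2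
    have e3 : X ^ p * (inc A g) ^ p = (inc A f) ^ p := by rw [← mul_pow, hX]
    have e4 := congrArg (inc A) hfp
    rw [map_pow, map_add, map_mul, map_natCast] at e4
    have e5 := congrArg (inc A) hgp
    rw [map_pow, map_add, map_mul, map_natCast] at e5
    rw [map_mul, map_pow, map_sub, map_mul, map_mul, map_natCast]
    exact FR_identity _ _ _ _ _ _ _ _ _ e2 e3 e4 e5

end Fermat.Agent.MR.Node

end
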