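import Fermat.Agent.MR.Node.FrobInterface
import Fermat.Agent.S36.Base.Unram
import Fermat.Agent.CFT.Top.BridgeLevels
import Fermat.Agent.BR.Inst.FrobKf
import Fermat.Agent.S28.BaseChange
import Fermat.Agent.ES.Mid.HF3
import Fermat.Agent.ES.Mid.IntRep
import Fermat.Agent.ES.RepGalois

/-!
# MR / Node / Frob : (F1) + (F2), the Frobenius congruence `f ^ p = (σ f)(q^p) + p h` for series
-/

set_option autoImplicit false
set_option synthInstance.maxHeartbeats 400000

noncomputable section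

namespace Fermat.Agent.MR.Node

open ModularCurve
open Fermat.Agent
open Fermat.Agent.INJ.Inst (Qb kA)
open Fermat.Agent.INJ.Inst.Gauss (inc rho)
open Fermat.Agent.ES.Mid (GQ)
open scoped Pointwise

/-- a nonunit times an element of `A` is a nonunit. -/
theorem FS_mul_mem_nonunits (A : ValuationSubring Qb) {c d : Qb} (hc : c ∈ A.nonunits)
    (hd : d ∈ A) : c * d ∈ A.nonunits := by
  rw [ValuationSubring.mem_nonunits_iff] at hc ⊢
  rw [map_mul]
  exact mul_lt_one_of_lt_of_le hc ((ValuationSubring.valuation_le_one_iff A _).2 hd)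

/-- a nonzero nonunit has no inverse in `A`. -/
theorem FS_inv_not_mem (A : ValuationSubring Qb) {u : Qb} (hu0 : u ≠ 0) (hu : u ∈ A.nonunits) :
    u⁻¹ ∉ A := by
  intro h
  have h1 := FS_mul_mem_nonunits A hu h
  rw [mul_inv_cancel₀ hu0, ValuationSubring.mem_nonunits_iff, map_one] at h1
  exact lt_irrefl _ h1

theorem FS_natCast_mem (A : ValuationSubring Qb) (p : ℕ) : (p : Qb) ∈ A := natCast_mem A p

/-- **NODE-F1** -/
theorem frobCoef : Stmt_FrobCoef := by
  intro p A hp hA
  have hp0 : (p : Qb) ≠ 0 := by exact_mod_cast hp.ne_zero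
  constructor
  · intro c hc hfix
    by_cases hc0 : c = 0
    · rw [hc0, zero_div]; exact zero_mem A
    obtain ⟨k, hk1, hk2⟩ := S36.Base.stmt_Unram p A hp hA c hc0 hfix
    cases k with
    | ofNat n =>
      exfalso
      rw [Int.ofNat_eq_natCast, zpow_natCast] at hk1 hk2
      exact FS_inv_not_mem A (mul_ne_zero hc0 (pow_ne_zero n hp0))
        (FS_mul_mem_nonunits A hc (pow_mem (FS_natCast_mem A p) n)) hk2
    | negSucc n =>
      rw [zpow_negSucc] at hk1
      have h1 : c / (p : Qb) = c * ((p : Qb) ^ (n + 1))⁻¹ * (p : Qb) ^ n := by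
        rw [pow_succ]
        field_simp
      rw [h1]
      exact mul_mem hk1 (pow_mem (FS_natCast_mem A p) n)
  · intro σ hσ a ha τ hτ
    have hdec : σ • A = A := hσ.mem_decompositionSubgroup
    have hdec' : σ⁻¹ • A = A := inv_smul_eq_iff.2 hdec.symm
    have h1 := CFT.Top.BrLev.conj_mem_inertia A σ⁻¹ τ hτ
    rw [hdec', inv_inv] at h1
    have h2 : (σ⁻¹ * τ * σ) a = a := ha _ h1
    have h3 : σ⁻¹ (τ (σ a)) = a := h2
    have h4 := congrArg σ h3
    rwa [show σ (σ⁻¹ (τ (σ a))) = τ (σ a) from σ.apply_symm_apply _] at h4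

/-- a series whose coefficients are fixed by `τ`. -/
theorem FS_coeffMap_eq_self (τ : GQ) (Y : LaurentSeries Qb) (h : ∀ n, τ (Y.coeff n) = Y.coeff n) :
    coeffMap (τ : Qb →+* Qb) Y = Y := by
  ext n
  rw [coeffMap_coeff]
  exact h n

/-- **NODE-F2** -/
theorem frobSer (h : Stmt_FrobCoef) : Stmt_FrobSer := by
  intro p A hp hA σ hσ f hf
  have : Fact p.Prime := ⟨hp⟩
  have : NeZero p := ⟨hp.ne_zero⟩
  have hp0 : (p : Qb) ≠ 0 := by exact_mod_cast hp.ne_zero
  have hch : CharP (kA A) p := ES.Mid.HF3.charP_residue A p hA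
  obtain ⟨h1, h2⟩ := h p A hp hA
  have hfr := ES.RepGalois.frob_unpack hσ
  have hσA : ∀ a ∈ A, σ a ∈ A := by
    intro a ha
    have h3 : σ a - a ^ p ∈ A := ValuationSubring.nonunits_subset (hfr a ha)
    have h4 := add_mem h3 (pow_mem ha p)
    rwa [sub_add_cancel] at h4
  have hmem : ∀ n, (coeffMap (σ : Qb →+* Qb) (inc A f)).coeff n ∈ A :=
    fun n => hσA _ (f.coeff n).2
  obtain ⟨f', hf'⟩ : ∃ f' : LaurentSeries A, inc A f' = coeffMap (σ : Qb →+* Qb) (inc A f) :=
    ⟨ES.Mid.INT.lift A _ hmem, ES.Mid.INT.coeffMap_lift A _ hmem⟩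
  have hf'c : ∀ n, ((f'.coeff n : A) : Qb) = σ ((f.coeff n : A) : Qb) := by
    intro n
    have := congrArg (fun s => HahnSeries.coeff s n) hf'
    exact this
  obtain ⟨X, hX⟩ : ∃ X : LaurentSeries A, X = f ^ p - S28.Vq A p f' := ⟨_, rfl⟩
  -- (i) the reduction of `X` is zero
  have hred : coeffMap (IsLocalRing.residue A) X = 0 := by
    rw [hX, map_sub, map_pow, S28.BC.coeffMap_Vq, S28.Vq_eq, sub_eq_zero]
    apply BR.Inst.FK_frobSeries p hp
    intro n
    rw [coeffMap_coeff, coeffMap_coeff, ← map_pow, ← sub_eq_zero, ← map_sub,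
      IsLocalRing.residue_eq_zero_iff, ← ValuationSubring.coe_mem_nonunits_iff]
    have := hfr _ (f.coeff n).2
    rw [← hf'c n] at this
    exact this
  -- (ii) the coefficients of `X` are fixed by inertia
  have hincX : inc A X = inc A f ^ p - S28.Vq Qb p (coeffMap (σ : Qb →+* Qb) (inc A f)) := by
    rw [hX, map_sub, map_pow, S28.BC.coeffMap_Vq, hf']
  have hfix : ∀ τ ∈ A.inertiaSubgroupIn ℚ, ∀ n, τ ((X.coeff n : A) : Qb) = ((X.coeff n : A) : Qb) := by
    intro τ hτ n
    have e1 : coeffMap (τ : Qb →+* Qb) (inc A f) = inc A f :=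
      FS_coeffMap_eq_self τ _ (fun m => hf τ hτ m)
    have e2 : coeffMap (τ : Qb →+* Qb) (coeffMap (σ : Qb →+* Qb) (inc A f))
        = coeffMap (σ : Qb →+* Qb) (inc A f) :=
      FS_coeffMap_eq_self τ _ (fun m => h2 σ hσ _ (fun τ' hτ' => hf τ' hτ' m) τ hτ)
    have e3 : coeffMap (τ : Qb →+* Qb) (inc A X) = inc A X := by
      rw [hincX, map_sub, map_pow, S28.BC.coeffMap_Vq, e1, e2]
    have := congrArg (fun s => HahnSeries.coeff s n) e3
    exact this
  -- (iii) division by `p`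
  have hdiv : ∀ n, (((p : Qb)⁻¹ • inc A X : LaurentSeries Qb)).coeff n ∈ A := by
    intro n
    have h3 : ((X.coeff n : A) : Qb) ∈ A.nonunits := by
      rw [ValuationSubring.coe_mem_nonunits_iff, ← IsLocalRing.residue_eq_zero_iff]
      have := congrArg (fun s => HahnSeries.coeff s n) hred
      exact this
    have h4 := h1 _ h3 (fun τ hτ => hfix τ hτ n)
    have h5 : (((p : Qb)⁻¹ • inc A X : LaurentSeries Qb)).coeff n
        = ((X.coeff n : A) : Qb) / (p : Qb) := by
      rw [HahnSeries.coeff_smul, smul_eq_mul, div_eq_mul_inv, mul_comm]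
      rfl
    rw [h5]
    exact h4
  refine ⟨f', ES.Mid.INT.lift A _ hdiv, hf', ?_⟩
  apply INJ.Inst.Gauss.inc_injective A
  have key : (p : LaurentSeries Qb) * ((p : Qb)⁻¹ • inc A X) = inc A X := by
    rw [← nsmul_eq_mul]
    ext n
    rw [HahnSeries.coeff_smul, HahnSeries.coeff_smul, smul_eq_mul, nsmul_eq_mul,
      mul_inv_cancel_left₀ hp0]
  rw [map_add, map_mul, ES.Mid.INT.coeffMap_lift, map_natCast, key, hX, map_sub]
  ring

end Fermat.Agent.MR.Node

end
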