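import Fermat.Agent.MR.Node.FrobInterface
import Fermat.Agent.S36.Val.UnifR
import Fermat.Agent.S36.Val.GVApi
import Fermat.Agent.S36.Base.Unram
import Fermat.Agent.S36.Base.Frac

/-!
# MR / Node / Frob : NODE-F3, Gauss integral elements of `F_E` are ratios of inertia-fixed
`A`-integral series (helper9)
-/

set_option autoImplicit false
set_option synthInstance.maxHeartbeats 400000

noncomputable section

namespace Fermat.Agent.MR.Node

open ModularCurve
open Fermat.Agent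
open Fermat.Agent.INJ.Inst (Qb kA)
open Fermat.Agent.INJ.Inst.Gauss (inc rho)
open Fermat.Agent.S36.Base (FE)
open Fermat.Agent.S36.Val (OA phiA resA GInt gred P4_Good P4_coeff_cst_mul P4_normalise
  P4_natCast_residue P4_hP_phiA)

/-- all coefficients are fixed by the inertia group. -/
def RE_Fix (A : ValuationSubring Qb) (Y : LaurentSeries Qb) : Prop :=
  ∀ τ ∈ A.inertiaSubgroupIn ℚ, ∀ n : ℤ, τ (Y.coeff n) = Y.coeff n

theorem RE_fixI_of_inc {A : ValuationSubring Qb} {f : LaurentSeries A} (h : RE_Fix A (inc A f)) :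
    FixI A f := fun τ hτ n => h τ hτ n

theorem RE_fix_cst_mul {A : ValuationSubring Qb} {Y : LaurentSeries Qb} (h : RE_Fix A Y) (p : ℕ)
    (k : ℤ) : RE_Fix A (algebraMap Qb (LaurentSeries Qb) ((p : Qb) ^ k) * Y) := by
  intro τ hτ n
  rw [P4_coeff_cst_mul, map_mul, map_zpow₀, map_natCast, h τ hτ n]

theorem RE_fixI_zero (A : ValuationSubring Qb) : FixI A 0 := fun τ _ _ => map_zero τ

theorem RE_fixI_one (A : ValuationSubring Qb) : FixI A 1 := by
  intro τ _ n
  rw [HahnSeries.coeff_one]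
  split_ifs
  · exact map_one τ
  · exact map_zero τ

theorem RE_inc_natCast (A : ValuationSubring Qb) (p : ℕ) :
    inc A (p : LaurentSeries A) = algebraMap Qb (LaurentSeries Qb) (p : Qb) := by
  rw [map_natCast, map_natCast]

theorem RE_rho_natCast {A : ValuationSubring Qb} {p : ℕ} (hA : A.LiesOverPrime p) :
    rho (resA A) (p : LaurentSeries A) = 0 := by
  rw [map_natCast]
  have h2 : algebraMap (kA A) (LaurentSeries (kA A)) (p : kA A) = (p : LaurentSeries (kA A)) :=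
    map_natCast (algebraMap (kA A) (LaurentSeries (kA A))) p
  rw [← h2, P4_natCast_residue hA, map_zero]

theorem ratioE : Stmt_RatioE := by
  intro p A hp hA N _ z hzO
  by_cases hz : z = 0
  · refine ⟨0, 1, RE_fixI_zero A, RE_fixI_one A, ?_, ?_⟩
    · rw [map_one]; exact one_ne_zero
    · rw [hz, map_zero, zero_mul, map_zero]
  have hp0 : (p : Qb) ≠ 0 := Nat.cast_ne_zero.2 hp.ne_zero
  obtain ⟨X₁, X₂, hX₁, hX₂, hg₁, hg₂, he⟩ := P4_hP_phiA S36.Base.stmt_Frac A N z hz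
  obtain ⟨k₁, f₁, hf₁, e₁⟩ := P4_normalise S36.Base.stmt_Unram hp hA hX₁ hg₁
  obtain ⟨k₂, f₂, hf₂, e₂⟩ := P4_normalise S36.Base.stmt_Unram hp hA hX₂ hg₂
  have hF₁ : RE_Fix A (inc A f₁) := by rw [← e₁]; exact RE_fix_cst_mul hg₁.2 p k₁
  have hF₂ : RE_Fix A (inc A f₂) := by rw [← e₂]; exact RE_fix_cst_mul hg₂.2 p k₂
  have hc1 : algebraMap Qb (LaurentSeries Qb) ((p : Qb) ^ k₁) ≠ 0 := by
    rw [Ne, map_eq_zero]; exact zpow_ne_zero _ hp0
  have hc2 : algebraMap Qb (LaurentSeries Qb) ((p : Qb) ^ k₂) ≠ 0 := by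
    rw [Ne, map_eq_zero]; exact zpow_ne_zero _ hp0
  have key : phiA A N z * inc A f₂
      = algebraMap Qb (LaurentSeries Qb) ((p : Qb) ^ (k₂ - k₁)) * inc A f₁ := by
    rw [← e₁, ← e₂, ← he, zpow_sub₀ hp0, map_div₀]
    field_simp
  have hGz : GInt A (phiA A N z) := hzO
  -- the exponent is nonnegative
  have hk : 0 ≤ k₂ - k₁ := by
    by_contra hneg
    push Not at hneg
    obtain ⟨m, hm⟩ : ∃ m : ℕ, k₁ - k₂ = (m : ℤ) + 1 := ⟨(k₁ - k₂ - 1).toNat, by omega⟩
    have hinc : inc A ((p : LaurentSeries A) ^ (m + 1))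
        = algebraMap Qb (LaurentSeries Qb) ((p : Qb) ^ (k₁ - k₂)) := by
      rw [map_pow, RE_inc_natCast, hm, ← map_pow]
      congr 1
      exact_mod_cast rfl
    have hc : algebraMap Qb (LaurentSeries Qb) ((p : Qb) ^ (k₂ - k₁)) *
        algebraMap Qb (LaurentSeries Qb) ((p : Qb) ^ (k₁ - k₂)) = 1 := by
      rw [← map_mul, ← zpow_add₀ hp0, sub_add_sub_cancel, sub_self, zpow_zero, map_one]
    have key2 : (phiA A N z * inc A ((p : LaurentSeries A) ^ (m + 1))) * inc A f₂ = inc A f₁ := by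
      rw [mul_right_comm, key, hinc, mul_right_comm, hc, one_mul]
    have h1 := S36.Val.gred_of_ratio hf₂ key2
    have h2 := S36.Val.gred_mul hGz (S36.Val.gint_inc ((p : LaurentSeries A) ^ (m + 1)))
    have hr : rho (resA A) ((p : LaurentSeries A) ^ (m + 1)) = 0 := by
      rw [map_pow, RE_rho_natCast hA, zero_pow (Nat.succ_ne_zero m)]
    rw [S36.Val.gred_inc, hr, mul_zero, h1] at h2
    exact div_ne_zero hf₁ hf₂ h2
  obtain ⟨m, hm⟩ : ∃ m : ℕ, k₂ - k₁ = (m : ℤ) := ⟨(k₂ - k₁).toNat, by omega⟩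
  have hinc : inc A ((p : LaurentSeries A) ^ m * f₁)
      = algebraMap Qb (LaurentSeries Qb) ((p : Qb) ^ (k₂ - k₁)) * inc A f₁ := by
    rw [map_mul, map_pow, RE_inc_natCast, hm, zpow_natCast, map_pow]
  refine ⟨(p : LaurentSeries A) ^ m * f₁, f₂, RE_fixI_of_inc ?_, RE_fixI_of_inc hF₂, hf₂, ?_⟩
  · rw [hinc]
    exact RE_fix_cst_mul hF₁ p _
  · rw [hinc, key]

end Fermat.Agent.MR.Node

end
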