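import Fermat.Agent.MR.Node.FrobInterface
import Fermat.Agent.MR.Node.FrobSer
import Fermat.Agent.MR.Node.FrobRatio
import Fermat.Agent.MR.Node.RatioE
import Fermat.Agent.S36.Gre.ResLift
import Fermat.Agent.S36.Gre.TotRam
import Fermat.Agent.S36.Gre.TotRamAbs
import Fermat.Agent.S36.Gre.Conj
import Fermat.Agent.S36.Gre.GaussOrth
import Fermat.Agent.S36.Gre.VdmInt
import Fermat.Agent.S36.Gre.IntDesc
import Fermat.Agent.S36.Gre.GaussBridge
import Fermat.Agent.S36.Val.All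
import Fermat.Agent.S36.Base.All
import Fermat.Agent.FD.D
import Fermat.Agent.BR.Inst.Red2
import Fermat.Agent.BR.Inst.ALProps
import Fermat.Agent.BR.Inst.GM

/-!
# MR / Node / Frob : (F5) the hypothesis `FrobCong` of `Stmt_UnifA` and its mirror image (helper80)
-/

set_option autoImplicit false
set_option synthInstance.maxHeartbeats 400000

noncomputable section

namespace Fermat.Agent.MR.Node

open ModularCurve
open Fermat.Agent
open Fermat.Agent.INJ (IsInt RedData)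
open Fermat.Agent.INJ.Inst (Qb FL kA)
open Fermat.Agent.INJ.Inst.Gauss (inc rho)
open Fermat.Agent.BR.Inv (TC Normal)
open Fermat.Agent.BR.Inst (IsGaussS IsAL IsTCMaps twist Ctx)
open Fermat.Agent.ES.Mid (GQ gal)
open Fermat.Agent.S36.Base (FE emb IE)
open Fermat.Agent.S36.Val (OA phiA resA GInt gred)

/-- transport of integrality by a semilinear ring homomorphism. -/
theorem FrobEx_isInt_semi {K K' F F' : Type*} [Field K] [Field K'] [Field F] [Algebra K F]
    [Field F'] [Algebra K' F'] (κ : K →+* K') (φ : F →+* F')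
    (hφ : ∀ c : K, φ (algebraMap K F c) = algebraMap K' F' (κ c)) {t x : F} (h : IsInt K t x) :
    IsInt K' (φ t) (φ x) := by
  unfold IsInt at *
  have hmem : ∀ y ∈ Algebra.adjoin K {t}, φ y ∈ Algebra.adjoin K' {φ t} := by
    intro y hy
    induction hy using Algebra.adjoin_induction with
    | mem y hy =>
      rw [Set.mem_singleton_iff] at hy
      subst hy
      exact Algebra.self_mem_adjoin_singleton K' _
    | algebraMap a => rw [hφ]; exact Subalgebra.algebraMap_mem _ _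
    | add y z _ _ hy hz => rw [map_add]; exact add_mem hy hz
    | mul y z _ _ hy hz => rw [map_mul]; exact mul_mem hy hz
  obtain ⟨P, hP, hPx⟩ := h
  let ψ : Algebra.adjoin K {t} →+* Algebra.adjoin K' {φ t} :=
    { toFun := fun y => ⟨φ y.1, hmem y.1 y.2⟩
      map_one' := Subtype.ext (map_one φ)
      map_mul' := fun a b => Subtype.ext (map_mul φ a.1 b.1)
      map_zero' := Subtype.ext (map_zero φ)
      map_add' := fun a b => Subtype.ext (map_add φ a.1 b.1) }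
  refine ⟨P.map ψ, hP.map ψ, ?_⟩
  rw [Polynomial.eval₂_map]
  have h2 : (algebraMap (Algebra.adjoin K' {φ t}) F').comp ψ =
      φ.comp (algebraMap (Algebra.adjoin K {t}) F) := RingHom.ext fun _ => rfl
  rw [h2]
  have h3 := Polynomial.hom_eval₂ P (algebraMap (Algebra.adjoin K {t}) F) φ x
  rw [hPx, map_zero] at h3
  exact h3.symm

theorem FrobEx_resLift : S36.Gre.Stmt_ResLift :=
  S36.Gre.resLift (S36.Gre.totRam S36.Gre.totRamAbs S36.Val.all_DVR S36.Base.all_Res)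
    (S36.Gre.conj S36.Base.stmt_Unram) (S36.Gre.gaussOrth S36.Val.all_UnifR S36.Val.stmt_GVApi)
    S36.Gre.vdmInt S36.Gre.intDesc S36.Val.all_SpanE

/-- an inertia-fixed integral lift. -/
theorem FrobEx_lift (M p : ℕ) [NeZero M] (A : ValuationSubring Qb) (hp : p.Prime)
    (hA : A.LiesOverPrime p)
    (L' : IntermediateField (kA A) (LaurentSeries (kA A))) (D' : RedData Qb (FL M) (kA A) L')
    (hD' : IsGaussS M A L' D') (x : FL M) (hx : ∀ σ : GQ, gal M σ x = x) (hN : Normal D' x)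
    (f : L') (hf : IsInt (kA A) (D'.rd x) f) :
    ∃ z : FE A M, z ∈ OA A M ∧ emb A M z ∈ D'.O ∧ D'.rd (emb A M z) = f ∧
      IsInt Qb x (emb A M z) := by
  obtain ⟨y, hyO, hyi, hyf⟩ := hN f hf
  obtain ⟨t, ht⟩ := S36.Val.all_Descent A M x (fun σ _ => hx σ)
  have hB := S36.Gre.gaussBridge M A L' D' hD'.gauss
  obtain ⟨z, hzO, hzr, hzi⟩ := FrobEx_resLift p A hp hA M y ((hB y).1.1 hyO)
  have hzG : GInt A ((emb A M z : FL M) : LaurentSeries Qb) := hzO
  refine ⟨z, hzO, (hB _).1.2 hzG, ?_, ?_⟩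
  · apply Subtype.ext
    rw [(hB _).2, ← hyf, (hB y).2]
    exact hzr
  · have h1 := hzi t (by rw [ht]; exact hyi)
    have h2 := FrobEx_isInt_semi (algebraMap (IE A) Qb) (emb A M) (S36.Base.emb_algebraMap A M) h1
    rwa [ht] at h2

set_option maxHeartbeats 2000000 in
/-- **NODE-F5**. -/
theorem frobEx : Stmt_FrobEx := by
  intro a M p _ _ A hctx L' D' hD' L₁ D₁ hD₁ W hW ι₁ ι₂ j Fr φb τ hmaps x hx hN f hf
  have hp := hctx.hr
  have hA := hctx.hA
  obtain ⟨z, hzO, hgO, hgf, hgi⟩ := FrobEx_lift M p A hp hA L' D' hD' x hx hN f hf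
  obtain ⟨σ, hσ, -⟩ := FD.D_exists_frobenius_at A hp hA
  obtain ⟨g, hg⟩ : ∃ g : FL M, g = emb A M z := ⟨_, rfl⟩
  rw [← hg] at hgO hgf hgi
  have hgs : (g : LaurentSeries Qb) = phiA A M z := by rw [hg]; rfl
  have hInd : BR.Inst.Induces A σ τ := (BR.Inst.stmt_Induces A σ).2 p τ hmaps.τ hσ
  obtain ⟨hg'O, hg'rd⟩ := BR.Inst.stmt_RedGal M A L' D' hD' σ τ hInd g hgO
  obtain ⟨g', hg'⟩ : ∃ g' : FL M, g' = gal M σ g := ⟨_, rfl⟩
  rw [← hg'] at hg'O hg'rd
  have hg's : (g' : LaurentSeries Qb) = coeffMap (σ : Qb →+* Qb) (phiA A M z) := by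
    rw [hg', ES.Mid.coe_gal, hgs]
  have hg'i : IsInt Qb x g' := by
    have := FrobEx_isInt_semi (σ : Qb →+* Qb) (gal M σ : FL M →+* FL M)
      (fun c => BR.Inst.GM_gal_algebraMap σ c) hgi
    have e : (gal M σ : FL M →+* FL M) x = x := hx σ
    rw [e] at this
    rw [hg']
    exact this
  have hrd' : D'.rd g' = φb (D'.rd g) := Subtype.ext (by rw [hg'rd, hmaps.φb])
  -- the congruence
  obtain ⟨f₀, g₀, hf₀, hg₀, hρ, he⟩ := ratioE p A hp hA M z hzO
  obtain ⟨f₁, g₁, hρ₁, he₁⟩ :=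
    frobRatio (frobSer frobCoef) p A hp hA σ hσ (phiA A M z) f₀ g₀ hf₀ hg₀ hρ he
  have hp0 : (p : Qb) ≠ 0 := Nat.cast_ne_zero.2 hp.ne_zero
  have hP0 : algebraMap Qb (FL (M * p)) (p : Qb) ≠ 0 := (map_ne_zero _).2 hp0
  have hdiv : (ι₁ g ^ p - ι₂ g') / algebraMap Qb (FL (M * p)) (p : Qb) ∈ D₁.O := by
    refine (hD₁.ratio _ f₁ g₁ hρ₁ ?_).1
    have e1 : (((ι₁ g ^ p - ι₂ g') / algebraMap Qb (FL (M * p)) (p : Qb) : FL (M * p)) :
        LaurentSeries Qb) = (phiA A M z ^ p - S28.Vq Qb p (coeffMap (σ : Qb →+* Qb) (phiA A M z))) /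
          algebraMap Qb (LaurentSeries Qb) (p : Qb) := by
      have := map_div₀ (algebraMap (FL (M * p)) (LaurentSeries Qb)) (ι₁ g ^ p - ι₂ g')
        (algebraMap Qb (FL (M * p)) (p : Qb))
      rw [map_sub, map_pow] at this
      have a1 : algebraMap (FL (M * p)) (LaurentSeries Qb) (ι₁ g) = phiA A M z := by
        show ((ι₁ g : FL (M * p)) : LaurentSeries Qb) = _
        rw [hmaps.ι₁, hgs]
      have a2 : algebraMap (FL (M * p)) (LaurentSeries Qb) (ι₂ g') =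
          S28.Vq Qb p (coeffMap (σ : Qb →+* Qb) (phiA A M z)) := by
        show ((ι₂ g' : FL (M * p)) : LaurentSeries Qb) = _
        rw [hmaps.ι₂, hg's]
      rw [a1, a2] at this
      exact this
    rw [e1, div_mul_eq_mul_div, he₁, mul_div_cancel_left₀]
    exact (map_ne_zero _).2 hp0
  -- the mirror image
  obtain ⟨hWW, -, hW3⟩ := BR.Inst.stmt_ALProps M p W hW
  have hW1 : ∀ y : FL M, W (ι₁ y) = ι₂ y := fun y =>
    hW3 (ι₁ y) (ι₂ y) (by rw [hmaps.ι₁]; exact y.2) (by rw [hmaps.ι₂, hmaps.ι₁])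
  have hW2 : ∀ y : FL M, W (ι₂ y) = ι₁ y := fun y => by rw [← hW1, hWW]
  have hdiv' : (ι₂ g ^ p - ι₁ g') / algebraMap Qb (FL (M * p)) (p : Qb) ∈ (twist D₁ W).O := by
    rw [BR.Inst.mem_twist_O, map_div₀, map_sub, map_pow, hW2, hW1, AlgEquiv.commutes]
    exact hdiv
  exact ⟨g, g', ⟨hgO, hg'O, hgi, hg'i, hrd', hdiv⟩, ⟨hgO, hg'O, hgi, hg'i, hrd', hdiv'⟩, hgf⟩

end Fermat.Agent.MR.Node

end
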