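import Fermat.Agent.MR.Node.Interface
import Fermat.Agent.MR.PL.L2Int
import Fermat.Agent.S27.R0

/-!
# MR / Node / (G1) : `PlaceFacts K F T` for a function field `F / K`, `K` algebraically closed of
characteristic zero, `T` transcendental with `[F : K(T)] < ∞` (helper8).
-/

set_option autoImplicit false

namespace Fermat.Agent.MR.Node

open Polynomial IntermediateField AlgebraicCurve IsDedekindDomain
open Fermat.Agent.INJ (IsInt)
open Fermat.Agent.RED
open Fermat.Agent.S24 (intRing)

/-- **(G1)**, abstract form. -/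
theorem placeFacts (K F : Type) [Field K] [IsAlgClosed K] [CharZero K] [Field F] [Algebra K F]
    (T : F) (hT : Transcendental K T) (hfin : FiniteDimensional K⟮T⟯ F) : PlaceFacts K F T := by
  have := S24.intRing_isDedekindDomain hT
  have := S24.intRing_isFractionRing (K := K) T
  have hdict : ∀ P : Place K F, T ∈ P.toValuationSubring →
      ∃ q : HeightOneSpectrum (intRing K T), P = Place.ofHeightOneSpectrum q := fun P hP =>
    S24.exists_heightOneSpectrum_of_le P (fun r => S24.intRing_le_valuationSubring P hP r)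
  refine ⟨fun P x hx => ev_exists T hT hx, fun x => ?_, fun x hx => PL.l2Int K F T hT hfin x hx,
    fun x hx P hP => S24.intRing_le_valuationSubring P hP ⟨x, hx⟩, fun P hP f hf => ?_⟩
  · refine (S27.R0.finite_poles (K := K) (F := F) ⟨T, hT, hfin⟩ x).subset fun P hP => ?_
    rw [Set.mem_ofPred_eq] at hP ⊢
    by_contra hcon
    have hx0 : x ≠ 0 := fun h => hP (h ▸ zero_mem _)
    exact hP (S24.mem_of_ord_nonneg P hx0 (not_lt.1 hcon))
  · obtain ⟨q, rfl⟩ := hdict P hP
    obtain ⟨a, b, hb, hab⟩ := S24.exists_div_of_ord_nonneg (K := K) q f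
      (S24.ord_nonneg_of_mem _ hf)
    have hb0 : b ≠ 0 := fun h => hb (h ▸ q.asIdeal.zero_mem)
    refine ⟨algebraMap (intRing K T) F a, algebraMap (intRing K T) F b, a.2, b.2, ?_, ?_, hab⟩
    · have h1 := S24.ord_algebraMap_nonneg (K := K) (F := F) q b
      have h2 := (S24.ord_algebraMap_pos_iff (K := K) (F := F) q b hb0).not.2 hb
      omega
    · exact fun h => hb0 (Subtype.ext h)

end Fermat.Agent.MR.Node
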