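import Fermat.Agent.MR.Node.Interface
import Fermat.Agent.MR.PL.Interface
import Fermat.Agent.MR.Eis.Skel
import Fermat.Agent.BR.Inst.Defs

/-!
# MR / Node : the final assembly of [RES]  (architect helper51)

`Stmt_RESFinal : Skel.Stmt_RES Eis.IsB` from
* `Stmt_Geo`      (helper80 + helper36) : the geometric facts `GeoFacts` at level `M * p`;
* `Stmt_NodesOut` (helper66 [FIELD] + helper14 [PL] + `Node.Stmt_NodeLoc`) : Picard-Lefschetz at the nodes;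
* `PL.Stmt_Smooth`, `PL.Stmt_SDec` + `Node.Stmt_SmoothLoc`, `Node.Stmt_Dich` : the smooth points;
* the dictionary `DICT-*` between `PL.Shape` and the orders at the places of `Kf k M`.
-/

set_option autoImplicit false
set_option synthInstance.maxHeartbeats 400000
set_option maxHeartbeats 4000000

noncomputable section

namespace Fermat.Agent.MR.Node

open AlgebraicCurve ModularCurve
open Fermat.Agent.S24 (Qbar FF)
open Fermat.Agent.ES.Mid (GQ gal IsDiv)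
open Fermat.Agent.INJ (IsInt RedData)
open Fermat.Agent.INJ.Inst (kA)
open Fermat.Agent.BR.Inst (twist IsGaussS)
open Fermat.Agent.S28 (Kf)
open Fermat.Agent.CAR.Unit (etaLser lf4 lx1)

/-- `x1 = f(q^p) / f(q)`, `f = θ²` (the element of `Eis.IsB`). -/
def IsX1 (p M : ℕ) (x1 : FF (M * p)) : Prop :=
  (x1 : LaurentSeries Qbar) = etaLser Qbar 0 (lx1 lf4 p)

/-- **the geometric facts at level `M * p`.**  `D₁` = the Gauss datum (residue field `L = Kf k M`),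
`D₂ = twist D₁ w_p`, `Tc` = the chart coordinate (`= s * s_p`, `s = j(q^M) - 1728`), `τ = rd s`,
`a = p x₁`, `b = 1 / x₁`, `jb = j(q)`. -/
structure GeoFacts (A : ValuationSubring Qbar) (p M : ℕ) [NeZero p] (T : Skel.Setting p M)
    (L : IntermediateField (kA A) (LaurentSeries (kA A)))
    (D₁ : RedData Qbar (FF (M * p)) (kA A) L) (Tc a b : FF (M * p)) (τ jb : L) : Prop where
  hL : L = Kf (kA A) M
  gauss : IsGaussS (M * p) A L D₁
  std : Std D₁ (twist D₁ T.W) Tc τ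
  std' : Std D₁ (twist D₁ T.W) Tc⁻¹ τ⁻¹
  gal_T : ∀ σ : GQ, gal (M * p) σ Tc = Tc
  gal_a : ∀ σ : GQ, gal (M * p) σ a = a
  gal_b : ∀ σ : GQ, gal (M * p) σ b = b
  a_mem : a ∈ BB D₁ (twist D₁ T.W) Tc
  b_mem : b ∈ BB D₁ (twist D₁ T.W) Tc
  ab : a * b = algebraMap Qbar (FF (M * p)) (p : Qbar)
  rd₁a : D₁.rd a = 0
  rd₂a : (twist D₁ T.W).rd a ≠ 0
  rd₁b : D₁.rd b ≠ 0
  rd₂b : (twist D₁ T.W).rd b = 0
  b_series : ∃ x1 : FF (M * p), b * x1 = 1 ∧ IsX1 p M x1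
  unifA : ∀ x₁ x₂ : ValuationSubring L, IsNode D₁ (twist D₁ T.W) Tc τ x₁ x₂ →
    IsUnifAt x₂ ((twist D₁ T.W).rd a)
  unifB : ∀ x₁ x₂ : ValuationSubring L, IsNode D₁ (twist D₁ T.W) Tc τ x₁ x₂ →
    IsUnifAt x₁ (D₁.rd b)
  cusp : ∀ x₁ : ValuationSubring L, IsPt (kA A) x₁ → x₁.valuation τ⁻¹ < 1 →
    IsSmooth D₁ (twist D₁ T.W) Tc⁻¹ τ⁻¹ x₁
  isJ : (jb : LaurentSeries (kA A)) = S28.jd (kA A) 1
  int_jτ : IsInt (kA A) jb τ
  int_τj : IsInt (kA A) τ jb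

/-- **[GEO]** (helper80 + helper36). -/
def Stmt_Geo : Prop :=
  ∀ (p : ℕ) [NeZero p], p.Prime → 5 ≤ p → ∀ A : ValuationSubring Qbar, A.LiesOverPrime p →
  ∀ (M : ℕ) [NeZero M] [NeZero (M * p)], ¬ p ∣ M → 4 ∣ M → ∀ T : Skel.Setting p M,
    ∃ (L : IntermediateField (kA A) (LaurentSeries (kA A)))
      (D₁ : RedData Qbar (FF (M * p)) (kA A) L) (Tc a b : FF (M * p)) (τ jb : L),
      GeoFacts A p M T L D₁ Tc a b τ jb

/-- **[NODES]** Picard-Lefschetz at the nodes, for the classes of `XX`. -/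
def Stmt_NodesOut : Prop :=
  ∀ (p : ℕ) [NeZero p], p.Prime → 5 ≤ p → ∀ A : ValuationSubring Qbar, A.LiesOverPrime p →
  ∀ (M : ℕ) [NeZero M] [NeZero (M * p)], ¬ p ∣ M → 4 ∣ M →
  ∀ (T : Skel.Setting p M) (XX : Set (FF (M * p))), Skel.ResHyp A p M T XX →
  ∀ (L : IntermediateField (kA A) (LaurentSeries (kA A)))
    (D₁ : RedData Qbar (FF (M * p)) (kA A) L) (Tc a b : FF (M * p)) (τ jb : L),
    GeoFacts A p M T L D₁ Tc a b τ jb →
  ∀ u ∈ XX, ∃ (c : Qbar) (g : FF (M * p)) (δ : ℤ), c ≠ 0 ∧ g ≠ 0 ∧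
    ∀ x₁ x₂ : ValuationSubring L, IsNode D₁ (twist D₁ T.W) Tc τ x₁ x₂ →
      ∃ m : ℤ, PL.Shape Qbar D₁.O b (Rs D₁ (twist D₁ T.W) Tc x₁) (ns D₁ (twist D₁ T.W) Tc x₁)
        (algebraMap Qbar (FF (M * p)) c * u * g ^ p) (δ + p * m)

/-! ### the dictionary -/

/-- **DICT-1** (abstract).  `Shape` and reductions. -/
def Stmt_ShapeRd : Prop :=
  ∀ (K F k κ : Type) [Field K] [Field F] [Algebra K F] [Field k] [IsAlgClosed k] [Field κ]
    [Algebra k κ] (D₁ D₂ : RedData K F k κ) (T : F) (τ : κ), Compat D₁ D₂ T τ →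
    ∀ x₁ : ValuationSubring κ, IsPt k x₁ → τ ∈ x₁ →
    ∀ (t u : F) (m : ℤ), D₁.rd t ≠ 0 →
      PL.Shape K D₁.O t (Rs D₁ D₂ T x₁) (ns D₁ D₂ T x₁) u m →
    ∀ c : K, D₁.rd (algebraMap K F c * u) ≠ 0 →
      x₁.valuation (D₁.rd (algebraMap K F c * u) / D₁.rd t ^ m) = 1

/-- **DICT-2** (abstract).  Places and valuations. -/
def Stmt_PlaceOrd : Prop :=
  ∀ (k κ : Type) [Field k] [Field κ] [Algebra k κ] (x : Place k κ),
    IsPt k x.toValuationSubring ∧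
    (∀ f : κ, f ≠ 0 → (x.toValuationSubring.valuation f = 1 ↔ x.ord f = 0)) ∧
    (∀ f : κ, f ≠ 0 → (f ∈ x.toValuationSubring ↔ 0 ≤ x.ord f)) ∧
    (∀ f : κ, f ≠ 0 → (x.toValuationSubring.valuation f < 1 ↔ 0 < x.ord f)) ∧
    (∀ π : κ, IsUnifAt x.toValuationSubring π → x.ord π = 1)

/-- **DICT-3** (abstract).  The reduction of `c * u * g ^ p`. -/
def Stmt_RdPow : Prop :=
  ∀ (K F k κ : Type) [Field K] [Field F] [Algebra K F] [Field k] [Field κ] [Algebra k κ]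
    (D : RedData K F k κ) (u g : F) (c c₁ : K) (p : ℕ), u ≠ 0 → g ≠ 0 → c ≠ 0 →
    D.rd (algebraMap K F c₁ * u) ≠ 0 →
    ∃ (c₂ : K) (e : k) (h : κ), e ≠ 0 ∧ h ≠ 0 ∧
      D.rd (algebraMap K F c₂ * (algebraMap K F c * u * g ^ p)) ≠ 0 ∧
      D.rd (algebraMap K F c₂ * (algebraMap K F c * u * g ^ p)) =
        algebraMap k κ e * D.rd (algebraMap K F c₁ * u) * h ^ p

/-- **DICT-4**.  `IsDiv` gives a divisor. -/
def Stmt_DivOf : Prop :=
  ∀ (N p : ℕ) [NeZero N] (u : FF N), 0 < p → IsDiv N p u →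
    ∃ D : Divisor Qbar (FF N), ∀ P : Place Qbar (FF N), P.ord u = p * D P

/-- **DICT-5**.  The Gauss datum and `ORD.Dep.rd`. -/
def Stmt_RdSeries : Prop :=
  ∀ (A : ValuationSubring Qbar) (N : ℕ) [NeZero N]
    (L : IntermediateField (kA A) (LaurentSeries (kA A)))
    (D₁ : RedData Qbar (FF N) (kA A) L), IsGaussS N A L D₁ →
    ∀ x : FF N, x ∈ D₁.O → ((D₁.rd x : L) : LaurentSeries (kA A)) =
      ORD.Dep.rd A (x : LaurentSeries Qbar)

/-- the conclusion of [RES] for one `u`, over a general residue field `L`. -/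
def ResL (A : ValuationSubring Qbar) (p N : ℕ)
    (L : IntermediateField (kA A) (LaurentSeries (kA A))) (jb bb : L) (u : FF N) : Prop :=
  ∃ ub : L, ub ≠ 0 ∧
    (∃ c : Qbar, c ≠ 0 ∧ ORD.Dep.rd A (ORD.Dep.cst c * (u : LaurentSeries Qbar)) =
      (ub : LaurentSeries (kA A))) ∧
    ∃ δ : ℤ, ∀ x : Place (kA A) L,
      (0 ≤ x.ord jb → (p : ℤ) ∣ x.ord ub - δ * x.ord bb) ∧ (x.ord jb < 0 → (p : ℤ) ∣ x.ord ub)

/-- **FIN-1**.  [RES] over `L`. -/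
def Stmt_RESL : Prop :=
  ∀ (p : ℕ) [NeZero p], p.Prime → 5 ≤ p → ∀ A : ValuationSubring Qbar, A.LiesOverPrime p →
  ∀ (M : ℕ) [NeZero M] [NeZero (M * p)], ¬ p ∣ M → 4 ∣ M →
  ∀ (T : Skel.Setting p M) (XX : Set (FF (M * p))), Skel.ResHyp A p M T XX →
  ∀ (L : IntermediateField (kA A) (LaurentSeries (kA A)))
    (D₁ : RedData Qbar (FF (M * p)) (kA A) L) (Tc a b : FF (M * p)) (τ jb : L),
    GeoFacts A p M T L D₁ Tc a b τ jb →
  ∀ u ∈ XX, ResL A p (M * p) L jb (D₁.rd b)⁻¹ u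

/-- **SM-1**.  The smooth points of one chart: `p ∣ ord_x ub`, and functions without zeros and poles
centred at the point reduce to units. -/
def Stmt_SmoothOrd : Prop :=
  ∀ (K F k κ : Type) [Field K] [Field F] [Algebra K F] [Field k] [IsAlgClosed k] [Field κ]
    [Algebra k κ] (D₁ D₂ : RedData K F k κ) (T : F) (τ : κ), Std D₁ D₂ T τ →
    ∀ x : Place k κ, IsSmooth D₁ D₂ T τ x.toValuationSubring →
    (∀ (p : ℕ) (u : F) (D : Divisor K F) (c : K), u ≠ 0 → (∀ P, P.ord u = p * D P) →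
      D₁.rd (algebraMap K F c * u) ≠ 0 → (p : ℤ) ∣ x.ord (D₁.rd (algebraMap K F c * u))) ∧
    (∀ g : F, D₁.rd g ≠ 0 →
      (∀ P : Place K F, T ∈ P.toValuationSubring → P.ord g = 0) → x.ord (D₁.rd g) = 0)

/-- **[RES]** final form. -/
def Stmt_RESFinal : Prop := Skel.Stmt_RES Eis.IsB

end Fermat.Agent.MR.Node

end
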