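import Fermat.Agent.MR.Node.GeoInterface

/-!
# MR / Node / Geo : GEO-PRES (task 1586, helper70)

A semilinear automorphism preserving `T`, `O_∞`, `O_0` and inducing the identity on the residue field
of `D₁` preserves the local rings `R_s`.
-/

set_option autoImplicit false
set_option synthInstance.maxHeartbeats 400000

noncomputable section

namespace Fermat.Agent.MR.Node

open Polynomial IntermediateField AlgebraicCurve ModularCurve
open Fermat.Agent.INJ (IsInt RedData Arch Chart)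

section

variable {K F k κ : Type} [Field K] [Field F] [Algebra K F] [Field k] [Field κ] [Algebra k κ]

/-- a semilinear automorphism fixing `T` maps `K[T]` into itself. -/
theorem Pres_adjoin (g : SemilinearAut K F) {T : F} (hT : g • T = T) :
    ∀ y ∈ Algebra.adjoin K {T}, g • y ∈ Algebra.adjoin K {T} := by
  intro y hy
  induction hy using Algebra.adjoin_induction with
  | mem x hx =>
    rw [Set.mem_singleton_iff] at hx
    rw [hx, hT]
    exact Algebra.subset_adjoin (Set.mem_singleton T)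
  | algebraMap a =>
    rw [SemilinearAut.smul_algebraMap]
    exact Subalgebra.algebraMap_mem _ _
  | add x y _ _ hx hy =>
    rw [smul_add]
    exact add_mem hx hy
  | mul x y _ _ hx hy =>
    rw [smul_mul']
    exact mul_mem hx hy

/-- integrality over `K[T]` is preserved by a semilinear automorphism fixing `T`. -/
theorem Pres_isInt (g : SemilinearAut K F) {T : F} (hT : g • T = T) {x : F} (h : IsInt K T x) :
    IsInt K T (g • x) := by
  unfold IsInt at *
  have hmem := Pres_adjoin g hT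
  obtain ⟨p, hp, hpx⟩ := h
  let W : F →+* F := (SemilinearAut.toRingAut g : F →+* F)
  let φ : Algebra.adjoin K {T} →+* Algebra.adjoin K {T} :=
    { toFun := fun y => ⟨W y.1, hmem y.1 y.2⟩
      map_one' := Subtype.ext (map_one W)
      map_mul' := fun a b => Subtype.ext (map_mul W a.1 b.1)
      map_zero' := Subtype.ext (map_zero W)
      map_add' := fun a b => Subtype.ext (map_add W a.1 b.1) }
  refine ⟨p.map φ, hp.map φ, ?_⟩
  rw [Polynomial.eval₂_map]
  have h2 : (algebraMap (Algebra.adjoin K {T}) F).comp φ =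
      W.comp (algebraMap (Algebra.adjoin K {T}) F) := RingHom.ext fun _ => rfl
  rw [h2]
  have h3 := Polynomial.hom_eval₂ p (algebraMap (Algebra.adjoin K {T}) F) W x
  rw [hpx, map_zero] at h3
  exact h3.symm

/-- one direction. -/
theorem Pres_one (D₁ D₂ : RedData K F k κ) (T : F) (g : SemilinearAut K F) (hT : g • T = T)
    (h1 : ∀ z : F, g • z ∈ D₁.O ↔ z ∈ D₁.O) (h2 : ∀ z : F, g • z ∈ D₂.O ↔ z ∈ D₂.O)
    (h3 : ∀ z ∈ D₁.O, D₁.rd (g • z) = D₁.rd z) (x₁ : ValuationSubring κ) (z : F)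
    (hz : z ∈ Rs D₁ D₂ T x₁) : g • z ∈ Rs D₁ D₂ T x₁ := by
  have hBB : ∀ u ∈ BB D₁ D₂ T, g • u ∈ BB D₁ D₂ T := fun u hu =>
    ⟨Pres_isInt g hT hu.1, (h1 u).2 hu.2.1, (h2 u).2 hu.2.2⟩
  obtain ⟨u, hu, v, hv, hv1, huv⟩ := hz
  refine ⟨g • u, hBB u hu, g • v, hBB v hv, ?_, ?_⟩
  · rw [h3 v hv.2.1]
    exact hv1
  · rw [← smul_mul', huv]

end

theorem presAbs : Stmt_PresAbs := by
  intro K F k κ _ _ _ _ _ _ D₁ D₂ T g hT h1 h2 h3 x₁ z
  constructor
  · intro hz
    have hT' : g⁻¹ • T = T := by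
      rw [inv_smul_eq_iff, hT]
    have h1' : ∀ z : F, g⁻¹ • z ∈ D₁.O ↔ z ∈ D₁.O := by
      intro z
      rw [← h1 (g⁻¹ • z), smul_inv_smul]
    have h2' : ∀ z : F, g⁻¹ • z ∈ D₂.O ↔ z ∈ D₂.O := by
      intro z
      rw [← h2 (g⁻¹ • z), smul_inv_smul]
    have h3' : ∀ z ∈ D₁.O, D₁.rd (g⁻¹ • z) = D₁.rd z := by
      intro z hz
      rw [← h3 (g⁻¹ • z) ((h1' z).2 hz), smul_inv_smul]
    have := Pres_one D₁ D₂ T g⁻¹ hT' h1' h2' h3' x₁ (g • z) hz
    rwa [inv_smul_smul] at this
  · exact Pres_one D₁ D₂ T g hT h1 h2 h3 x₁ z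

end Fermat.Agent.MR.Node

end
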