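import Fermat.Agent.MR.Node.FinalInterface
import Fermat.Agent.RED.G1G5
import Fermat.Agent.S24.DegreeBound

/-!
# MR / Node : DICT-4 (helper6).  `IsDiv` gives a divisor.
-/

set_option autoImplicit false
set_option synthInstance.maxHeartbeats 400000
set_option maxHeartbeats 4000000

noncomputable section

namespace Fermat.Agent.MR.Node

open AlgebraicCurve ModularCurve IntermediateField
open Fermat.Agent.S24 (Qbar FF jF)
open Fermat.Agent.ES.Mid (GQ gal IsDiv)

/-- **DICT-4**. -/
theorem divOf : Stmt_DivOf := by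
  intro N p _ u hp hu
  have hj : Transcendental Qbar (jF N) := Fermat.Agent.S24.DegBd.transcendental_jF N
  have hfd : FiniteDimensional Qbar⟮jF N⟯ (FF N) := (Fermat.Agent.S24.finrank_FF_le N).1
  have hP : HasPrincipalDivisors Qbar (FF N) := RED.stmt_G1 Qbar (FF N) (jF N) hj hfd
  obtain ⟨D₀, hD₀, -⟩ := hP.exists_divisor u hu.1
  refine ⟨D₀.mapRange (fun z => z / (p : ℤ)) (by simp), fun P => ?_⟩
  rw [Finsupp.mapRange_apply, hD₀ P]
  exact (Int.mul_ediv_cancel' (hu.2 P)).symm

end Fermat.Agent.MR.Node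

end
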