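import Fermat.Agent.MR.Node.Interface

/-!
# MR / Node, tasks NODE-C7 + NODE-C8 (helper92): `PL.N3` from a uniformiser
-/

set_option autoImplicit false

namespace Fermat.Agent.MR.Node

open Polynomial IntermediateField AlgebraicCurve
open Fermat.Agent.INJ (IsInt RedData Arch Chart)
open Fermat.Agent.RED (Ev)

section Aux

variable {K F k κ : Type*} [Field K] [Field F] [Algebra K F] [Field k] [Field κ] [Algebra k κ]
  {D : RedData K F k κ}

/-- reduction of an integral power of a unit. -/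
theorem N3PL_rd_zpow {b : F} (hb : D.rd b ≠ 0) (m : ℤ) : D.rd (b ^ m) = D.rd b ^ m := by
  have hbO : b ∈ D.O := RedData.mem_of_rd_ne_zero hb
  cases m with
  | ofNat n => simpa using RedData.rd_pow hbO n
  | negSucc n =>
    rw [zpow_negSucc, zpow_negSucc, RedData.rd_inv (by rw [RedData.rd_pow hbO]; exact pow_ne_zero _ hb),
      RedData.rd_pow hbO]

/-- elements with reduction `0` are small. -/
theorem N3PL_val_lt_one {w : F} (hw : w ∈ D.O) (h : D.rd w = 0) : D.O.valuation w < 1 := by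
  by_contra hcon
  have h1 : D.O.valuation w = 1 :=
    le_antisymm ((ValuationSubring.valuation_le_one_iff _ _).2 hw) (not_lt.1 hcon)
  have hw0 : w ≠ 0 := by
    rintro rfl
    rw [map_zero] at h1
    exact zero_ne_one h1
  have hinv : w⁻¹ ∈ D.O := by
    rw [← ValuationSubring.valuation_le_one_iff, map_inv₀, h1, inv_one]
  exact RedData.rd_ne_zero_of_inv_mem hw0 hw hinv h

/-- units have non zero reduction. -/
theorem N3PL_rd_ne_zero {g : F} (h1 : D.O.valuation g = 1) : D.rd g ≠ 0 := by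
  have hg0 : g ≠ 0 := by
    rintro rfl
    rw [map_zero] at h1
    exact zero_ne_one h1
  have hg : g ∈ D.O := (ValuationSubring.valuation_le_one_iff _ _).1 h1.le
  have hinv : g⁻¹ ∈ D.O := by
    rw [← ValuationSubring.valuation_le_one_iff, map_inv₀, h1, inv_one]
  exact RedData.rd_ne_zero_of_inv_mem hg0 hg hinv

end Aux

/-- the common core of C7 and C8. -/
theorem N3PL_core (hU : Stmt_PtUnif) {K F k κ : Type} [Field K] [Field F] [Algebra K F] [Field k]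
    [Field κ] [Algebra k κ] (D : RedData K F k κ) (τ : κ) (htr : Transcendental k τ)
    (hfin : FiniteDimensional k⟮τ⟯ κ) (hsep : Algebra.IsSeparable k⟮τ⟯ κ)
    (x : ValuationSubring κ) (hx : IsPt k x) (hτ : τ ∈ x) (b : F) (hb : IsUnifAt x (D.rd b))
    (R : Subring F) (n : Set F)
    (hlift : ∀ f : κ, IsInt k τ f → x.valuation f = 1 → ∃ ξ ∈ R, ξ ∉ n ∧ D.rd ξ = f) :
    PL.N3 D.O b R n := by
  intro g hg
  obtain ⟨-, h2, h3⟩ := hU k κ τ htr hfin hsep x hx hτ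
  have hgb : D.rd g ≠ 0 := N3PL_rd_ne_zero hg
  have hgO : g ∈ D.O := RedData.mem_of_rd_ne_zero hgb
  have hbb : D.rd b ≠ 0 := hb.1
  obtain ⟨m, hm⟩ := h3 (D.rd b) hb (D.rd g) hgb
  obtain ⟨nn, d, hnn, hd, hdv, he⟩ := h2 (D.rd g / D.rd b ^ m)
    ((ValuationSubring.valuation_le_one_iff _ _).1 hm.le)
  have hnv : x.valuation nn = 1 := by rw [← he, map_mul, hm, hdv, one_mul]
  have hn0 : nn ≠ 0 := by
    rintro rfl
    rw [map_zero] at hnv
    exact zero_ne_one hnv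
  have hd0 : d ≠ 0 := by
    rintro rfl
    rw [map_zero] at hdv
    exact zero_ne_one hdv
  obtain ⟨X, hXR, hXn, hX⟩ := hlift nn hnn hnv
  obtain ⟨Y, hYR, hYn, hY⟩ := hlift d hd hdv
  refine ⟨m, X, Y, hXR, hXn, hYR, hYn, ?_⟩
  have hXO : X ∈ D.O := RedData.mem_of_rd_ne_zero (by rw [hX]; exact hn0)
  have hYO : Y ∈ D.O := RedData.mem_of_rd_ne_zero (by rw [hY]; exact hd0)
  have hbm : D.rd (b ^ m) = D.rd b ^ m := N3PL_rd_zpow hbb m
  have hbm0 : D.rd b ^ m ≠ 0 := zpow_ne_zero _ hbb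
  have hbmO : b ^ m ∈ D.O := RedData.mem_of_rd_ne_zero (by rw [hbm]; exact hbm0)
  have hden : D.rd (b ^ m * X) = D.rd b ^ m * nn := by rw [RedData.rd_mul hbmO hXO, hbm, hX]
  have hden0 : D.rd (b ^ m * X) ≠ 0 := by rw [hden]; exact mul_ne_zero hbm0 hn0
  have hnum : g * Y ∈ D.O := mul_mem hgO hYO
  have hz : D.rd (g * Y / (b ^ m * X)) = 1 := by
    rw [RedData.rd_div hnum hden0, hden, RedData.rd_mul hgO hYO, hY, ← he]
    field_simp
  have hzO : g * Y / (b ^ m * X) ∈ D.O := RedData.div_mem hnum hden0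
  refine N3PL_val_lt_one (sub_mem hzO (one_mem _)) ?_
  rw [RedData.rd_sub hzO (one_mem _), hz, RedData.rd_one, sub_self]

/-- **NODE-C7**. -/
theorem n3PL₁ (hU : Stmt_PtUnif) (hR : Stmt_RingR) : Stmt_N3PL₁ := by
  intro K F k κ _ _ _ _ _ _ _ D₁ D₂ T τ hC x₁ hx₁ hτ b _ hb
  obtain ⟨-, hR2, hR3⟩ := hR K F k κ D₁ D₂ T τ hC x₁ hx₁ hτ
  refine N3PL_core hU D₁ τ hC.trans hC.fin hC.sep x₁ hx₁ hτ b hb _ _ ?_
  intro f hf hfv
  obtain ⟨ξ, hξ, hξf⟩ := hC.surj₁ f hf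
  refine ⟨ξ, hR3 ξ hξ, ?_, hξf⟩
  rw [(hR2 ξ (hR3 ξ hξ)).2, hξf, hfv]
  exact lt_irrefl _

/-- **NODE-C8**. -/
theorem n3PL₂ (hU : Stmt_PtUnif) (hR : Stmt_RingR) (hR2 : Stmt_RingR2) : Stmt_N3PL₂ := by
  intro K F k κ _ _ _ _ _ _ _ D₁ D₂ T τ hC x₁ x₂ hN a _ ha
  obtain ⟨-, -, hR3⟩ := hR K F k κ D₁ D₂ T τ hC x₁ hN.pt₁ hN.τ₁
  have hR2' := hR2 K F k κ D₁ D₂ T τ hC x₁ x₂ hN
  refine N3PL_core hU D₂ τ hC.trans hC.fin hC.sep x₂ hN.pt₂ hN.τ₂ a ha _ _ ?_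
  intro f hf hfv
  obtain ⟨ξ, hξ, hξf⟩ := hC.surj₂ f hf
  refine ⟨ξ, hR3 ξ hξ, ?_, hξf⟩
  rw [(hR2' ξ (hR3 ξ hξ)).2.2, hξf, hfv]
  exact lt_irrefl _

end Fermat.Agent.MR.Node
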