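import Fermat.Agent.BR.Inv.TCInterface

/-!
# MR / Node : closed points of the special fibre at a prime `p ∥ N` (definitions; architect helper51)

Setting (that of BR / Inv "two copies"): `K = ℚ̄ ⊇ A`, residue field `k`; `F = FL (M * p)`;
`D₁ = D_∞` (Gauss datum), `D₂ = D_0 = twist D₁ w_p`, both with residue field `κ = L₁`;
`T` a chart coordinate, `τ : κ` a coordinate of the residue curve
(`rd₁ T = rd₂ T = τ ^ (p + 1)` in the application).

* `BB D₁ D₂ T` : the ring `B ∩ O_∞ ∩ O_0`, `B` = integral closure of `K[T]` in `F`.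
* a *point* of the residue curve `κ / k` is a valuation subring `x ≠ ⊤` of `κ` containing `k`.
  `x.valuation f < 1` : `f` vanishes at `x`;  `f ∈ x` : `f` is regular at `x`.
* a point `x₁` of the first copy with `τ ∈ x₁` defines the closed point `{z ∈ BB : rd₁ z vanishes at x₁}`.
  It is a *node* if it is also defined by a point `x₂` of the second copy (`IsNode`), and it is *smooth*
  if some `e ∈ BB` with `rd₂ e = 0` does not vanish at it (`IsSmooth`).
-/

set_option autoImplicit false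

namespace Fermat.Agent.MR.Node

open Fermat.Agent.INJ (IsInt RedData)

section Defs

variable {K F k κ : Type*} [Field K] [Field F] [Algebra K F] [Field k] [Field κ] [Algebra k κ]

/-- `BB = B ∩ O_∞ ∩ O_0`. -/
def BB (D₁ D₂ : RedData K F k κ) (T : F) : Subring F where
  carrier := {z | IsInt K T z ∧ z ∈ D₁.O ∧ z ∈ D₂.O}
  mul_mem' := fun ha hb => ⟨IsIntegral.mul ha.1 hb.1, mul_mem ha.2.1 hb.2.1, mul_mem ha.2.2 hb.2.2⟩
  one_mem' := ⟨isIntegral_one, one_mem _, one_mem _⟩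
  add_mem' := fun ha hb => ⟨IsIntegral.add ha.1 hb.1, add_mem ha.2.1 hb.2.1, add_mem ha.2.2 hb.2.2⟩
  zero_mem' := ⟨isIntegral_zero, zero_mem _, zero_mem _⟩
  neg_mem' := fun ha => ⟨IsIntegral.neg ha.1, neg_mem ha.2.1, neg_mem ha.2.2⟩

theorem mem_BB {D₁ D₂ : RedData K F k κ} {T z : F} :
    z ∈ BB D₁ D₂ T ↔ IsInt K T z ∧ z ∈ D₁.O ∧ z ∈ D₂.O := Iff.rfl

/-- a point of the curve with function field `κ / k`. -/
structure IsPt (k : Type*) {κ : Type*} [Field k] [Field κ] [Algebra k κ]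
    (x : ValuationSubring κ) : Prop where
  const : ∀ c : k, algebraMap k κ c ∈ x
  ne_top : x ≠ ⊤

/-- `π` is a uniformiser at `x`. -/
def IsUnifAt (x : ValuationSubring κ) (π : κ) : Prop :=
  π ≠ 0 ∧ x.valuation π < 1 ∧ ∀ f : κ, x.valuation f < 1 → f / π ∈ x

/-- the points `x₁` (first copy) and `x₂` (second copy) define the same closed point of `Spec BB`. -/
structure IsNode (D₁ D₂ : RedData K F k κ) (T : F) (τ : κ) (x₁ x₂ : ValuationSubring κ) : Prop where
  pt₁ : IsPt k x₁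
  pt₂ : IsPt k x₂
  τ₁ : τ ∈ x₁
  τ₂ : τ ∈ x₂
  same : ∀ z ∈ BB D₁ D₂ T, x₁.valuation (D₁.rd z) < 1 ↔ x₂.valuation (D₂.rd z) < 1

/-- the closed point defined by the point `x₁` of the first copy does not lie on the second copy. -/
structure IsSmooth (D₁ D₂ : RedData K F k κ) (T : F) (τ : κ) (x₁ : ValuationSubring κ) : Prop where
  pt : IsPt k x₁
  τ₁ : τ ∈ x₁
  sep : ∃ e ∈ BB D₁ D₂ T, D₂.rd e = 0 ∧ x₁.valuation (D₁.rd e) = 1

/-- `z` lies in the local ring `R_s` of `BB` at the closed point defined by `x₁`. -/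
def InR (D₁ D₂ : RedData K F k κ) (T : F) (x₁ : ValuationSubring κ) (z : F) : Prop :=
  ∃ u ∈ BB D₁ D₂ T, ∃ v ∈ BB D₁ D₂ T, x₁.valuation (D₁.rd v) = 1 ∧ z * v = u

theorem InR.val_mul {D₁ D₂ : RedData K F k κ} {T : F} {x₁ : ValuationSubring κ} {v v' : F}
    (hv : v ∈ BB D₁ D₂ T) (hv' : v' ∈ BB D₁ D₂ T) (h : x₁.valuation (D₁.rd v) = 1)
    (h' : x₁.valuation (D₁.rd v') = 1) : x₁.valuation (D₁.rd (v * v')) = 1 := by
  rw [RedData.rd_mul hv.2.1 hv'.2.1, map_mul, h, h', one_mul]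

/-- the local ring `R_s` of `BB` at the closed point defined by `x₁`. -/
def Rs (D₁ D₂ : RedData K F k κ) (T : F) (x₁ : ValuationSubring κ) : Subring F where
  carrier := {z | InR D₁ D₂ T x₁ z}
  mul_mem' := by
    rintro z z' ⟨u, hu, v, hv, h1, h2⟩ ⟨u', hu', v', hv', h1', h2'⟩
    exact ⟨u * u', mul_mem hu hu', v * v', mul_mem hv hv', InR.val_mul hv hv' h1 h1', by
      rw [← h2, ← h2']; ring⟩
  one_mem' := ⟨1, one_mem _, 1, one_mem _, by rw [RedData.rd_one, map_one], by ring⟩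
  add_mem' := by
    rintro z z' ⟨u, hu, v, hv, h1, h2⟩ ⟨u', hu', v', hv', h1', h2'⟩
    exact ⟨u * v' + u' * v, add_mem (mul_mem hu hv') (mul_mem hu' hv), v * v', mul_mem hv hv',
      InR.val_mul hv hv' h1 h1', by rw [← h2, ← h2']; ring⟩
  zero_mem' := ⟨0, zero_mem _, 1, one_mem _, by rw [RedData.rd_one, map_one], by ring⟩
  neg_mem' := by
    rintro z ⟨u, hu, v, hv, h1, h2⟩
    exact ⟨-u, neg_mem hu, v, hv, h1, by rw [← h2]; ring⟩

/-- the maximal ideal `n_s` of `R_s`. -/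
def ns (D₁ D₂ : RedData K F k κ) (T : F) (x₁ : ValuationSubring κ) : Set F :=
  {z | ∃ u ∈ BB D₁ D₂ T, ∃ v ∈ BB D₁ D₂ T, x₁.valuation (D₁.rd v) = 1 ∧
    x₁.valuation (D₁.rd u) < 1 ∧ z * v = u}

/-- the basic compatibility between `BB` and the coordinate `τ` of the residue curve:
reductions are integral over `k[τ]`, and both reductions are onto the integral closure of `k[τ]`. -/
structure Compat (D₁ D₂ : RedData K F k κ) (T : F) (τ : κ) : Prop where
  A_eq : D₁.A = D₂.A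
  ra_eq : ∀ a : K, D₁.ra a = D₂.ra a
  trans : Transcendental k τ
  fin : FiniteDimensional (IntermediateField.adjoin k {τ}) κ
  sep : Algebra.IsSeparable (IntermediateField.adjoin k {τ}) κ
  int₁ : ∀ z ∈ BB D₁ D₂ T, IsInt k τ (D₁.rd z)
  int₂ : ∀ z ∈ BB D₁ D₂ T, IsInt k τ (D₂.rd z)
  surj₁ : ∀ f : κ, IsInt k τ f → ∃ ξ ∈ BB D₁ D₂ T, D₁.rd ξ = f
  surj₂ : ∀ f : κ, IsInt k τ f → ∃ ξ ∈ BB D₁ D₂ T, D₂.rd ξ = f

end Defs

end Fermat.Agent.MR.Node
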