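import Fermat.Agent.MR.Node.FinalInterface

/-!
# MR / Node : NODE-H8 (FIN-2)  `Skel.Stmt_RES Eis.IsB` from `Stmt_Geo` + `Stmt_RESL` (helper78)
-/

set_option autoImplicit false
set_option synthInstance.maxHeartbeats 400000
set_option maxHeartbeats 4000000

noncomputable section

namespace Fermat.Agent.MR.Node

open AlgebraicCurve ModularCurve
open Fermat.Agent.S24 (Qbar FF)
open Fermat.Agent.ES.Mid (GQ gal IsDiv)
open Fermat.Agent.INJ (IsInt RedData)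
open Fermat.Agent.INJ.Inst (kA)
open Fermat.Agent.BR.Inst (twist IsGaussS)
open Fermat.Agent.S28 (Kf)
open Fermat.Agent.CAR.Unit (etaLser lf4 lx1)

/-- **FIN-2**. -/
theorem resFinal (hG : Stmt_Geo) (hR : Stmt_RESL) (hRS : Stmt_RdSeries) : Stmt_RESFinal := by
  intro p _ hp hp5 A hA M _ _ hpM h4 T XX hXX
  obtain ⟨L, D₁, Tc, a, b, τ, jb, H⟩ := hG p hp hp5 A hA M hpM h4 T
  have hres := hR p hp hp5 A hA M hpM h4 T XX hXX L D₁ Tc a b τ jb H
  obtain ⟨x1, hbx, hx1⟩ := H.b_series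
  have hb0 : b ≠ 0 := by
    intro h
    rw [h, zero_mul] at hbx
    exact zero_ne_one hbx
  have hx1b : x1 = b⁻¹ := eq_inv_of_mul_eq_one_right hbx
  have hmem : x1 ∈ D₁.O := by
    rw [hx1b]
    exact RedData.inv_mem_of_rd_ne_zero H.rd₁b
  have hrd : D₁.rd x1 = (D₁.rd b)⁻¹ := by
    rw [hx1b]
    exact RedData.rd_inv H.rd₁b
  have hser := hRS A (M * p) L D₁ H.gauss x1 hmem
  rw [hrd] at hser
  have hJ := H.isJ
  have hL := H.hL
  clear H
  subst hL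
  refine ⟨jb, (D₁.rd b)⁻¹, hJ, ⟨x1, hx1, hser⟩, ?_⟩
  intro u hu
  obtain ⟨ub, hub, hc, δ, hδ⟩ := hres u hu
  exact ⟨ub, ⟨hub, hc⟩, δ, hδ⟩

end Fermat.Agent.MR.Node

end
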