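import Fermat.Agent.MR.Node.FinalInterface
import Fermat.Agent.S24.PlaceBasic
import Fermat.Agent.S18.Glue28

/-!
# MR / Node : NODE-H7 = FIN-1, [RES] over `L`  (task 1578, architect helper51)

`resL : Stmt_NodesOut → Stmt_Dich → Stmt_SmoothOrd → Stmt_ShapeRd → Stmt_PlaceOrd → Stmt_RdPow →
  Stmt_DivOf → Stmt_RdSeries → Stmt_RESL`.

The whole argument is done abstractly (`RESL_core`), then instantiated.
-/

set_option autoImplicit false
set_option synthInstance.maxHeartbeats 400000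
set_option maxHeartbeats 4000000

noncomputable section

namespace Fermat.Agent.MR.Node

open AlgebraicCurve ModularCurve
open Fermat.Agent.S24 (Qbar FF)
open Fermat.Agent.ES.Mid (GQ gal IsDiv)
open Fermat.Agent.INJ (IsInt RedData)
open Fermat.Agent.INJ.Inst (kA)
open Fermat.Agent.BR.Inst (twist IsGaussS)
open Fermat.Agent.S28 (Kf)

/-- a valuation subring containing `k` and `t` contains everything integral over `k[t]`. -/
theorem RESL_mem_of_isInt {k κ : Type*} [Field k] [Field κ] [Algebra k κ] (x : ValuationSubring κ)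
    (hc : ∀ c : k, algebraMap k κ c ∈ x) {t f : κ} (ht : t ∈ x) (hf : IsInt k t f) : f ∈ x := by
  have hle : ∀ s ∈ Algebra.adjoin k {t}, s ∈ x := by
    intro s hs
    induction hs using Algebra.adjoin_induction with
    | mem y hy => rw [Set.mem_singleton_iff.1 hy]; exact ht
    | algebraMap r => exact hc r
    | add a b _ _ ha hb => exact add_mem ha hb
    | mul a b _ _ ha hb => exact mul_mem ha hb
  let φ : Algebra.adjoin k {t} →+* x :=
    { toFun := fun s => ⟨s.1, hle s.1 s.2⟩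
      map_one' := rfl
      map_mul' := fun _ _ => rfl
      map_zero' := rfl
      map_add' := fun _ _ => rfl }
  have h1 : IsIntegral x f := by
    have := IsIntegral.map_of_comp_eq φ (RingHom.id κ) (by ext; rfl) hf
    simpa using this
  obtain ⟨y, hy⟩ := IsIntegrallyClosed.isIntegral_iff.1 h1
  rw [← hy]; exact y.2

/-- the abstract form of [RES] over `L`. -/
theorem RESL_core (hD : Stmt_Dich) (hSO : Stmt_SmoothOrd) (hSh : Stmt_ShapeRd) (hP : Stmt_PlaceOrd)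
    (hRP : Stmt_RdPow)
    (K F k κ : Type) [Field K] [Field F] [Algebra K F] [Field k] [IsAlgClosed k] [Field κ]
    [Algebra k κ] (D₁ D₂ : RedData K F k κ) (Tc a b : F) (τ jb : κ) (p : ℕ) (ϖ : K) (hϖ : ϖ ≠ 0)
    (std : Std D₁ D₂ Tc τ) (std' : Std D₁ D₂ Tc⁻¹ τ⁻¹)
    (a_mem : a ∈ BB D₁ D₂ Tc) (b_mem : b ∈ BB D₁ D₂ Tc) (ab : a * b = algebraMap K F ϖ)
    (rd₁b : D₁.rd b ≠ 0)
    (unifB : ∀ x₁ x₂ : ValuationSubring κ, IsNode D₁ D₂ Tc τ x₁ x₂ → IsUnifAt x₁ (D₁.rd b))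
    (cusp : ∀ x₁ : ValuationSubring κ, IsPt k x₁ → x₁.valuation τ⁻¹ < 1 →
      IsSmooth D₁ D₂ Tc⁻¹ τ⁻¹ x₁)
    (int_jτ : IsInt k jb τ) (int_τj : IsInt k τ jb)
    (u : F) (hu : u ≠ 0) (Dv : Divisor K F) (hDv : ∀ P : Place K F, P.ord u = p * Dv P)
    (c : K) (g : F) (δ : ℤ) (hc : c ≠ 0) (hg : g ≠ 0)
    (hsh : ∀ x₁ x₂ : ValuationSubring κ, IsNode D₁ D₂ Tc τ x₁ x₂ →
      ∃ m : ℤ, PL.Shape K D₁.O b (Rs D₁ D₂ Tc x₁) (ns D₁ D₂ Tc x₁)
        (algebraMap K F c * u * g ^ p) (δ + p * m))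
    (c₁ : K) (hc₁ : D₁.rd (algebraMap K F c₁ * u) ≠ 0) :
    ∃ δ' : ℤ, ∀ x : Place k κ,
      (0 ≤ x.ord jb →
        (p : ℤ) ∣ x.ord (D₁.rd (algebraMap K F c₁ * u)) - δ' * x.ord (D₁.rd b)⁻¹) ∧
      (x.ord jb < 0 → (p : ℤ) ∣ x.ord (D₁.rd (algebraMap K F c₁ * u))) := by
  obtain ⟨c₂, e, h, he, hh, hne, heq⟩ := hRP K F k κ D₁ u g c c₁ p hu hg hc hc₁
  refine ⟨-δ, fun x => ?_⟩
  obtain ⟨hpt, hv1, -, -, hunif⟩ := hP k κ x
  constructor
  · intro h0
    have hj : jb ∈ x.toValuationSubring := by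
      rcases eq_or_ne jb 0 with rfl | hjb0
      · exact zero_mem _
      · exact S24.mem_of_ord_nonneg x hjb0 h0
    have hτ : τ ∈ x.toValuationSubring := RESL_mem_of_isInt _ hpt.const hj int_jτ
    rcases hD K F k κ D₁ D₂ Tc τ std.compat _ hpt hτ with ⟨x₂, hnode⟩ | hsm
    · obtain ⟨m, hm⟩ := hsh _ x₂ hnode
      have h1 := hSh K F k κ D₁ D₂ Tc τ std.compat _ hpt hτ b _ _ rd₁b hm c₂ hne
      have h2 := (hv1 _ (div_ne_zero hne (zpow_ne_zero _ rd₁b))).1 h1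
      have h3 : x.ord (D₁.rd b) = 1 := hunif _ (unifB _ _ hnode)
      have he' : algebraMap k κ e ≠ 0 := (map_ne_zero _).2 he
      rw [div_eq_mul_inv, x.ord_mul hne (inv_ne_zero (zpow_ne_zero _ rd₁b)), x.ord_inv,
        x.ord_zpow, h3, heq, x.ord_mul (mul_ne_zero he' hc₁) (pow_ne_zero _ hh),
        x.ord_mul he' hc₁, S24.ord_algebraMap, ← zpow_natCast, x.ord_zpow] at h2
      rw [x.ord_inv, h3]
      exact ⟨m - x.ord h, by linarith⟩
    · obtain ⟨s1, s2⟩ := hSO K F k κ D₁ D₂ Tc τ std x hsm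
      have h1 := s1 p u Dv c₁ hu hDv hc₁
      have h2 : x.ord (D₁.rd b) = 0 := by
        refine s2 b rd₁b fun P hP' => ?_
        have ha : a ∈ P.toValuationSubring := std.places.reg a a_mem.1 P hP'
        have hb : b ∈ P.toValuationSubring := std.places.reg b b_mem.1 P hP'
        have hab0 : a * b ≠ 0 := by rw [ab]; exact (map_ne_zero _).2 hϖ
        have h4 := P.ord_mul (left_ne_zero_of_mul hab0) (right_ne_zero_of_mul hab0)
        rw [ab, S24.ord_algebraMap] at h4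
        have h5 := S24.ord_nonneg_of_mem P ha
        have h6 := S24.ord_nonneg_of_mem P hb
        omega
      rw [x.ord_inv, h2]
      simpa using h1
  · intro h0
    have hτ : τ ∉ x.toValuationSubring := fun hτ => by
      have h1 := RESL_mem_of_isInt _ hpt.const hτ int_τj
      have h2 := S24.ord_nonneg_of_mem x h1
      omega
    have hv : x.toValuationSubring.valuation τ⁻¹ < 1 := by
      have h1 : 1 < x.toValuationSubring.valuation τ := by
        rw [← not_le, ValuationSubring.valuation_le_one_iff]; exact hτ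
      rw [map_inv₀]
      exact inv_lt_one_of_one_lt₀ h1
    exact (hSO K F k κ D₁ D₂ Tc⁻¹ τ⁻¹ std' x (cusp _ hpt hv)).1 p u Dv c₁ hu hDv hc₁

/-- **FIN-1**. -/
theorem resL (hN : Stmt_NodesOut) (hD : Stmt_Dich) (hSO : Stmt_SmoothOrd) (hSh : Stmt_ShapeRd)
    (hP : Stmt_PlaceOrd) (hRP : Stmt_RdPow) (hDiv : Stmt_DivOf) (hRS : Stmt_RdSeries) :
    Stmt_RESL := by
  intro p _ hp hp5 A hA M _ _ hpM h4 T XX hX L D₁ Tc a b τ jb G u hu
  have : IsAlgClosed (kA A) := S18G.isAlgClosed_kA A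
  have hdiv := hX.cg.isDiv u hu
  have hu0 : u ≠ 0 := hdiv.1
  obtain ⟨Dv, hDv⟩ := hDiv (M * p) p u hp.pos hdiv
  obtain ⟨c, g, δ, hc, hg, hsh⟩ := hN p hp hp5 A hA M hpM h4 T XX hX L D₁ Tc a b τ jb G u hu
  obtain ⟨c₁, hc₁0, h1, h2⟩ := D₁.unram u hu0
  have hne : D₁.rd (algebraMap Qbar (FF (M * p)) c₁ * u) ≠ 0 := by
    rw [mul_comm (algebraMap Qbar (FF (M * p)) c₁) u]
    exact RedData.rd_ne_zero_of_inv_mem (mul_ne_zero hu0 ((map_ne_zero _).2 hc₁0)) h1 h2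
  obtain ⟨δ', hδ'⟩ := RESL_core hD hSO hSh hP hRP Qbar (FF (M * p)) (kA A) L D₁ (twist D₁ T.W)
    Tc a b τ jb p (p : Qbar) (Nat.cast_ne_zero.2 hp.ne_zero) G.std G.std' G.a_mem G.b_mem G.ab
    G.rd₁b G.unifB G.cusp G.int_jτ G.int_τj u hu0 Dv hDv c g δ hc hg hsh c₁ hne
  refine ⟨D₁.rd (algebraMap Qbar (FF (M * p)) c₁ * u), hne, ⟨c₁, hc₁0, ?_⟩, δ', hδ'⟩
  rw [hRS A (M * p) L D₁ G.gauss _ (RedData.mem_of_rd_ne_zero hne)]
  rfl

end Fermat.Agent.MR.Node

end
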