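import Fermat.Agent.MR.Node.FinalInterface

/-!
# MR / Node (NODE-H3, DICT-3) : the reduction of `c * u * g ^ p` (task 1574, helper58)
-/

set_option autoImplicit false
set_option synthInstance.maxHeartbeats 400000

noncomputable section

namespace Fermat.Agent.MR.Node

open Fermat.Agent.INJ (RedData)

theorem rdPow : Stmt_RdPow := by
  intro K F k κ _ _ _ _ _ _ D u g c c₁ p _hu hg hc h1
  obtain ⟨c₃, _hc₃, hG, hG'⟩ := D.unram g hg
  have hG0 : g * algebraMap K F c₃ ≠ 0 := by
    intro h0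
    rw [h0, inv_zero] at hG'
    have hc30 : algebraMap K F c₃ ≠ 0 := by
      intro h
      exact _hc₃ ((map_eq_zero (algebraMap K F)).mp h)
    exact (mul_ne_zero hg hc30) h0
  have hrdG : D.rd (g * algebraMap K F c₃) ≠ 0 := RedData.rd_ne_zero_of_inv_mem hG0 hG hG'
  have hcF : algebraMap K F c ≠ 0 := fun h => hc ((map_eq_zero (algebraMap K F)).mp h)
  have hid : algebraMap K F (c₁ * c₃ ^ p / c) * (algebraMap K F c * u * g ^ p) =
      (algebraMap K F c₁ * u) * (g * algebraMap K F c₃) ^ p := by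
    rw [map_div₀, map_mul, map_pow, mul_pow]
    field_simp
  have hrd : D.rd (algebraMap K F (c₁ * c₃ ^ p / c) * (algebraMap K F c * u * g ^ p)) =
      D.rd (algebraMap K F c₁ * u) * D.rd (g * algebraMap K F c₃) ^ p := by
    rw [hid, RedData.rd_mul (RedData.mem_of_rd_ne_zero h1) (D.O.pow_mem hG p), RedData.rd_pow hG]
  refine ⟨c₁ * c₃ ^ p / c, 1, D.rd (g * algebraMap K F c₃), one_ne_zero, hrdG, ?_, ?_⟩
  · rw [hrd]
    exact mul_ne_zero h1 (pow_ne_zero p hrdG)
  · rw [hrd, map_one, one_mul]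

end Fermat.Agent.MR.Node

end
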