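import Fermat.Agent.MR.Node.GeoAll
import Fermat.Agent.MR.Node.Loc
import Fermat.Agent.MR.Node.N1
import Fermat.Agent.MR.Node.N3PL
import Fermat.Agent.MR.Node.Small
import Fermat.Agent.MR.Node.ValA
import Fermat.Agent.MR.Node.Kill
import Fermat.Agent.MR.Node.Reg
import Fermat.Agent.MR.Node.SepUnif
import Fermat.Agent.MR.Node.FG
import Fermat.Agent.MR.Node.ShapeRd
import Fermat.Agent.MR.Node.PlaceOrd
import Fermat.Agent.MR.Node.RdPow
import Fermat.Agent.MR.Node.DivOf
import Fermat.Agent.MR.Node.RdSeries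
import Fermat.Agent.MR.Node.SmoothOrd
import Fermat.Agent.MR.Node.RESL
import Fermat.Agent.MR.Node.RESFinal
import Fermat.Agent.MR.PL.Final

/-!
# MR / Node : assembly of [RES] (helper51)

`res_of : Stmt_FrobEx → Stmt_NodesOut → Skel.Stmt_RES Eis.IsB`; everything else is unconditional.
-/

set_option autoImplicit false

namespace Fermat.Agent.MR.Node

theorem all_RingR : Stmt_RingR := ringR ptRes

theorem all_Dich : Stmt_Dich := dich ptRes

theorem all_N1 : Stmt_N1 := n1 ptUnif small

theorem all_SmN1 : Stmt_SmN1 := smN1 ptUnif small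

theorem all_N3PL₁ : Stmt_N3PL₁ := n3PL₁ ptUnif all_RingR

theorem all_N3PL₂ : Stmt_N3PL₂ := n3PL₂ ptUnif all_RingR ringR2

theorem all_Kill : Stmt_Kill := kill ptRes all_RingR

/-- the local ring at a node satisfies the hypotheses of Picard-Lefschetz. -/
theorem all_NodeLoc : Stmt_NodeLoc :=
  nodeLoc all_RingR ringR2 all_N1 all_N3PL₁ all_N3PL₂ valA all_Kill reg sepUnif fg

/-- the local ring at a smooth point. -/
theorem all_SmoothLoc : Stmt_SmoothLoc :=
  smoothLoc all_RingR all_SmN1 all_N3PL₁ valA all_Kill reg regSm sepUnif fg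

theorem all_ShapeRd : Stmt_ShapeRd := shapeRd all_RingR

theorem all_SmoothOrd : Stmt_SmoothOrd :=
  smoothOrd PL.all_Smooth PL.all_SDec all_SmoothLoc ptUnif all_ShapeRd placeOrd

theorem resL_of (hN : Stmt_NodesOut) : Stmt_RESL :=
  resL hN all_Dich all_SmoothOrd all_ShapeRd placeOrd rdPow divOf rdSeries

/-- **[RES]** from the Frobenius congruence and Picard-Lefschetz at the nodes. -/
theorem res_of (hF : Stmt_FrobEx) (hN : Stmt_NodesOut) : Skel.Stmt_RES Eis.IsB :=
  resFinal (geo_of_FrobEx hF) (resL_of hN) rdSeries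

end Fermat.Agent.MR.Node
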