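import Fermat.Agent.MR.Node.Interface
import Fermat.Agent.BR.Inv.GAll

/-!
# MR / Node : NODE-B2, `BB` is a finite `A[T]`-module (helper9)
-/

set_option autoImplicit false

namespace Fermat.Agent.MR.Node

open Polynomial IntermediateField
open Fermat.Agent.INJ (IsInt RedData)
open Fermat.Agent.BR.Inv (IsPairData SData SChart SN)

theorem bbFin : Stmt_BBFin := by
  intro K F k κ _ _ _ _ _ _ _ _ D₁ D₂ S hP T hC hSN
  obtain ⟨b, d, hbO, hspan, -, hAS, -, -⟩ := BR.Inv.GAll_SSetting K F k (κ × κ) S T hC hSN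
  have hbI : ∀ i, IsInt K T (b i) := fun i => (hspan _).1 (Submodule.subset_span ⟨i, rfl⟩)
  refine ⟨_, b, fun i => ⟨hbI i, (hP.mem _).1 (hbO i)⟩, fun z hz => ?_⟩
  have hzS : z ∈ S.O := (hP.mem z).2 hz.2
  obtain ⟨P, hPz⟩ := (BR.Inv.mem_Sp_iff (k := K) T b z).1 ((hspan z).2 hz.1)
  refine ⟨P, fun i m => ?_, hPz⟩
  have hmem : ∀ i, aeval T (P i) ∈ K⟮T⟯ := fun i =>
    IntermediateField.algebra_adjoin_le_adjoin K {T} (BR.Inv.aeval_mem_adjoin T (P i))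
  have h2 := (BR.Inv.GAll_SOrtho K F k (κ × κ) S T hC.t_mem hC.unit _ b hbO hAS.li).2
    (fun i => ⟨aeval T (P i), hmem i⟩) (by rw [← hPz]; exact hzS) i
  obtain ⟨Q, hQ⟩ := (BR.Inv.stmt_SGauss K F k (κ × κ) S T hC.t_mem hC.unit).2.1 (P i) h2
  rw [← hQ, coeff_map, ← hP.A_eq]
  exact (Q.coeff m).2

end Fermat.Agent.MR.Node
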