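import Fermat.Agent.MR.Node.Interface

/-!
# MR / Node : NODE-B4, `BB` is integrally closed with fraction field `F`
-/

set_option autoImplicit false

namespace Fermat.Agent.MR.Node

open Polynomial IntermediateField
open Fermat.Agent.INJ (IsInt RedData)
open scoped IntermediateField.algebraAdjoinAdjoin

section

variable {K F k κ : Type*} [Field K] [Field F] [Algebra K F] [Field k] [Field κ] [Algebra k κ]

/-- every element can be scaled into `O` by a nonzero constant of `A`. -/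
theorem BBN_scale1 (D : RedData K F k κ) (y : F) :
    ∃ c : K, c ≠ 0 ∧ c ∈ D.A ∧ algebraMap K F c * y ∈ D.O := by
  by_cases hy : y = 0
  · exact ⟨1, one_ne_zero, D.A.one_mem, by rw [hy, mul_zero]; exact D.O.zero_mem⟩
  obtain ⟨a, ha0, ha, -⟩ := D.unram y hy
  rcases D.A.mem_or_inv_mem a with h | h
  · exact ⟨a, ha0, h, by rwa [mul_comm]⟩
  · refine ⟨1, one_ne_zero, D.A.one_mem, ?_⟩
    have h1 : algebraMap K F a⁻¹ ∈ D.O := (D.mem_iff _).2 h
    have h2 : algebraMap K F 1 * y = y * algebraMap K F a * algebraMap K F a⁻¹ := by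
      have : algebraMap K F a ≠ 0 := (_root_.map_ne_zero _).2 ha0
      rw [map_one, map_inv₀]
      field_simp
    rw [h2]
    exact mul_mem ha h1

theorem BBN_scale2 (D₁ D₂ : RedData K F k κ) (hA : D₁.A = D₂.A) (y : F) :
    ∃ c : K, c ≠ 0 ∧ c ∈ D₁.A ∧ algebraMap K F c * y ∈ D₁.O ∧ algebraMap K F c * y ∈ D₂.O := by
  obtain ⟨c₁, h10, h1A, h1⟩ := BBN_scale1 D₁ y
  obtain ⟨c₂, h20, h2A, h2⟩ := BBN_scale1 D₂ y
  refine ⟨c₁ * c₂, mul_ne_zero h10 h20, mul_mem h1A (hA ▸ h2A), ?_, ?_⟩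
  · have : algebraMap K F (c₁ * c₂) * y = algebraMap K F c₂ * (algebraMap K F c₁ * y) := by
      rw [map_mul]; ring
    rw [this]
    exact mul_mem ((D₁.mem_iff _).2 (hA ▸ h2A)) h1
  · have : algebraMap K F (c₁ * c₂) * y = algebraMap K F c₁ * (algebraMap K F c₂ * y) := by
      rw [map_mul]; ring
    rw [this]
    exact mul_mem ((D₂.mem_iff _).2 (hA ▸ h1A)) h2

theorem BBN_isInt_const (T : F) (c : K) : IsInt K T (algebraMap K F c) :=
  isIntegral_algebraMap (R := Algebra.adjoin K {T}) (x := algebraMap K (Algebra.adjoin K {T}) c)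

/-- change of the base ring of an integrality relation. -/
theorem BBN_isIntegral_of_le (S : Subring F) {S' : Type*} [CommRing S'] [Algebra S' F]
    (f : S →+* S') (hf : ∀ s : S, algebraMap S' F (f s) = (s : F)) {z : F} (hz : IsIntegral S z) :
    IsIntegral S' z := by
  obtain ⟨p, hp, he⟩ := hz
  refine ⟨p.map f, hp.map f, ?_⟩
  rw [Polynomial.eval₂_map]
  have : (algebraMap S' F).comp f = algebraMap S F := RingHom.ext hf
  rw [this]
  exact he

/-- denominators. -/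
theorem BBN_denom (D₁ D₂ : RedData K F k κ) (T : F) (hA : D₁.A = D₂.A)
    (halg : Algebra.IsAlgebraic K⟮T⟯ F) (z : F) :
    ∃ d ∈ BB D₁ D₂ T, d ≠ 0 ∧ d * z ∈ BB D₁ D₂ T := by
  have h1 : Algebra.IsAlgebraic (Algebra.adjoin K {T}) F :=
    Algebra.IsAlgebraic.trans (Algebra.adjoin K {T}) K⟮T⟯ F
  obtain ⟨d₀, hd0, hd⟩ := (h1.isAlgebraic z).exists_integral_multiple
  have hd0' : (d₀ : F) ≠ 0 := fun h => hd0 (Subtype.ext h)
  have hdI : IsInt K T (d₀ : F) := isIntegral_algebraMap (R := Algebra.adjoin K {T}) (x := d₀)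
  have hdz : IsInt K T ((d₀ : F) * z) := hd
  obtain ⟨c₁, h10, h1A, h11, h12⟩ := BBN_scale2 D₁ D₂ hA (d₀ : F)
  obtain ⟨c₂, h20, h2A, h21, h22⟩ := BBN_scale2 D₁ D₂ hA ((d₀ : F) * z)
  have m11 : algebraMap K F c₁ ∈ D₁.O := (D₁.mem_iff _).2 h1A
  have m12 : algebraMap K F c₁ ∈ D₂.O := (D₂.mem_iff _).2 (hA ▸ h1A)
  have m21 : algebraMap K F c₂ ∈ D₁.O := (D₁.mem_iff _).2 h2A
  have m22 : algebraMap K F c₂ ∈ D₂.O := (D₂.mem_iff _).2 (hA ▸ h2A)
  refine ⟨algebraMap K F c₂ * (algebraMap K F c₁ * d₀), ⟨?_, ?_, ?_⟩, ?_, ⟨?_, ?_, ?_⟩⟩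
  · exact IsIntegral.mul (BBN_isInt_const T c₂) (IsIntegral.mul (BBN_isInt_const T c₁) hdI)
  · exact mul_mem m21 h11
  · exact mul_mem m22 h12
  · exact mul_ne_zero ((_root_.map_ne_zero _).2 h20) (mul_ne_zero ((_root_.map_ne_zero _).2 h10) hd0')
  · have : algebraMap K F c₂ * (algebraMap K F c₁ * d₀) * z
        = algebraMap K F c₂ * (algebraMap K F c₁ * ((d₀ : F) * z)) := by ring
    rw [this]
    exact IsIntegral.mul (BBN_isInt_const T c₂) (IsIntegral.mul (BBN_isInt_const T c₁) hdz)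
  · have : algebraMap K F c₂ * (algebraMap K F c₁ * d₀) * z
        = algebraMap K F c₁ * (algebraMap K F c₂ * ((d₀ : F) * z)) := by ring
    rw [this]
    exact mul_mem m11 h21
  · have : algebraMap K F c₂ * (algebraMap K F c₁ * d₀) * z
        = algebraMap K F c₁ * (algebraMap K F c₂ * ((d₀ : F) * z)) := by ring
    rw [this]
    exact mul_mem m12 h22

theorem BBN_mem_valuationSubring (S : Subring F) (O : ValuationSubring F) (h : ∀ s ∈ S, s ∈ O)
    {z : F} (hz : IsIntegral S z) : z ∈ O := by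
  let f : S →+* O :=
    { toFun := fun y => ⟨y.1, h y.1 y.2⟩
      map_one' := rfl
      map_mul' := fun _ _ => rfl
      map_zero' := rfl
      map_add' := fun _ _ => rfl }
  have h1 : IsIntegral O z := BBN_isIntegral_of_le S f (fun _ => rfl) hz
  obtain ⟨y, hy⟩ := (IsIntegrallyClosed.isIntegral_iff (R := O) (K := F)).1 h1
  rw [← hy]
  exact y.2

theorem BBN_isInt (S : Subring F) (T : F) (h : ∀ s ∈ S, IsInt K T s)
    {z : F} (hz : IsIntegral S z) : IsInt K T z := by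
  let C : Subalgebra (Algebra.adjoin K {T}) F := integralClosure (Algebra.adjoin K {T}) F
  let f : S →+* C :=
    { toFun := fun y => ⟨y.1, h y.1 y.2⟩
      map_one' := rfl
      map_mul' := fun _ _ => rfl
      map_zero' := rfl
      map_add' := fun _ _ => rfl }
  have h1 : IsIntegral C z := BBN_isIntegral_of_le S f (fun _ => rfl) hz
  exact isIntegral_trans (R := Algebra.adjoin K {T}) (A := C) z h1

end

theorem bbNormal : Stmt_BBNormal := by
  intro K F k κ _ _ _ _ _ _ D₁ D₂ T hA halg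
  have hfrac : IsFractionRing (BB D₁ D₂ T) F := by
    refine IsFractionRing.of_field _ _ fun z => ?_
    obtain ⟨d, hd, hd0, hdz⟩ := BBN_denom D₁ D₂ T hA halg z
    refine ⟨⟨d * z, hdz⟩, ⟨d, hd⟩, ?_⟩
    show z = d * z / d
    field_simp
  refine ⟨hfrac, (isIntegrallyClosed_iff F).2 fun {z} hz => ?_⟩
  exact ⟨⟨z, BBN_isInt (BB D₁ D₂ T) T (fun s hs => (mem_BB.1 hs).1) hz,
    BBN_mem_valuationSubring (BB D₁ D₂ T) D₁.O (fun s hs => (mem_BB.1 hs).2.1) hz,
    BBN_mem_valuationSubring (BB D₁ D₂ T) D₂.O (fun s hs => (mem_BB.1 hs).2.2) hz⟩, rfl⟩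

end Fermat.Agent.MR.Node
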