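import Fermat.Agent.MR.Node.Interface
import Fermat.Agent.BR.Inv.TCAll
import Fermat.Agent.BR.Inst.Defs
import Fermat.Agent.INJ.P17

/-!
# MR / Node / NODE-B3 : the two copies package gives `Compat` and the lifts (`Stmt_Compat`)
-/

set_option autoImplicit false
set_option synthInstance.maxHeartbeats 400000

namespace Fermat.Agent.MR.Node

open Polynomial IntermediateField
open Fermat.Agent.INJ (IsInt RedData Arch Chart)
open Fermat.Agent.BR.Inv (TC IsPairData Normal SData SChart SN IsIntE)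

/-- transport of integrality over `k[t]` by an algebra homomorphism of commutative rings. -/
theorem B3_isIntegral_map {k E E' : Type*} [CommRing k] [CommRing E] [Algebra k E] [CommRing E']
    [Algebra k E'] (W : E →ₐ[k] E') {t x : E} (h : IsIntegral (Algebra.adjoin k {t}) x) :
    IsIntegral (Algebra.adjoin k {W t}) (W x) := by
  have hmem : ∀ y ∈ Algebra.adjoin k {t}, W y ∈ Algebra.adjoin k {W t} := by
    intro y hy
    have : (Algebra.adjoin k {t}).map W = Algebra.adjoin k {W t} := by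
      rw [AlgHom.map_adjoin, Set.image_singleton]
    rw [← this]
    exact ⟨y, hy, rfl⟩
  obtain ⟨p, hp, hpx⟩ := h
  let φ : Algebra.adjoin k {t} →+* Algebra.adjoin k {W t} :=
    { toFun := fun y => ⟨W y.1, hmem y.1 y.2⟩
      map_one' := Subtype.ext (map_one W)
      map_mul' := fun a b => Subtype.ext (map_mul W a.1 b.1)
      map_zero' := Subtype.ext (map_zero W)
      map_add' := fun a b => Subtype.ext (map_add W a.1 b.1) }
  refine ⟨p.map φ, hp.map φ, ?_⟩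
  rw [Polynomial.eval₂_map]
  have h2 : (algebraMap (Algebra.adjoin k {W t}) E').comp φ =
      (W : E →+* E').comp (algebraMap (Algebra.adjoin k {t}) E) := RingHom.ext fun _ => rfl
  rw [h2]
  have h3 := Polynomial.hom_eval₂ p (algebraMap (Algebra.adjoin k {t}) E) (W : E →+* E') x
  rw [hpx, map_zero] at h3
  exact h3.symm

/-- `τ ^ n` is integral over `k[τ]`. -/
theorem B3_isInt_pow {k κ : Type*} [Field k] [Field κ] [Algebra k κ] (τ : κ) (n : ℕ) :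
    IsInt k τ (τ ^ n) := by
  have h : IsIntegral (Algebra.adjoin k {τ}) τ :=
    isIntegral_algebraMap (R := Algebra.adjoin k {τ})
      (x := (⟨τ, Algebra.subset_adjoin rfl⟩ : Algebra.adjoin k {τ}))
  exact h.pow n

/-- transport of finiteness and separability along an isomorphism. -/
theorem B3_transport {k L κ : Type*} [Field k] [Field L] [Algebra k L] [Field κ] [Algebra k κ]
    (e : L ≃ₐ[k] κ) (X : L) (hfin : FiniteDimensional k⟮X⟯ L)
    (hsep : Algebra.IsSeparable k⟮X⟯ L) :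
    FiniteDimensional k⟮e X⟯ κ ∧ Algebra.IsSeparable k⟮e X⟯ κ := by
  have hmap : (k⟮X⟯).map (e : L →ₐ[k] κ) = k⟮e X⟯ := by
    rw [IntermediateField.adjoin_map, Set.image_singleton]
    rfl
  let e₁ : k⟮X⟯ ≃+* k⟮e X⟯ :=
    ((IntermediateField.intermediateFieldMap e k⟮X⟯).trans
      (IntermediateField.equivOfEq hmap)).toRingEquiv
  have he : RingHom.comp (algebraMap k⟮e X⟯ κ) (e₁ : k⟮X⟯ →+* k⟮e X⟯) =
      RingHom.comp (e.toRingEquiv : L →+* κ) (algebraMap k⟮X⟯ L) := RingHom.ext fun _ => rfl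
  exact ⟨Module.Finite.of_equiv_equiv e₁ e.toRingEquiv he,
    Algebra.IsSeparable.of_equiv_equiv e₁ e.toRingEquiv he⟩

/-- **NODE-B3**. -/
theorem compat : Stmt_Compat := by
  intro K F' F k L κ _ _ _ _ _ _ _ _ _ _ D' D₁ D₂ ι₁ ι₂ j Fr φb r hTC hj S hS x hCh hφ hN hSC
    hi₁ hi₂
  have hjinj : Function.Injective j := j.toRingHom.injective
  let e : L ≃ₐ[k] κ := AlgEquiv.ofBijective j ⟨hjinj, hj⟩
  have he : ∀ a : L, e a = j a := fun _ => rfl
  -- the lifts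
  have L1 : ∀ a : L, IsInt k (D'.rd x) a → ∃ ξ ∈ BB D₁ D₂ (ι₁ x * ι₂ x),
      D₁.rd ξ = j a ∧ D₂.rd ξ = j (Fr a) := by
    intro a ha
    obtain ⟨⟨ξ, hξO, hξi, hξr⟩, -⟩ :=
      BR.Inv.stmt_TCLift K F' F k L κ D' D₁ D₂ ι₁ ι₂ j Fr φb r hTC S hS x hN hi₁ hi₂ a ha
    have hm := (hS.mem ξ).1 hξO
    rw [hS.rd ξ hξO] at hξr
    exact ⟨ξ, ⟨hξi, hm.1, hm.2⟩, (Prod.ext_iff.1 hξr).1, (Prod.ext_iff.1 hξr).2⟩
  have L2 : ∀ a : L, IsInt k (D'.rd x) a → ∃ ξ ∈ BB D₁ D₂ (ι₁ x * ι₂ x),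
      D₁.rd ξ = j (Fr a) ∧ D₂.rd ξ = j a := by
    intro a ha
    obtain ⟨-, ⟨ξ, hξO, hξi, hξr⟩⟩ :=
      BR.Inv.stmt_TCLift K F' F k L κ D' D₁ D₂ ι₁ ι₂ j Fr φb r hTC S hS x hN hi₁ hi₂ a ha
    have hm := (hS.mem ξ).1 hξO
    rw [hS.rd ξ hξO] at hξr
    exact ⟨ξ, ⟨hξi, hm.1, hm.2⟩, (Prod.ext_iff.1 hξr).1, (Prod.ext_iff.1 hξr).2⟩
  -- the reduction of `T`
  have hFr : Fr (D'.rd x) = D'.rd x ^ r := by
    have := hTC.frob (D'.rd x)
    rwa [hφ] at this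
  obtain ⟨m11, r11⟩ := hTC.c11 x hCh.t_mem
  obtain ⟨m12, r12⟩ := hTC.c12 x hCh.t_mem
  obtain ⟨m21, r21⟩ := hTC.c21 x hCh.t_mem
  obtain ⟨m22, r22⟩ := hTC.c22 x hCh.t_mem
  have hT1 : D₁.rd (ι₁ x * ι₂ x) = j (D'.rd x) ^ (r + 1) := by
    rw [RedData.rd_mul m11 m12, r11, r12, hFr, map_pow]
    ring
  have hT2 : D₂.rd (ι₁ x * ι₂ x) = j (D'.rd x) ^ (r + 1) := by
    rw [RedData.rd_mul m21 m22, r21, r22, hFr, map_pow]
    ring
  have hST : S.rd (ι₁ x * ι₂ x) = (j (D'.rd x) ^ (r + 1), j (D'.rd x) ^ (r + 1)) := by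
    rw [hS.rd _ hSC.t_mem, hT1, hT2]
  -- integrality of the reductions
  have hint : ∀ z ∈ BB D₁ D₂ (ι₁ x * ι₂ x),
      IsInt k (j (D'.rd x)) (D₁.rd z) ∧ IsInt k (j (D'.rd x)) (D₂.rd z) := by
    intro z hz
    have hzO : z ∈ S.O := (hS.mem z).2 ⟨hz.2.1, hz.2.2⟩
    have h := BR.Inv.GAll_SIntRed K F k (κ × κ) S (ι₁ x * ι₂ x) hSC z hzO hz.1
    unfold IsIntE at h
    rw [hST, hS.rd z hzO] at h
    have h1 := B3_isIntegral_map (AlgHom.fst k κ κ) h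
    have h2 := B3_isIntegral_map (AlgHom.snd k κ κ) h
    exact ⟨BR.Inst.isInt_trans (B3_isInt_pow _ _) h1, BR.Inst.isInt_trans (B3_isInt_pow _ _) h2⟩
  -- descent of integrality along `j`
  have hdesc : ∀ f : κ, IsInt k (j (D'.rd x)) f → ∃ a : L, IsInt k (D'.rd x) a ∧ j a = f := by
    intro f hf
    obtain ⟨a, rfl⟩ := hj f
    refine ⟨a, ?_, rfl⟩
    have h := B3_isIntegral_map (e.symm : κ →ₐ[k] L) hf
    have e1 : (e.symm : κ →ₐ[k] L) (j (D'.rd x)) = D'.rd x := e.symm_apply_apply _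
    have e2 : (e.symm : κ →ₐ[k] L) (j a) = a := e.symm_apply_apply _
    rw [e1, e2] at h
    exact h
  have hfinL : FiniteDimensional k⟮D'.rd x⟯ L :=
    INJ.stmt_ResFinite K F' k L D' x hCh.t_mem hCh.trans hCh.fin
  obtain ⟨hfin, hsep⟩ := B3_transport e (D'.rd x) hfinL hCh.sep
  refine ⟨⟨?_, ?_, ?_, hfin, hsep, fun z hz => (hint z hz).1, fun z hz => (hint z hz).2, ?_, ?_⟩,
    L1, L2⟩
  · rw [hTC.A₁, hTC.A₂]
  · intro a
    rw [hTC.ra₁, hTC.ra₂]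
  · exact fun h => hCh.trans ((isAlgebraic_algHom_iff j hjinj).1 h)
  · intro f hf
    obtain ⟨a, ha, rfl⟩ := hdesc f hf
    obtain ⟨ξ, hξ, h1, -⟩ := L1 a ha
    exact ⟨ξ, hξ, h1⟩
  · intro f hf
    obtain ⟨a, ha, rfl⟩ := hdesc f hf
    obtain ⟨ξ, hξ, -, h2⟩ := L2 a ha
    exact ⟨ξ, hξ, h2⟩

end Fermat.Agent.MR.Node
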