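import Fermat.Agent.MR.Node.Interface
import Fermat.Agent.S36.Reg.Dich
import Fermat.Agent.S36.Reg.UU

/-!
# MR / Node : NODE-F3, cusps are smooth points (`Stmt_CuspSmooth`)
-/

set_option autoImplicit false

namespace Fermat.Agent.MR.Node

open Fermat.Agent.INJ (IsInt RedData)
open Fermat.Agent.S36 (PosAt UnitAt IntAt)

section

variable {K F k κ : Type} [Field K] [Field F] [Algebra K F] [Field k] [Field κ] [Algebra k κ]

/-- the prime ideal `{z ∈ BB : rd₁ z vanishes at x₁}`. -/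
def F3_n (D₁ D₂ : RedData K F k κ) (T : F) (x₁ : ValuationSubring κ)
    (h : ∀ z ∈ BB D₁ D₂ T, D₁.rd z ∈ x₁) : Ideal (BB D₁ D₂ T) where
  carrier := {z | x₁.valuation (D₁.rd (z : F)) < 1}
  add_mem' := by
    intro a b ha hb
    show x₁.valuation (D₁.rd ((a + b : BB D₁ D₂ T) : F)) < 1
    rw [Subring.coe_add, RedData.rd_add a.2.2.1 b.2.2.1]
    exact Valuation.map_add_lt _ ha hb
  zero_mem' := by
    show x₁.valuation (D₁.rd ((0 : BB D₁ D₂ T) : F)) < 1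
    rw [Subring.coe_zero, RedData.rd_zero, map_zero]
    exact zero_lt_one
  smul_mem' := by
    intro c a ha
    show x₁.valuation (D₁.rd ((c * a : BB D₁ D₂ T) : F)) < 1
    rw [Subring.coe_mul, RedData.rd_mul c.2.2.1 a.2.2.1, map_mul]
    exact lt_of_le_of_lt (mul_le_of_le_one_left' ((x₁.valuation_le_one_iff _).2 (h c c.2))) ha

theorem F3_mem_n {D₁ D₂ : RedData K F k κ} {T : F} {x₁ : ValuationSubring κ}
    {h : ∀ z ∈ BB D₁ D₂ T, D₁.rd z ∈ x₁} {z : BB D₁ D₂ T} :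
    z ∈ F3_n D₁ D₂ T x₁ h ↔ x₁.valuation (D₁.rd (z : F)) < 1 := Iff.rfl

theorem F3_n_prime (D₁ D₂ : RedData K F k κ) (T : F) (x₁ : ValuationSubring κ)
    (h : ∀ z ∈ BB D₁ D₂ T, D₁.rd z ∈ x₁) : (F3_n D₁ D₂ T x₁ h).IsPrime := by
  refine ⟨?_, ?_⟩
  · rw [Ideal.ne_top_iff_one, F3_mem_n, Subring.coe_one, RedData.rd_one, map_one]
    exact lt_irrefl _
  · intro a b hab
    rw [F3_mem_n, Subring.coe_mul, RedData.rd_mul a.2.2.1 b.2.2.1, map_mul] at hab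
    by_contra hcon
    push Not at hcon
    obtain ⟨ha, hb⟩ := hcon
    rw [F3_mem_n, not_lt] at ha hb
    have ha' := le_antisymm ((x₁.valuation_le_one_iff _).2 (h a a.2)) ha
    have hb' := le_antisymm ((x₁.valuation_le_one_iff _).2 (h b b.2)) hb
    rw [ha', hb', one_mul] at hab
    exact lt_irrefl _ hab

/-- a quotient of two elements with unit reductions has a unit reduction. -/
theorem F3_unit (D : RedData K F k κ) (x : ValuationSubring κ) {s p u : F} (hs : s ∈ D.O)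
    (hp : p ∈ D.O) (hs1 : x.valuation (D.rd s) = 1) (hp1 : x.valuation (D.rd p) = 1)
    (h : s * u = p) : u ∈ D.O ∧ x.valuation (D.rd u) = 1 := by
  have hs0 : D.rd s ≠ 0 := by
    intro h0
    rw [h0, map_zero] at hs1
    exact zero_ne_one hs1
  have hsinv : s⁻¹ ∈ D.O := RedData.inv_mem_of_rd_ne_zero hs0
  have hs0' : s ≠ 0 := by
    rintro rfl
    exact hs0 RedData.rd_zero
  have hu : u = p * s⁻¹ := by
    rw [← h]
    field_simp
  have huO : u ∈ D.O := hu ▸ mul_mem hp hsinv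
  refine ⟨huO, ?_⟩
  have h1 := congrArg D.rd h
  rw [RedData.rd_mul hs huO] at h1
  have h2 := congrArg x.valuation h1
  rw [map_mul, hs1, hp1, one_mul] at h2
  exact h2

/-- the contradiction on one branch. -/
theorem F3_absurd (D : RedData K F k κ) (x : ValuationSubring κ) {r : ℕ} (hr : 2 ≤ r) {ζ : κ}
    (hζ0 : ζ ≠ 0) (hζ : x.valuation ζ < 1) {Y Y' u : F} (hY : D.rd Y = ζ) (hY' : D.rd Y' = ζ ^ r)
    (hu : u ∈ D.O) (hu1 : x.valuation (D.rd u) = 1) (h : Y = Y' ^ r * u) : False := by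
  have hY'O : Y' ∈ D.O := by
    by_contra h'
    rw [RedData.rd_of_not_mem h'] at hY'
    exact pow_ne_zero r hζ0 hY'.symm
  have h1 := congrArg D.rd h
  rw [RedData.rd_mul (pow_mem hY'O r) hu, RedData.rd_pow hY'O, hY, hY'] at h1
  have h2 := congrArg x.valuation h1
  rw [map_mul, hu1, mul_one, map_pow, map_pow, ← pow_mul] at h2
  have h3 : x.valuation ζ ^ (r * r) < x.valuation ζ :=
    pow_lt_self_of_lt_one₀ ((Valuation.pos_iff _).2 hζ0) hζ (by nlinarith)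
  exact absurd h2 (ne_of_gt h3)

end

/-- **NODE-F3.** -/
theorem cuspSmooth (hD : Stmt_Dich) (hB : Stmt_BBNormal) (hR : Stmt_RingR) (hR2 : Stmt_RingR2) :
    Stmt_CuspSmooth := by
  intro K F k κ _ _ _ _ _ _ _ D₁ D₂ T τ hC hAlg r c Z W ζ hr hc hζ0 hphi h1Z h1W h2Z h2W x₁ hpt hτ
    hζ _ hWR
  rcases hD K F k κ D₁ D₂ T τ hC x₁ hpt hτ with ⟨x₂, hnode⟩ | hsm
  swap
  · exact hsm
  exfalso
  obtain ⟨-, hRs, hBR⟩ := hR K F k κ D₁ D₂ T τ hC x₁ hpt hτ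
  have hR2' := hR2 K F k κ D₁ D₂ T τ hC x₁ x₂ hnode
  have hx₁ : ∀ z ∈ BB D₁ D₂ T, D₁.rd z ∈ x₁ := fun z hz => (hRs z (hBR z hz)).1
  have hx₂ : ∀ z ∈ BB D₁ D₂ T, D₂.rd z ∈ x₂ := fun z hz => (hR2' z (hBR z hz)).2.1
  obtain ⟨hfr, hic⟩ := hB K F k κ D₁ D₂ T hC.A_eq hAlg
  have hprime := F3_n_prime D₁ D₂ T x₁ hx₁
  have hout₁ : ∀ s : BB D₁ D₂ T, s ∉ F3_n D₁ D₂ T x₁ hx₁ → x₁.valuation (D₁.rd (s : F)) = 1 :=
    fun s hs => le_antisymm ((x₁.valuation_le_one_iff _).2 (hx₁ s s.2)) (not_lt.1 hs)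
  have hout₂ : ∀ s : BB D₁ D₂ T, s ∉ F3_n D₁ D₂ T x₁ hx₁ → x₂.valuation (D₂.rd (s : F)) = 1 :=
    fun s hs => le_antisymm ((x₂.valuation_le_one_iff _).2 (hx₂ s s.2))
      (not_lt.1 fun h => hs ((hnode.same s s.2).2 h))
  have hW0 : W ≠ 0 := by
    rintro rfl
    rw [RedData.rd_zero] at h2W
    exact hζ0 h2W.symm
  have hWO₁ : W ∈ D₁.O := by
    by_contra h'
    rw [RedData.rd_of_not_mem h'] at h1W
    exact pow_ne_zero r hζ0 h1W.symm
  have hWO₂ : W ∈ D₂.O := by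
    by_contra h'
    rw [RedData.rd_of_not_mem h'] at h2W
    exact hζ0 h2W.symm
  obtain ⟨u', hu', v, hv, hv1, hWv⟩ := hWR
  have hu'n : x₁.valuation (D₁.rd u') < 1 := by
    rw [← hWv, RedData.rd_mul hWO₁ hv.2.1, map_mul, hv1, mul_one, h1W, map_pow]
    exact pow_lt_one₀ zero_le hζ (by omega)
  have hvn : (⟨v, hv⟩ : BB D₁ D₂ T) ∉ F3_n D₁ D₂ T x₁ hx₁ := fun h => (ne_of_lt h) hv1
  have hPos : PosAt (F3_n D₁ D₂ T x₁ hx₁) W :=
    ⟨⟨v, hv⟩, hvn, ⟨u', hu'⟩, hu'n, by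
      show v * W = u'
      rw [mul_comm]
      exact hWv⟩
  have hζ₂ : x₂.valuation ζ < 1 := by
    have h1 : x₂.valuation (D₂.rd u') < 1 := (hnode.same u' hu').1 hu'n
    rw [← hWv, RedData.rd_mul hWO₂ hv.2.2, map_mul, h2W, hout₂ ⟨v, hv⟩ hvn, mul_one] at h1
    exact h1
  have hshape : S36.Reg.PhiShape r (fun a b => ((c a b : ℤ) : BB D₁ D₂ T)) :=
    ⟨fun b hb => by rw [hc.left b hb, Int.cast_zero], by rw [hc.left_top, Int.cast_one],
      fun a ha => by rw [hc.right a ha, Int.cast_zero], by rw [hc.right_top, Int.cast_one],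
      by rw [hc.one_one, Int.cast_neg, Int.cast_one]⟩
  have hphi' : S36.Reg.phiStar r (fun a b => ((c a b : ℤ) : BB D₁ D₂ T)) Z W = 0 := by
    rw [S36.Reg.phiStar, ← hphi]
    simp only [map_intCast]
  obtain ⟨-, -, hcase⟩ := S36.Reg.dich S36.Reg.uu (BB D₁ D₂ T) F (F3_n D₁ D₂ T x₁ hx₁) r _ Z W
    hprime hr hshape hW0 hPos hphi'
  rcases hcase with ⟨u, ⟨s, hs, p, hp, hsu⟩, hZ⟩ | ⟨u, ⟨s, hs, p, hp, hsu⟩, hW⟩
  · obtain ⟨huO, hu1⟩ := F3_unit D₁ x₁ s.2.2.1 p.2.2.1 (hout₁ s hs) (hout₁ p hp) hsu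
    exact F3_absurd D₁ x₁ hr hζ0 hζ h1Z h1W huO hu1 hZ
  · obtain ⟨huO, hu1⟩ := F3_unit D₂ x₂ s.2.2.2 p.2.2.2 (hout₂ s hs) (hout₂ p hp) hsu
    exact F3_absurd D₂ x₂ hr hζ0 hζ₂ h2W h2Z huO hu1 hW

end Fermat.Agent.MR.Node
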