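import Fermat.Agent.MR.Node.Interface

/-!
# MR / Node : NODE-C1, the dichotomy node / smooth (helper10)
-/

set_option autoImplicit false

namespace Fermat.Agent.MR.Node

open Polynomial IntermediateField
open Fermat.Agent.INJ (IsInt RedData)

section Aux

variable {k κ : Type*} [Field k] [Field κ] [Algebra k κ]

/-- elements integral over `k[τ]` are regular at every point where `τ` is. -/
theorem Dich_mem_of_isInt {τ : κ} {x : ValuationSubring κ} (hx : IsPt k x) (hτ : τ ∈ x) {f : κ}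
    (hf : IsInt k τ f) : f ∈ x := by
  have hle : ∀ b : Algebra.adjoin k {τ}, (b : κ) ∈ x := by
    rintro ⟨b, hb⟩
    show b ∈ x
    induction hb using Algebra.adjoin_induction with
    | mem z hz =>
      rw [Set.mem_singleton_iff] at hz
      rw [hz]; exact hτ
    | algebraMap a => exact hx.const a
    | add u w _ _ hu hw => exact add_mem hu hw
    | mul u w _ _ hu hw => exact mul_mem hu hw
  let g : Algebra.adjoin k {τ} →+* x :=
    (algebraMap (Algebra.adjoin k {τ}) κ).codRestrict x.toSubring hle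
  have hg : (algebraMap x κ).comp g = algebraMap (Algebra.adjoin k {τ}) κ := rfl
  obtain ⟨p, hp, he⟩ := hf
  have h1 : IsIntegral x f := ⟨p.map g, hp.map g, by rw [Polynomial.eval₂_map, hg]; exact he⟩
  obtain ⟨y, hy⟩ := IsIntegrallyClosed.isIntegral_iff.mp h1
  rw [← hy]
  exact y.2

theorem Dich_isInt_const (τ : κ) (c : k) : IsInt k τ (algebraMap k κ c) := by
  have : algebraMap k κ c = algebraMap (Algebra.adjoin k {τ}) κ (algebraMap k _ c) := rfl
  unfold IsInt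
  rw [this]
  exact isIntegral_algebraMap

theorem Dich_isInt_self (τ : κ) : IsInt k τ τ := by
  have : τ = algebraMap (Algebra.adjoin k {τ}) κ ⟨τ, Algebra.self_mem_adjoin_singleton k τ⟩ := rfl
  unfold IsInt
  rw [this]
  exact isIntegral_algebraMap

theorem Dich_val_const {x : ValuationSubring κ} (hx : IsPt k x) {c : k} (hc : c ≠ 0) :
    x.valuation (algebraMap k κ c) = 1 := by
  have h1 : x.valuation (algebraMap k κ c) ≤ 1 := (x.valuation_le_one_iff _).2 (hx.const c)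
  have h2 : x.valuation (algebraMap k κ c⁻¹) ≤ 1 := (x.valuation_le_one_iff _).2 (hx.const c⁻¹)
  have h3 : x.valuation (algebraMap k κ c) * x.valuation (algebraMap k κ c⁻¹) = 1 := by
    rw [← map_mul, ← map_mul, mul_inv_cancel₀ hc, map_one, map_one]
  refine le_antisymm h1 ?_
  calc (1 : _) = x.valuation (algebraMap k κ c) * x.valuation (algebraMap k κ c⁻¹) := h3.symm
    _ ≤ x.valuation (algebraMap k κ c) * 1 := by gcongr
    _ = _ := mul_one _

end Aux

section Main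

variable {K F k κ : Type*} [Field K] [Field F] [Algebra K F] [Field k] [Field κ] [Algebra k κ]

theorem Dich_const_mem {D₁ D₂ : RedData K F k κ} {T : F} (hA : D₁.A = D₂.A) {a : K}
    (ha : a ∈ D₁.A) : algebraMap K F a ∈ BB D₁ D₂ T :=
  ⟨Dich_isInt_const T a, RedData.algebraMap_mem ha, RedData.algebraMap_mem (hA ▸ ha)⟩

/-- subtracting a lift of the value at `x₁`. -/
theorem Dich_shift {D₁ D₂ : RedData K F k κ} {T : F} {τ : κ} (hC : Compat D₁ D₂ T τ) {z : F}
    (hz : z ∈ BB D₁ D₂ T) (c : k) : ∃ z' ∈ BB D₁ D₂ T,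
      D₁.rd z' = D₁.rd z - algebraMap k κ c ∧ D₂.rd z' = D₂.rd z - algebraMap k κ c := by
  obtain ⟨a, ha, hac⟩ := D₁.exists_ra_eq c
  have ha2 : a ∈ D₂.A := hC.A_eq ▸ ha
  have hmem := Dich_const_mem (T := T) hC.A_eq ha
  refine ⟨z - algebraMap K F a, sub_mem hz hmem, ?_, ?_⟩
  · rw [RedData.rd_sub hz.2.1 hmem.2.1, RedData.rd_algebraMap ha, hac]
  · rw [RedData.rd_sub hz.2.2 hmem.2.2, RedData.rd_algebraMap ha2, ← hC.ra_eq, hac]

end Main

theorem dich (h1 : Stmt_PtRes) : Stmt_Dich := by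
  intro K F k κ _ _ _ _ _ _ _ D₁ D₂ T τ hC x₁ hx₁ hτ₁
  by_cases hs : ∃ e ∈ BB D₁ D₂ T, D₂.rd e = 0 ∧ x₁.valuation (D₁.rd e) = 1
  · exact Or.inr ⟨hx₁, hτ₁, hs⟩
  left
  have hres := h1 k κ τ hC.trans hC.fin x₁ hx₁
  have hreg₁ : ∀ z ∈ BB D₁ D₂ T, D₁.rd z ∈ x₁ := fun z hz =>
    Dich_mem_of_isInt hx₁ hτ₁ (hC.int₁ z hz)
  -- the ring `Bt`
  let Bt : Subring κ := (integralClosure (Algebra.adjoin k {τ}) κ).toSubring
  have hBt : ∀ f : κ, f ∈ Bt ↔ IsInt k τ f := fun f => Iff.rfl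
  -- the ideal `I`
  let I : Ideal Bt :=
    { carrier := {f | ∃ z ∈ BB D₁ D₂ T, x₁.valuation (D₁.rd z) < 1 ∧ D₂.rd z = f.1}
      add_mem' := by
        rintro f g ⟨z, hz, hz1, hz2⟩ ⟨w, hw, hw1, hw2⟩
        refine ⟨z + w, add_mem hz hw, ?_, ?_⟩
        · rw [RedData.rd_add hz.2.1 hw.2.1]
          exact Valuation.map_add_lt _ hz1 hw1
        · rw [RedData.rd_add hz.2.2 hw.2.2, hz2, hw2]; rfl
      zero_mem' := ⟨0, zero_mem _, by rw [RedData.rd_zero, map_zero]; exact zero_lt_one,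
        by rw [RedData.rd_zero]; rfl⟩
      smul_mem' := by
        rintro c f ⟨z, hz, hz1, hz2⟩
        obtain ⟨ξ, hξ, hξc⟩ := hC.surj₂ c.1 c.2
        refine ⟨ξ * z, mul_mem hξ hz, ?_, ?_⟩
        · rw [RedData.rd_mul hξ.2.1 hz.2.1, map_mul]
          exact lt_of_le_of_lt
            (mul_le_of_le_one_left' ((x₁.valuation_le_one_iff _).2 (hreg₁ ξ hξ))) hz1
        · rw [RedData.rd_mul hξ.2.2 hz.2.2, hξc, hz2]; rfl }
  have hI : I ≠ ⊤ := by
    intro htop
    have h1I : (1 : Bt) ∈ I := by rw [htop]; trivial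
    obtain ⟨z, hz, hz1, hz2⟩ := h1I
    apply hs
    refine ⟨1 - z, sub_mem (one_mem _) hz, ?_, ?_⟩
    · rw [RedData.rd_sub (one_mem _) hz.2.2, RedData.rd_one, hz2]
      exact sub_self _
    · rw [RedData.rd_sub (one_mem _) hz.2.1, RedData.rd_one]
      exact Valuation.map_one_sub_of_lt _ hz1
  obtain ⟨x₂, hle, hnon⟩ := Ideal.image_subset_nonunits_valuationSubring I hI
  have hfwd : ∀ z ∈ BB D₁ D₂ T, x₁.valuation (D₁.rd z) < 1 → x₂.valuation (D₂.rd z) < 1 := by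
    intro z hz hz1
    exact hnon ⟨⟨D₂.rd z, hC.int₂ z hz⟩, ⟨z, hz, hz1, rfl⟩, rfl⟩
  have hconst₂ : ∀ c : k, algebraMap k κ c ∈ x₂ := fun c => hle (Dich_isInt_const τ c)
  have hτ₂ : τ ∈ x₂ := hle (Dich_isInt_self τ)
  have hne : x₂ ≠ ⊤ := by
    intro htop
    obtain ⟨ξ, hξ, hξτ⟩ := hC.surj₂ τ (Dich_isInt_self τ)
    obtain ⟨c, hc⟩ := hres _ (hreg₁ ξ hξ)
    obtain ⟨z', hz', e1, e2⟩ := Dich_shift hC hξ c
    have h2 := hfwd z' hz' (by rw [e1]; exact hc)
    rw [e2, hξτ] at h2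
    have hne0 : τ - algebraMap k κ c ≠ 0 := by
      intro h0
      apply hC.trans
      rw [sub_eq_zero.mp h0]
      exact isAlgebraic_algebraMap c
    rcases (x₂.mem_nonunits_iff_or).mp h2 with h3 | h3
    · exact hne0 h3
    · exact h3 (by rw [htop]; exact ValuationSubring.mem_top _)
  have hx₂ : IsPt k x₂ := ⟨hconst₂, hne⟩
  refine ⟨x₂, hx₁, hx₂, hτ₁, hτ₂, fun z hz => ⟨hfwd z hz, fun hz2 => ?_⟩⟩
  by_contra hz1
  obtain ⟨c, hc⟩ := hres _ (hreg₁ z hz)
  have hc0 : c ≠ 0 := by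
    rintro rfl
    rw [map_zero, sub_zero] at hc
    exact hz1 hc
  obtain ⟨z', hz', e1, e2⟩ := Dich_shift hC hz c
  have h2 := hfwd z' hz' (by rw [e1]; exact hc)
  rw [e2] at h2
  have h3 : x₂.valuation (algebraMap k κ c) < 1 := by
    have : algebraMap k κ c = D₂.rd z - (D₂.rd z - algebraMap k κ c) := by ring
    rw [this]
    exact Valuation.map_sub_lt _ hz2 h2
  rw [Dich_val_const hx₂ hc0] at h3
  exact lt_irrefl _ h3

end Fermat.Agent.MR.Node
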