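import Fermat.Agent.MR.Node.Interface
import Fermat.Agent.BR.Inst.Interface2
import Fermat.Agent.S36.Gre.Interface

/-!
# MR / Node / Frob : the Frobenius congruence `g(q)^p ≡ g^σ(q^p) mod p` (deputy architect helper36)

CONCRETE PART (G4) of MR / Node.  `K = ℚ̄ ⊇ A | p`, `I` = inertia group of `A`, `σ` a Frobenius at `A`.
* a series `f ∈ A((q))` is `FixI` if its coefficients are fixed by `I` (they lie in `A_E = A ∩ ℚ̄^I`, a DVR
  with uniformiser `p`: `S36.Base.Stmt_Unram`);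
* (F1) `𝔪_A ∩ ℚ̄^I = p A_E`, `σ (ℚ̄^I) = ℚ̄^I`;  (F2) `f ^ p = (σ f)(q^p) + p h` in `A((q))` for `FixI f`;
* (F3) an element of `F_E` which is Gauss integral is a ratio `f / g` of `FixI` series, `g` primitive;
* (F4) hence `(X ^ p - (σ X)(q^p)) / p` is Gauss integral for such a ratio `X`;
* (F5) OUTPUT `Stmt_FrobEx` : the hypothesis `FrobCong` of `Stmt_UnifA`, and its mirror image under `w_p`;
* (F6) OUTPUT `Stmt_UnifB` (abstract): the mirror image of `Stmt_UnifA`.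
-/

set_option autoImplicit false
set_option synthInstance.maxHeartbeats 400000

noncomputable section

namespace Fermat.Agent.MR.Node

open ModularCurve
open Fermat.Agent
open Fermat.Agent.INJ (IsInt RedData)
open Fermat.Agent.INJ.Inst (Qb FL kA)
open Fermat.Agent.INJ.Inst.Gauss (inc rho)
open Fermat.Agent.BR.Inv (TC Normal)
open Fermat.Agent.BR.Inst (IsGaussS IsAL IsTCMaps twist Ctx)
open Fermat.Agent.ES.Mid (GQ gal)
open Fermat.Agent.S36.Base (FE emb)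
open Fermat.Agent.S36.Val (OA phiA resA)

/-- the coefficients of `f ∈ A((q))` are fixed by the inertia group. -/
def FixI (A : ValuationSubring Qb) (f : LaurentSeries A) : Prop :=
  ∀ τ ∈ A.inertiaSubgroupIn ℚ, ∀ n : ℤ, τ ((f.coeff n : A) : Qb) = ((f.coeff n : A) : Qb)

/-- **NODE-F1**.  `𝔪_A ∩ ℚ̄^I = p (A ∩ ℚ̄^I)`, and `σ` preserves `ℚ̄^I`. -/
def Stmt_FrobCoef : Prop :=
  ∀ (p : ℕ) (A : ValuationSubring Qb), p.Prime → A.LiesOverPrime p →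
    (∀ c ∈ A.nonunits, (∀ τ ∈ A.inertiaSubgroupIn ℚ, τ c = c) → c / (p : Qb) ∈ A) ∧
    (∀ σ : GQ, A.IsFrobeniusAt σ p → ∀ a : Qb, (∀ τ ∈ A.inertiaSubgroupIn ℚ, τ a = a) →
      ∀ τ ∈ A.inertiaSubgroupIn ℚ, τ (σ a) = σ a)

/-- **NODE-F2**.  `f ^ p = (σ f)(q^p) + p h`. -/
def Stmt_FrobSer : Prop :=
  ∀ (p : ℕ) (A : ValuationSubring Qb), p.Prime → A.LiesOverPrime p →
    ∀ σ : GQ, A.IsFrobeniusAt σ p → ∀ f : LaurentSeries A, FixI A f →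
      ∃ f' h : LaurentSeries A, inc A f' = coeffMap (σ : Qb →+* Qb) (inc A f) ∧
        f ^ p = S28.Vq A p f' + (p : LaurentSeries A) * h

/-- **NODE-F3**.  Gauss integral elements of `F_E` are ratios of `FixI` series. -/
def Stmt_RatioE : Prop :=
  ∀ (p : ℕ) (A : ValuationSubring Qb), p.Prime → A.LiesOverPrime p → ∀ (N : ℕ) [NeZero N]
    (z : FE A N), z ∈ OA A N → ∃ f g : LaurentSeries A, FixI A f ∧ FixI A g ∧
      rho (resA A) g ≠ 0 ∧ phiA A N z * inc A g = inc A f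

/-- **NODE-F4**.  The congruence for ratios. -/
def Stmt_FrobRatio : Prop :=
  ∀ (p : ℕ) (A : ValuationSubring Qb), p.Prime → A.LiesOverPrime p →
    ∀ σ : GQ, A.IsFrobeniusAt σ p → ∀ (X : LaurentSeries Qb) (f g : LaurentSeries A), FixI A f →
      FixI A g → rho (resA A) g ≠ 0 → X * inc A g = inc A f →
      ∃ f₁ g₁ : LaurentSeries A, rho (resA A) g₁ ≠ 0 ∧
        (X ^ p - S28.Vq Qb p (coeffMap (σ : Qb →+* Qb) X)) * inc A g₁ =
          algebraMap Qb (LaurentSeries Qb) (p : Qb) * inc A f₁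

set_option maxHeartbeats 2000000 in
/-- **NODE-F5** (OUTPUT).  The hypothesis `FrobCong` of `Stmt_UnifA`, and its mirror image. -/
def Stmt_FrobEx : Prop :=
  ∀ (a M p : ℕ) [NeZero M] [NeZero (M * p)] (A : ValuationSubring Qb), Ctx a M p A →
    ∀ (L' : IntermediateField (kA A) (LaurentSeries (kA A))) (D' : RedData Qb (FL M) (kA A) L'),
      IsGaussS M A L' D' →
    ∀ (L₁ : IntermediateField (kA A) (LaurentSeries (kA A)))
      (D₁ : RedData Qb (FL (M * p)) (kA A) L₁), IsGaussS (M * p) A L₁ D₁ →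
    ∀ W : FL (M * p) ≃ₐ[Qb] FL (M * p), IsAL M p W →
    ∀ (ι₁ ι₂ : FL M →ₐ[Qb] FL (M * p)) (j : L' →ₐ[kA A] L₁) (Fr : L' →+* L') (φb : L' ≃+* L')
      (τ : kA A →+* kA A), IsTCMaps M p A L' L₁ ι₁ ι₂ j Fr φb τ →
    ∀ x : FL M, (∀ σ : GQ, gal M σ x = x) → Normal D' x →
    ∀ f : L', IsInt (kA A) (D'.rd x) f → ∃ g g' : FL M,
      FrobCong D' D₁ ι₁ ι₂ φb p x g g' ∧ FrobCong D' (twist D₁ W) ι₂ ι₁ φb p x g g' ∧ D'.rd g = f

/-- **NODE-F6** (OUTPUT, abstract).  The mirror image of `Stmt_UnifA`: `rd₁ b` is a uniformiser at `x₁`,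
for every node. -/
def Stmt_UnifB : Prop :=
  ∀ (K F' F k L κ : Type) [Field K] [CharZero K] [Field F'] [Algebra K F'] [Field F] [Algebra K F]
    [Field k] [IsAlgClosed k] [Field L] [Algebra k L] [Field κ] [Algebra k κ]
    (D' : RedData K F' k L) (D₁ D₂ : RedData K F k κ) (ι₁ ι₂ : F' →ₐ[K] F) (j : L →ₐ[k] κ)
    (Fr : L →+* L) (φb : L ≃+* L) (r : ℕ), TC D' D₁ D₂ ι₁ ι₂ j Fr φb r → Function.Surjective j →
    ∀ x : F', φb (D'.rd x) = D'.rd x → Compat D₁ D₂ (ι₁ x * ι₂ x) (j (D'.rd x)) →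
      IsInt K (ι₁ x * ι₂ x) (ι₁ x) → IsInt K (ι₁ x * ι₂ x) (ι₂ x) →
    (∀ a : L, IsInt k (D'.rd x) a → ∃ ξ ∈ BB D₁ D₂ (ι₁ x * ι₂ x),
        D₁.rd ξ = j a ∧ D₂.rd ξ = j (Fr a)) →
    (∀ a : L, IsInt k (D'.rd x) a → ∃ ξ ∈ BB D₁ D₂ (ι₁ x * ι₂ x),
        D₁.rd ξ = j (Fr a) ∧ D₂.rd ξ = j a) →
    (∀ f : L, IsInt k (D'.rd x) f → ∃ g g' : F', FrobCong D' D₂ ι₂ ι₁ φb r x g g' ∧ D'.rd g = f) →
    ∀ a ∈ BB D₁ D₂ (ι₁ x * ι₂ x), ∀ b ∈ BB D₁ D₂ (ι₁ x * ι₂ x),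
      a * b = algebraMap K F (r : K) → D₂.rd b = 0 → D₁.rd b ≠ 0 →
    ∀ x₁ x₂ : ValuationSubring κ, IsNode D₁ D₂ (ι₁ x * ι₂ x) (j (D'.rd x)) x₁ x₂ →
      IsUnifAt x₁ (D₁.rd b)

end Fermat.Agent.MR.Node

end
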