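import Fermat.Agent.MR.Node.Interface
import Fermat.Agent.BR.Inv.TC5

/-!
# MR / Node : **NODE-F1**, at a node `Fr² c - c` is a uniformiser at `x₂` if `c` is (`Stmt_FrobPt`)
-/

set_option autoImplicit false

namespace Fermat.Agent.MR.Node

open Polynomial IntermediateField AlgebraicCurve
open Fermat.Agent.INJ (IsInt RedData Arch Chart)
open Fermat.Agent.BR.Inv (TC TC5_isInt_Fr TC5_Fr_Fr_phi_phi)

/-- an element with the valuation of a uniformiser is a uniformiser. -/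
theorem FrobPt_unif_of_val_eq {κ : Type*} [Field κ] {x : ValuationSubring κ} {π π' : κ}
    (h : IsUnifAt x π) (hv : x.valuation π' = x.valuation π) : IsUnifAt x π' := by
  obtain ⟨h0, h1, h2⟩ := h
  have hv0 : x.valuation π ≠ 0 := (Valuation.ne_zero_iff _).2 h0
  refine ⟨?_, hv ▸ h1, fun f hf => ?_⟩
  · intro h
    rw [h, map_zero] at hv
    exact hv0 hv.symm
  · rw [← ValuationSubring.valuation_le_one_iff, map_div₀, hv, ← map_div₀,
      ValuationSubring.valuation_le_one_iff]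
    exact h2 f hf

theorem frobPt : Stmt_FrobPt := by
  intro K F' F k L κ _ _ _ _ _ _ _ _ _ _ D' D₁ D₂ ι₁ ι₂ j Fr φb r hTC x hx H1 H2 x₁ x₂ hN c hc hU
  obtain ⟨hc0, hc1, hc2⟩ := hU
  have hpos : 0 < x₂.valuation (j c) := zero_lt_iff.2 ((Valuation.ne_zero_iff _).2 hc0)
  have hFc : IsInt k (D'.rd x) (Fr c) := TC5_isInt_Fr hTC.frob hx hTC.φk' hc
  obtain ⟨ξ, hξ, hξ1, hξ2⟩ := H2 c hc
  have h1 : x₁.valuation (j (Fr c)) < 1 := by
    rw [← hξ1]
    exact (hN.same ξ hξ).2 (by rw [hξ2]; exact hc1)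
  obtain ⟨ξ', hξ', hξ'1, hξ'2⟩ := H1 (Fr c) hFc
  have h2 : x₂.valuation (j (Fr (Fr c))) < 1 := by
    rw [← hξ'2]
    exact (hN.same ξ' hξ').1 (by rw [hξ'1]; exact h1)
  set w : L := φb.symm (φb.symm c) with hwdef
  have hw : Fr (Fr c) = w ^ r ^ 2 := by
    have h := TC5_Fr_Fr_phi_phi hTC.frob w
    rwa [hwdef, RingEquiv.apply_symm_apply, RingEquiv.apply_symm_apply, ← hwdef] at h
  have hr2 : 1 < r ^ 2 := by
    have := hTC.two_le
    nlinarith
  have h3 : x₂.valuation (j w) < 1 := by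
    by_contra hcon
    push Not at hcon
    rw [hw, map_pow, map_pow] at h2
    exact absurd h2 (not_lt.2 (one_le_pow₀ hcon))
  have h4 : x₂.valuation (j w) ≤ x₂.valuation (j c) := by
    have h := hc2 _ h3
    rw [← ValuationSubring.valuation_le_one_iff, map_div₀] at h
    exact (div_le_one₀ hpos).1 h
  have h5 : x₂.valuation (j (Fr (Fr c))) < x₂.valuation (j c) := by
    rw [hw, map_pow, map_pow]
    calc x₂.valuation (j w) ^ r ^ 2 ≤ x₂.valuation (j c) ^ r ^ 2 := pow_le_pow_left₀ zero_le h4 _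
      _ < x₂.valuation (j c) := pow_lt_self_of_lt_one₀ hpos hc1 hr2
  refine FrobPt_unif_of_val_eq ⟨hc0, hc1, hc2⟩ ?_
  rw [map_sub]
  rw [Valuation.map_sub_swap]
  exact Valuation.map_sub_eq_of_lt_left _ h5

end Fermat.Agent.MR.Node

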