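import Fermat.Agent.MR.Node.Interface
import Fermat.Agent.MR.Skel.Interface
import Fermat.Agent.BR.Inst.Interface2
import Fermat.Agent.S36.Phi.Interface

/-!
# MR / Node / Geo : the concrete geometry at `(M, p, A)`, `4 ∣ M` (architect helper80)

`F' = FL M`, `F = FL (M * p)`, `D'`, `D₁` the `q`-Gauss data, `D₂ = twist D₁ W`, `W = w_p`,
`s0 = j(q^M) - 1728`, the two charts `x = s0` (all non cuspidal points) and `x = s0⁻¹` (it contains the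
cusps), `T = ι₁ x * ι₂ x`, `τ = j (rd x)`.

* `G1`  `Stmt_PlaceAbs`            : `PlaceFacts K F T` (abstract).
* `G2`  `Stmt_StdTC` (abstract), `Stmt_GeoStd` (concrete) : `ChartPkg` = `Std` + lifts on both charts.
* `G3`  `Stmt_CuspTC` (abstract), `Stmt_GeoCusp` (concrete) : the cusps are smooth points.
* `G6`  dictionary: `Stmt_GeoRes` (`L' = L₁ = Kf k M`), `Stmt_GeoRedTo`, `Stmt_ShapeOrd`, `Stmt_SmoothB`,
        `Stmt_JInt`, `Stmt_CuspIff`, and the local-to-global statement `Stmt_Concl`, `Stmt_GeoConcl`.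
* `G7`  Galois: `Stmt_PresAbs` (abstract) : isometries inducing the identity on `κ` preserve `R_s`.

All statements are `Prop`s, each proved in its own file, the others being explicit hypotheses.
-/

set_option autoImplicit false
set_option synthInstance.maxHeartbeats 400000

noncomputable section

namespace Fermat.Agent.MR.Node

open Polynomial IntermediateField AlgebraicCurve ModularCurve
open Fermat.Agent.INJ (IsInt RedData Arch Chart)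
open Fermat.Agent.INJ.Inst (Qb FL kA)
open Fermat.Agent.BR.Inv (TC IsPairData Normal SData SChart SN)
open Fermat.Agent.BR.Inst (IsGaussS IsAL IsTCMaps Ctx twist sS cJ)
open Fermat.Agent.RED (Ev)
open Fermat.Agent.S28 (Kf)

/-! ### G1. places -/

/-- **GEO-PLACES**. -/
def Stmt_PlaceAbs : Prop :=
  ∀ (K F : Type) [Field K] [IsAlgClosed K] [CharZero K] [Field F] [Algebra K F] (T : F),
    Transcendental K T → FiniteDimensional K⟮T⟯ F → PlaceFacts K F T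

/-! ### G2. the standing hypotheses on a chart -/

/-- everything the assembly needs on the chart `T = ι₁ x * ι₂ x`, `τ = j (rd x)`. -/
structure ChartPkg {K F' F k L κ : Type*} [Field K] [Field F'] [Algebra K F'] [Field F] [Algebra K F]
    [Field k] [Field L] [Algebra k L] [Field κ] [Algebra k κ]
    (D' : RedData K F' k L) (D₁ D₂ : RedData K F k κ) (ι₁ ι₂ : F' →ₐ[K] F) (j : L →ₐ[k] κ)
    (Fr : L →+* L) (φb : L ≃+* L) (x : F') : Prop where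
  chart : Chart D' x
  normal : Normal D' x
  fix : φb (D'.rd x) = D'.rd x
  std : Std D₁ D₂ (ι₁ x * ι₂ x) (j (D'.rd x))
  int₁ : IsInt K (ι₁ x * ι₂ x) (ι₁ x)
  int₂ : IsInt K (ι₁ x * ι₂ x) (ι₂ x)
  alg : Algebra.IsAlgebraic K⟮ι₁ x * ι₂ x⟯ F
  lift₁ : ∀ a : L, IsInt k (D'.rd x) a → ∃ ξ ∈ BB D₁ D₂ (ι₁ x * ι₂ x),
    D₁.rd ξ = j a ∧ D₂.rd ξ = j (Fr a)
  lift₂ : ∀ a : L, IsInt k (D'.rd x) a → ∃ ξ ∈ BB D₁ D₂ (ι₁ x * ι₂ x),
    D₁.rd ξ = j (Fr a) ∧ D₂.rd ξ = j a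

/-- **GEO-STDTC** (abstract). -/
def Stmt_StdTC : Prop :=
  ∀ (K F' F k L κ : Type) [Field K] [IsAlgClosed K] [CharZero K] [Field F'] [Algebra K F'] [Field F]
    [Algebra K F] [Field k] [Field L] [Algebra k L] [Field κ] [Algebra k κ]
    (D' : RedData K F' k L) (D₁ D₂ : RedData K F k κ) (ι₁ ι₂ : F' →ₐ[K] F) (j : L →ₐ[k] κ)
    (Fr : L →+* L) (φb : L ≃+* L) (r : ℕ), TC D' D₁ D₂ ι₁ ι₂ j Fr φb r → Arch D₁ →
    ∀ x : F', Chart D' x → φb (D'.rd x) = D'.rd x → Normal D' x →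
      IsInt K (ι₁ x * ι₂ x) (ι₁ x) → IsInt K (ι₁ x * ι₂ x) (ι₂ x) →
      Transcendental K (ι₁ x * ι₂ x) → FiniteDimensional K⟮ι₁ x * ι₂ x⟯ F →
      Module.finrank K⟮ι₁ x * ι₂ x⟯ F ≤ 2 * ((r + 1) * Module.finrank K⟮x⟯ F') →
      Function.Surjective j ∧ ChartPkg D' D₁ D₂ ι₁ ι₂ j Fr φb x

/-- the concrete data at `(M, p, A)`. -/
structure GeoData (M p : ℕ) (A : ValuationSubring Qb) (W : FL (M * p) ≃ₐ[Qb] FL (M * p))
    (L' L₁ : IntermediateField (kA A) (LaurentSeries (kA A)))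
    (D' : RedData Qb (FL M) (kA A) L') (D₁ : RedData Qb (FL (M * p)) (kA A) L₁)
    (ι₁ ι₂ : FL M →ₐ[Qb] FL (M * p)) (j : L' →ₐ[kA A] L₁) (Fr : L' →+* L') (φb : L' ≃+* L')
    (τ : kA A →+* kA A) (s0 : FL M) : Prop where
  ctx : Ctx 2 M p A
  al : IsAL M p W
  g' : IsGaussS M A L' D'
  g₁ : IsGaussS (M * p) A L₁ D₁
  maps : IsTCMaps M p A L' L₁ ι₁ ι₂ j Fr φb τ
  tc : TC D' D₁ (twist D₁ W) ι₁ ι₂ j Fr φb p
  s0 : (s0 : LaurentSeries Qb) = sS M (cJ 2) Qb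

/-- **GEO-STD** (concrete): both charts. -/
def Stmt_GeoStd : Prop :=
  ∀ (M p : ℕ) [NeZero M] [NeZero (M * p)] (A : ValuationSubring Qb)
    (W : FL (M * p) ≃ₐ[Qb] FL (M * p))
    (L' L₁ : IntermediateField (kA A) (LaurentSeries (kA A)))
    (D' : RedData Qb (FL M) (kA A) L') (D₁ : RedData Qb (FL (M * p)) (kA A) L₁)
    (ι₁ ι₂ : FL M →ₐ[Qb] FL (M * p)) (j : L' →ₐ[kA A] L₁) (Fr : L' →+* L') (φb : L' ≃+* L')
    (τ : kA A →+* kA A) (s0 : FL M), GeoData M p A W L' L₁ D' D₁ ι₁ ι₂ j Fr φb τ s0 →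
    Function.Surjective j ∧ Arch D₁ ∧
      ChartPkg D' D₁ (twist D₁ W) ι₁ ι₂ j Fr φb s0 ∧
      ChartPkg D' D₁ (twist D₁ W) ι₁ ι₂ j Fr φb s0⁻¹

/-! ### G3. cusps -/

/-- **GEO-CUSPTC** (abstract).  `x = 1 / (J - e)`, `J = j(q^M)`, so `1 / J = x / (1 + e x)`. -/
def Stmt_CuspTC : Prop :=
  ∀ (K F' F k L κ : Type) [Field K] [Field F'] [Algebra K F'] [Field F] [Algebra K F]
    [Field k] [IsAlgClosed k] [Field L] [Algebra k L] [Field κ] [Algebra k κ]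
    (D' : RedData K F' k L) (D₁ D₂ : RedData K F k κ) (ι₁ ι₂ : F' →ₐ[K] F) (j : L →ₐ[k] κ)
    (Fr : L →+* L) (φb : L ≃+* L) (r : ℕ), TC D' D₁ D₂ ι₁ ι₂ j Fr φb r →
    ∀ x : F', ChartPkg D' D₁ D₂ ι₁ ι₂ j Fr φb x →
    ∀ (c : ℕ → ℕ → ℤ) (e : ℕ), S36.Reg.PhiShape r c →
      (∑ a ∈ Finset.range (r + 2), ∑ b ∈ Finset.range (r + 2),
        (c a b : F) * ι₁ (x / (1 + (e : F') * x)) ^ a * ι₂ (x / (1 + (e : F') * x)) ^ b = 0) →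
    ∀ x₁ : ValuationSubring κ, IsPt k x₁ → x₁.valuation (j (D'.rd x)) < 1 →
      IsSmooth D₁ D₂ (ι₁ x * ι₂ x) (j (D'.rd x)) x₁

/-- **GEO-CUSP** (concrete). -/
def Stmt_GeoCusp : Prop :=
  ∀ (M p : ℕ) [NeZero M] [NeZero (M * p)] (A : ValuationSubring Qb)
    (W : FL (M * p) ≃ₐ[Qb] FL (M * p))
    (L' L₁ : IntermediateField (kA A) (LaurentSeries (kA A)))
    (D' : RedData Qb (FL M) (kA A) L') (D₁ : RedData Qb (FL (M * p)) (kA A) L₁)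
    (ι₁ ι₂ : FL M →ₐ[Qb] FL (M * p)) (j : L' →ₐ[kA A] L₁) (Fr : L' →+* L') (φb : L' ≃+* L')
    (τ : kA A →+* kA A) (s0 : FL M), GeoData M p A W L' L₁ D' D₁ ι₁ ι₂ j Fr φb τ s0 →
    ∀ x₁ : ValuationSubring L₁, IsPt (kA A) x₁ → x₁.valuation (j (D'.rd s0⁻¹)) < 1 →
      IsSmooth D₁ (twist D₁ W) (ι₁ s0⁻¹ * ι₂ s0⁻¹) (j (D'.rd s0⁻¹)) x₁

/-! ### G6. dictionary -/

/-- **GEO-RES**.  The residue fields are `k(X₀(M))`. -/
def Stmt_GeoRes : Prop :=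
  ∀ (M p : ℕ) [NeZero M] [NeZero (M * p)] (A : ValuationSubring Qb)
    (W : FL (M * p) ≃ₐ[Qb] FL (M * p))
    (L' L₁ : IntermediateField (kA A) (LaurentSeries (kA A)))
    (D' : RedData Qb (FL M) (kA A) L') (D₁ : RedData Qb (FL (M * p)) (kA A) L₁)
    (ι₁ ι₂ : FL M →ₐ[Qb] FL (M * p)) (j : L' →ₐ[kA A] L₁) (Fr : L' →+* L') (φb : L' ≃+* L')
    (τ : kA A →+* kA A) (s0 : FL M), GeoData M p A W L' L₁ D' D₁ ι₁ ι₂ j Fr φb τ s0 →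
    L' = Kf (kA A) M ∧ L₁ = Kf (kA A) M

/-- **GEO-EXISTS**.  The data exist, with residue fields `Kf (kA A) M`. -/
def Stmt_GeoExists : Prop :=
  ∀ (M p : ℕ) [NeZero M] [NeZero (M * p)] (A : ValuationSubring Qb), Ctx 2 M p A →
    ∀ W : FL (M * p) ≃ₐ[Qb] FL (M * p), IsAL M p W →
    ∃ (D' : RedData Qb (FL M) (kA A) (Kf (kA A) M))
      (D₁ : RedData Qb (FL (M * p)) (kA A) (Kf (kA A) M))
      (ι₁ ι₂ : FL M →ₐ[Qb] FL (M * p)) (j : Kf (kA A) M →ₐ[kA A] Kf (kA A) M)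
      (Fr : Kf (kA A) M →+* Kf (kA A) M) (φb : Kf (kA A) M ≃+* Kf (kA A) M)
      (τ : kA A →+* kA A) (s0 : FL M),
      GeoData M p A W (Kf (kA A) M) (Kf (kA A) M) D' D₁ ι₁ ι₂ j Fr φb τ s0

/-- **GEO-REDTO**.  `Skel.RedTo` in terms of the Gauss datum. -/
def Stmt_GeoRedTo : Prop :=
  ∀ (M p : ℕ) (A : ValuationSubring Qb)
    (D₁ : RedData Qb (FL (M * p)) (kA A) (Kf (kA A) M)), IsGaussS (M * p) A (Kf (kA A) M) D₁ →
    (∀ (u : FL (M * p)) (c : Qb), D₁.rd (algebraMap Qb (FL (M * p)) c * u) ≠ 0 →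
      Skel.RedTo A p M u (D₁.rd (algebraMap Qb (FL (M * p)) c * u))) ∧
    (∀ (u : FL (M * p)) (ub : Kf (kA A) M), Skel.RedTo A p M u ub →
      ∃ c : Qb, c ≠ 0 ∧ D₁.rd (algebraMap Qb (FL (M * p)) c * u) = ub)

/-- **GEO-SHAPE** (abstract).  The order of the reduction from `PL.Shape`. -/
def Stmt_ShapeOrd : Prop :=
  ∀ (K F k κ : Type) [Field K] [Field F] [Algebra K F] [Field k] [IsAlgClosed k] [Field κ]
    [Algebra k κ] (D₁ D₂ : RedData K F k κ) (T : F) (τ : κ), Compat D₁ D₂ T τ →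
    ∀ x : Place k κ, τ ∈ x.toValuationSubring →
    ∀ (t u : F) (m : ℤ) (c : K), D₁.rd t ≠ 0 →
      PL.Shape K D₁.O t (Rs D₁ D₂ T x.toValuationSubring) (ns D₁ D₂ T x.toValuationSubring) u m →
      D₁.rd (algebraMap K F c * u) ≠ 0 →
      x.ord (D₁.rd (algebraMap K F c * u)) = m * x.ord (D₁.rd t)

/-- **GEO-SMOOTHB** (abstract).  `rd₁ b` is a unit at the smooth points. -/
def Stmt_SmoothB : Prop :=
  ∀ (K F k κ : Type) [Field K] [Field F] [Algebra K F] [Field k] [Field κ]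
    [Algebra k κ] (D₁ D₂ : RedData K F k κ) (T : F) (τ : κ), Compat D₁ D₂ T τ → Arch D₁ →
    ∀ x₁ : ValuationSubring κ, IsSmooth D₁ D₂ T τ x₁ →
    ∀ a ∈ BB D₁ D₂ T, ∀ b ∈ BB D₁ D₂ T, ∀ ϖ : K, ϖ ≠ 0 → a * b = algebraMap K F ϖ →
      D₁.rd b ≠ 0 → x₁.valuation (D₁.rd b) = 1

/-- **GEO-JINT**.  `j(q)` and `j(q^M) - c` are integral over each other. -/
def Stmt_JInt : Prop :=
  ∀ (k : Type) [Field k] (M c : ℕ) [NeZero M] (jb sb : Kf k M),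
    (jb : LaurentSeries k) = S28.jd k 1 → (sb : LaurentSeries k) = sS M c k →
    IsInt k jb sb ∧ IsInt k sb jb

/-- **GEO-CUSPIFF**.  The cusps are the poles of `j(q^M) - c`. -/
def Stmt_CuspIff : Prop :=
  ∀ (k : Type) [Field k] (M c : ℕ) [NeZero M] (jb sb : Kf k M),
    (jb : LaurentSeries k) = S28.jd k 1 → (sb : LaurentSeries k) = sS M c k →
    ∀ x : Place k (Kf k M), 0 ≤ x.ord jb ↔ sb ∈ x.toValuationSubring

/-- **GEO-CONCL** (abstract local-to-global).  From the shapes at all closed points to the divisor of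
the reduction. -/
def Stmt_Concl : Prop :=
  ∀ (K F k κ : Type) [Field K] [Field F] [Algebra K F] [Field k] [IsAlgClosed k] [Field κ]
    [Algebra k κ] (D₁ D₂ : RedData K F k κ) (T₁ T₂ : F) (τ : κ), Compat D₁ D₂ T₁ τ →
    Compat D₁ D₂ T₂ τ⁻¹ → Arch D₁ →
    (∀ x₁ : ValuationSubring κ, IsPt k x₁ → x₁.valuation τ⁻¹ < 1 → IsSmooth D₁ D₂ T₂ τ⁻¹ x₁) →
    ∀ (p : ℕ) (a b : F) (ϖ : K), a ∈ BB D₁ D₂ T₁ → b ∈ BB D₁ D₂ T₁ → ϖ ≠ 0 →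
      a * b = algebraMap K F ϖ → D₁.rd b ≠ 0 →
    ∀ (u : F) (c : K) (δ : ℤ), D₁.rd (algebraMap K F c * u) ≠ 0 →
      (∀ x₁ x₂ : ValuationSubring κ, IsNode D₁ D₂ T₁ τ x₁ x₂ → ∃ m : ℤ,
        PL.Shape K D₁.O b (Rs D₁ D₂ T₁ x₁) (ns D₁ D₂ T₁ x₁) u (δ + p * m)) →
      (∀ x₁ : ValuationSubring κ, IsSmooth D₁ D₂ T₁ τ x₁ → ∀ ϑ ∈ BB D₁ D₂ T₁,
        IsUnifAt x₁ (D₁.rd ϑ) → ∃ m : ℤ,
        PL.Shape K D₁.O ϑ (Rs D₁ D₂ T₁ x₁) (ns D₁ D₂ T₁ x₁) u (p * m)) →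
      (∀ x₁ : ValuationSubring κ, IsSmooth D₁ D₂ T₂ τ⁻¹ x₁ → ∀ ϑ ∈ BB D₁ D₂ T₂,
        IsUnifAt x₁ (D₁.rd ϑ) → ∃ m : ℤ,
        PL.Shape K D₁.O ϑ (Rs D₁ D₂ T₂ x₁) (ns D₁ D₂ T₂ x₁) u (p * m)) →
    ∀ x : Place k κ,
      (τ ∈ x.toValuationSubring →
        (p : ℤ) ∣ x.ord (D₁.rd (algebraMap K F c * u)) - δ * x.ord (D₁.rd b)) ∧
      (τ ∉ x.toValuationSubring → (p : ℤ) ∣ x.ord (D₁.rd (algebraMap K F c * u)))

/-- **GEO-GCONCL** (concrete local-to-global): the conclusion `Skel.ResConcl` of [RES]. -/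
def Stmt_GeoConcl : Prop :=
  ∀ (M p : ℕ) [NeZero M] [NeZero (M * p)] (A : ValuationSubring Qb)
    (W : FL (M * p) ≃ₐ[Qb] FL (M * p))
    (D' : RedData Qb (FL M) (kA A) (Kf (kA A) M))
    (D₁ : RedData Qb (FL (M * p)) (kA A) (Kf (kA A) M))
    (ι₁ ι₂ : FL M →ₐ[Qb] FL (M * p)) (j : Kf (kA A) M →ₐ[kA A] Kf (kA A) M)
    (Fr : Kf (kA A) M →+* Kf (kA A) M) (φb : Kf (kA A) M ≃+* Kf (kA A) M)
    (τ : kA A →+* kA A) (s0 : FL M),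
    GeoData M p A W (Kf (kA A) M) (Kf (kA A) M) D' D₁ ι₁ ι₂ j Fr φb τ s0 →
    ∀ a ∈ BB D₁ (twist D₁ W) (ι₁ s0 * ι₂ s0), ∀ b ∈ BB D₁ (twist D₁ W) (ι₁ s0 * ι₂ s0),
      a * b = algebraMap Qb (FL (M * p)) (p : Qb) → D₁.rd b ≠ 0 →
    ∀ jb : Kf (kA A) M, Skel.IsJ (kA A) M jb →
    ∀ (u : FL (M * p)) (ub : Kf (kA A) M) (δ : ℤ), Skel.RedTo A p M u ub →
      (∀ x₁ x₂ : ValuationSubring (Kf (kA A) M),
        IsNode D₁ (twist D₁ W) (ι₁ s0 * ι₂ s0) (j (D'.rd s0)) x₁ x₂ → ∃ m : ℤ,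
        PL.Shape Qb D₁.O b (Rs D₁ (twist D₁ W) (ι₁ s0 * ι₂ s0) x₁)
          (ns D₁ (twist D₁ W) (ι₁ s0 * ι₂ s0) x₁) u (δ + p * m)) →
      (∀ x : FL M, x = s0 ∨ x = s0⁻¹ → ∀ x₁ : ValuationSubring (Kf (kA A) M),
        IsSmooth D₁ (twist D₁ W) (ι₁ x * ι₂ x) (j (D'.rd x)) x₁ →
        ∀ ϑ ∈ BB D₁ (twist D₁ W) (ι₁ x * ι₂ x), IsUnifAt x₁ (D₁.rd ϑ) → ∃ m : ℤ,
        PL.Shape Qb D₁.O ϑ (Rs D₁ (twist D₁ W) (ι₁ x * ι₂ x) x₁)
          (ns D₁ (twist D₁ W) (ι₁ x * ι₂ x) x₁) u (p * m)) →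
      Skel.ResConcl (kA A) p M jb (D₁.rd b) ub

/-! ### G7. Galois -/

/-- **GEO-PRES** (abstract).  A semilinear automorphism preserving `T`, `O_∞`, `O_0` and inducing the
identity on the residue field of `D₁` preserves the local rings `R_s`. -/
def Stmt_PresAbs : Prop :=
  ∀ (K F k κ : Type) [Field K] [Field F] [Algebra K F] [Field k] [Field κ]
    [Algebra k κ] (D₁ D₂ : RedData K F k κ) (T : F) (g : SemilinearAut K F), g • T = T →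
    (∀ z : F, g • z ∈ D₁.O ↔ z ∈ D₁.O) → (∀ z : F, g • z ∈ D₂.O ↔ z ∈ D₂.O) →
    (∀ z ∈ D₁.O, D₁.rd (g • z) = D₁.rd z) →
    ∀ x₁ : ValuationSubring κ, PL.PresR g (Rs D₁ D₂ T x₁)

end Fermat.Agent.MR.Node

end
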