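import Fermat.Agent.MR.Node.GeoInterface

/-!
# MR / Node / Geo : GEO-JINT (`Stmt_JInt`) and GEO-CUSPIFF (`Stmt_CuspIff`)

`j(q)` and `j(q^M) - c` are integral over each other in `Kf k M`, for any field `k`; the cusps are the
poles of `j(q^M) - c`.
-/

set_option autoImplicit false
set_option synthInstance.maxHeartbeats 400000

noncomputable section

namespace Fermat.Agent.MR.Node

open Polynomial IntermediateField AlgebraicCurve ModularCurve
open Fermat.Agent.INJ (IsInt)
open Fermat.Agent.BR.Inst (sS isInt_trans)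
open Fermat.Agent.S28 (Kf)

/-! ### integrality over `K[t]` through `K[X][X]` -/

section IntPoly

variable {K F : Type*} [Field K] [Field F] [Algebra K F]

theorem JInt_isInt_iff (t x : F) :
    IsInt K t x ↔ ∃ Φ : K[X][X], Φ.Monic ∧ Φ.eval₂ ((aeval t : K[X] →ₐ[K] F) : K[X] →+* F) x = 0 := by
  unfold IsInt
  set R := Algebra.adjoin K {t} with hR
  let tR : R := ⟨t, Algebra.subset_adjoin (Set.mem_singleton t)⟩
  let φ : K[X] →+* R := ((aeval tR : K[X] →ₐ[K] R) : K[X] →+* R)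
  have hcomp : (algebraMap R F).comp φ = ((aeval t : K[X] →ₐ[K] F) : K[X] →+* F) := by
    apply Polynomial.ringHom_ext
    · intro a
      simp only [RingHom.comp_apply, φ, RingHom.coe_coe, aeval_C]
      rfl
    · simp only [RingHom.comp_apply, φ, RingHom.coe_coe, aeval_X]
      rfl
  have hsurj : Function.Surjective φ := by
    rintro ⟨y, hy⟩
    have hy' : y ∈ (aeval t : K[X] →ₐ[K] F).range := by
      rw [← Algebra.adjoin_singleton_eq_range_aeval]; exact hy
    obtain ⟨P, rfl⟩ := hy'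
    refine ⟨P, Subtype.ext ?_⟩
    have := congrArg (fun f : K[X] →+* F => f P) hcomp
    exact this
  constructor
  · rintro ⟨p, hp, hpx⟩
    obtain ⟨Φ, hΦmap, -, hΦ⟩ := Polynomial.lifts_and_degree_eq_and_monic
      ((Polynomial.mem_lifts p).2 (Polynomial.map_surjective φ hsurj p)) hp
    refine ⟨Φ, hΦ, ?_⟩
    rw [← hcomp, ← Polynomial.eval₂_map, hΦmap]
    exact hpx
  · rintro ⟨Φ, hΦ, hx⟩
    refine ⟨Φ.map φ, hΦ.map φ, ?_⟩
    rw [Polynomial.eval₂_map, hcomp]
    exact hx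

/-- descent of integrality along an (injective) homomorphism of fields. -/
theorem JInt_isInt_of_map {F' : Type*} [Field F'] [Algebra K F'] (W : F →ₐ[K] F') {t x : F}
    (h : IsInt K (W t) (W x)) : IsInt K t x := by
  rw [JInt_isInt_iff] at h ⊢
  obtain ⟨Φ, hΦ, hx⟩ := h
  refine ⟨Φ, hΦ, W.injective ?_⟩
  rw [map_zero, ← hx]
  have h1 := Polynomial.hom_eval₂ Φ ((aeval t : K[X] →ₐ[K] F) : K[X] →+* F) (W : F →+* F') x
  have h2 : (W : F →+* F').comp ((aeval t : K[X] →ₐ[K] F) : K[X] →+* F) =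
      ((aeval (W t) : K[X] →ₐ[K] F') : K[X] →+* F') := by
    apply Polynomial.ringHom_ext
    · intro a
      simp
    · simp
  rw [h2] at h1
  exact h1

theorem JInt_isInt_of_mem {t x : F} (h : x ∈ Algebra.adjoin K {t}) : IsInt K t x :=
  isIntegral_algebraMap (R := Algebra.adjoin K {t}) (A := F) (x := ⟨x, h⟩)

theorem JInt_isInt_self (t : F) : IsInt K t t :=
  JInt_isInt_of_mem (Algebra.self_mem_adjoin_singleton K t)

end IntPoly

/-! ### the series level -/

section Series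

variable (k : Type) [Field k]

theorem JInt_evY (y : LaurentSeries k) :
    ((aeval y : k[X] →ₐ[k] LaurentSeries k) : k[X] →+* LaurentSeries k) = S28.evY y := by
  apply Polynomial.ringHom_ext
  · intro a
    simp [S28.evY]
    exact algebraMap_laurentSeries_eq_single _ a
  · simp [S28.evY]

variable {k} in
theorem JInt_of_ev2 {Φ : k[X][X]} (hΦ : Φ.Monic) {x y : LaurentSeries k}
    (h : S28.ev2 Φ x y = 0) : IsInt k y x :=
  (JInt_isInt_iff y x).2 ⟨Φ, hΦ, by rw [JInt_evY]; exact h⟩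

/-- one prime step. -/
theorem JInt_step {d ℓ : ℕ} (hd : d ≠ 0) (hℓ : ℓ.Prime) :
    IsInt k (S28.jd k d) (S28.jd k (d * ℓ)) ∧ IsInt k (S28.jd k (d * ℓ)) (S28.jd k d) := by
  obtain ⟨Φ, hm, -, e1, e2⟩ := S28.FN7.hasModPoly k hℓ
  have hV1 : S28.Vq k d (S28.jd k ℓ) = S28.jd k (d * ℓ) := by
    rw [S28.jd, S28.tower_Vq_Vq k hd hℓ.ne_zero, S28.jd]
  have hV2 : S28.Vq k d (jqModC k) = S28.jd k d := rfl
  have f1 : S28.ev2 Φ (S28.jd k (d * ℓ)) (S28.jd k d) = 0 := by
    have := congrArg (S28.Vq k d) e1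
    rwa [S28.BC.Vq_ev2, hV1, hV2, map_zero] at this
  have f2 : S28.ev2 Φ (S28.jd k d) (S28.jd k (d * ℓ)) = 0 := by
    have := congrArg (S28.Vq k d) e2
    rwa [S28.BC.Vq_ev2, hV1, hV2, map_zero] at this
  exact ⟨JInt_of_ev2 hm f1, JInt_of_ev2 hm f2⟩

/-- `j(q)` and `j(q^M)` are integral over each other. -/
theorem JInt_tower (M : ℕ) (hM : M ≠ 0) :
    IsInt k (S28.jd k 1) (S28.jd k M) ∧ IsInt k (S28.jd k M) (S28.jd k 1) := by
  induction M using induction_on_primes with
  | zero => exact absurd rfl hM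
  | one => exact ⟨JInt_isInt_self _, JInt_isInt_self _⟩
  | prime_mul p a hp ih =>
    have ha : a ≠ 0 := fun h => hM (by rw [h, mul_zero])
    obtain ⟨h1, h2⟩ := ih ha
    obtain ⟨h3, h4⟩ := JInt_step k ha hp
    rw [mul_comm p a]
    exact ⟨isInt_trans h1 h3, isInt_trans h4 h2⟩

theorem JInt_shift (M c : ℕ) :
    IsInt k (S28.jd k M) (sS M c k) ∧ IsInt k (sS M c k) (S28.jd k M) := by
  constructor
  · apply JInt_isInt_of_mem
    rw [sS]
    exact sub_mem (Algebra.self_mem_adjoin_singleton k _) (natCast_mem _ c)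
  · apply JInt_isInt_of_mem
    have h1 : S28.jd k M = sS M c k + (c : LaurentSeries k) := by rw [sS, sub_add_cancel]
    nth_rewrite 1 [h1]
    exact add_mem (Algebra.self_mem_adjoin_singleton k _) (natCast_mem _ c)

end Series

/-- **GEO-JINT**. -/
theorem jInt : Stmt_JInt := by
  intro k _ M c _ jb sb hjb hsb
  obtain ⟨h1, h2⟩ := JInt_tower k M (NeZero.ne M)
  obtain ⟨h3, h4⟩ := JInt_shift k M c
  constructor
  · apply JInt_isInt_of_map (Kf k M).val
    show IsInt k (jb : LaurentSeries k) (sb : LaurentSeries k)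
    rw [hjb, hsb]
    exact isInt_trans h1 h3
  · apply JInt_isInt_of_map (Kf k M).val
    show IsInt k (sb : LaurentSeries k) (jb : LaurentSeries k)
    rw [hjb, hsb]
    exact isInt_trans h4 h2

/-- **GEO-CUSPIFF**. -/
theorem cuspIff (h : Stmt_JInt) : Stmt_CuspIff := by
  intro k _ M c _ jb sb hjb hsb x
  obtain ⟨h1, h2⟩ := h k M c jb sb hjb hsb
  have hjb0 : jb ≠ 0 := by
    intro h0
    have h3 := INJ.Inst.coeff_jd k (N := 1) one_ne_zero
    rw [← hjb, h0] at h3
    simp at h3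
  rw [← S24.mem_iff_ord_nonneg x hjb0]
  exact ⟨fun hx => S24.intRing_le_valuationSubring x hx ⟨sb, h1⟩,
    fun hx => S24.intRing_le_valuationSubring x hx ⟨jb, h2⟩⟩

end Fermat.Agent.MR.Node

end
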