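import Fermat.Agent.MR.Node.UnitX
import Fermat.Agent.S36.HM.JInt
import Fermat.Agent.BR.Inst.TCInt

/-!
# MR / Node : `a = p x₁`, `b = 1 / x₁` lie in `BB D (twist D W) (s * s_p)`   (helper37)

`s = j(q^M) - c`, `s_p = j(q^(M p)) - c`, `T = s * s_p`: `j(q)` is integral over `ℚ̄[T]`.
-/

set_option autoImplicit false
set_option synthInstance.maxHeartbeats 400000

namespace Fermat.Agent.MR.Node

open ModularCurve (coeffMap modularFunctionFieldBar)
open Fermat.Agent.S24 (Qbar FF jF)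
open Fermat.Agent.INJ (IsInt RedData)
open Fermat.Agent.INJ.Inst (kA IsGauss)
open Fermat.Agent.BR.Inst (IsAL IsGaussS twist isInt_trans sS Geo)
open Fermat.Agent.S36.HM (JInt_Rel JInt_all)

/-- `j(q)` is integral over `ℚ̄[j(q^M) - c]`. -/
theorem UX_int_j (N M c : ℕ) (hM : M ≠ 0) (s : FF N)
    (hs : (s : LaurentSeries Qbar) = sS M c Qbar) : IsInt Qbar s (jF N) := by
  have h2 := (JInt_all M hM 1 one_ne_zero).2
  rw [one_mul] at h2
  have k2 := h2.map (coeffMap (Int.castRingHom Qbar))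
  rw [S28.tower_coeffMap_jd, S28.tower_coeffMap_jd] at k2
  have hj : ((jF N : FF N) : LaurentSeries Qbar) = S28.jd Qbar 1 :=
    (Fermat.Agent.S36.Val.AL_isJ_iff (one_dvd N) (jF N)).2 rfl
  have hsM : ((s + (c : FF N) : FF N) : LaurentSeries Qbar) = S28.jd Qbar M := by
    have : ((s + (c : FF N) : FF N) : LaurentSeries Qbar) =
        (s : LaurentSeries Qbar) + (c : LaurentSeries Qbar) := by
      push_cast
      rfl
    rw [this, hs, sS, sub_add_cancel]
  rw [← hj, ← hsM] at k2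
  have hinj : Function.Injective ((modularFunctionFieldBar N).val : FF N →+* LaurentSeries Qbar) :=
    Subtype.val_injective
  have l2 : JInt_Rel (jF N) (s + (c : FF N)) := JInt_Rel.of_map _ hinj k2
  have i1 : IsInt Qbar (s + (c : FF N)) (jF N) := l2.isIntegral Qbar
  have i2 : IsInt Qbar s (s + (c : FF N)) := by
    unfold IsInt
    have hmem : s + (c : FF N) ∈ Algebra.adjoin Qbar ({s} : Set (FF N)) :=
      add_mem (Algebra.self_mem_adjoin_singleton Qbar s) (natCast_mem _ c)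
    exact isIntegral_algebraMap (R := Algebra.adjoin Qbar ({s} : Set (FF N)))
      (x := (⟨_, hmem⟩ : Algebra.adjoin Qbar ({s} : Set (FF N))))
  exact isInt_trans i2 i1

/-- `j(q)` is integral over `ℚ̄[T]`, `T = s * s_r`. -/
theorem UX_int_T (M r c : ℕ) [NeZero (M * r)] (hr : r.Prime) (s sr : FF (M * r))
    (hs : (s : LaurentSeries Qbar) = sS M c Qbar)
    (hsr : (sr : LaurentSeries Qbar) = sS (M * r) c Qbar) :
    IsInt Qbar (s * sr) (jF (M * r)) :=
  isInt_trans (Fermat.Agent.BR.Inst.stmt_TCInt M r c hr s sr hs hsr).1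
    (UX_int_j (M * r) M c (fun h0 => NeZero.ne (M * r) (by rw [h0, zero_mul])) s hs)

/-- **(G3')**, final form. -/
theorem unitBB (p M c : ℕ) [NeZero (M * p)] (hp : p.Prime) (hpM : ¬ p ∣ M) (h4 : 4 ∣ M)
    (A : ValuationSubring Qbar) (hA : A.LiesOverPrime p)
    (L : IntermediateField (kA A) (LaurentSeries (kA A)))
    (D : RedData Qbar (FF (M * p)) (kA A) L) (hD : IsGauss (M * p) A L D)
    (W : FF (M * p) ≃ₐ[Qbar] FF (M * p)) (hW : IsAL M p W) (s sr : FF (M * p))
    (hs : (s : LaurentSeries Qbar) = sS M c Qbar)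
    (hsr : (sr : LaurentSeries Qbar) = sS (M * p) c Qbar) :
    ∃ a b : FF (M * p), UnitAB p M A L D W a b ∧ a ∈ BB D (twist D W) (s * sr) ∧
      b ∈ BB D (twist D W) (s * sr) := by
  obtain ⟨a, b, h⟩ := unitX p M hp hpM h4 A hA L D hD W hW
  exact ⟨a, b, h, h.mem_BB (UX_int_T M p c hp s sr hs hsr)⟩

end Fermat.Agent.MR.Node
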