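import Fermat.Agent.MR.Node.FinalInterface
import Fermat.Agent.MR.Node.FrobInterface
import Fermat.Agent.MR.Node.GeoInterface
import Fermat.Agent.MR.Node.GeoJInt
import Fermat.Agent.MR.Node.UnitInt
import Fermat.Agent.BR.Inst.Final

/-!
# MR / Node / Geo : assembly of `Stmt_Geo` (the geometric facts at level `M * p`)
-/

set_option autoImplicit false
set_option synthInstance.maxHeartbeats 400000
set_option maxHeartbeats 4000000

noncomputable section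

namespace Fermat.Agent.MR.Node

open Polynomial IntermediateField AlgebraicCurve ModularCurve
open Fermat.Agent.INJ (IsInt RedData Arch Chart)
open Fermat.Agent.INJ.Inst (Qb FL kA)
open Fermat.Agent.BR.Inv (TC IsPairData Normal SData SChart SN)
open Fermat.Agent.BR.Inst (IsGaussS IsAL IsTCMaps Ctx twist sS cJ)
open Fermat.Agent.S28 (Kf)

/-- integrality in an intermediate field of `k((q))` from integrality of the series. -/
theorem Geo_isInt_coe {k : Type} [Field k] (L : IntermediateField k (LaurentSeries k)) (t x : L)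
    (h : IsInt k (t : LaurentSeries k) (x : LaurentSeries k)) : IsInt k t x :=
  JInt_isInt_of_map L.val h

theorem Geo_jd_mem (k : Type) [Field k] (M : ℕ) : S28.jd k 1 ∈ Kf k M := by
  have : NeZero 1 := ⟨one_ne_zero⟩
  rw [S28.jd, S28.Vq_eq]
  exact jqModCd_mem_full k M (one_dvd M)

/-- the data exist. -/
theorem Geo_exists (M p : ℕ) [NeZero M] [NeZero (M * p)] (A : ValuationSubring Qb)
    (hctx : Ctx 2 M p A) (W : FL (M * p) ≃ₐ[Qb] FL (M * p)) (hW : IsAL M p W) :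
    ∃ (L' L₁ : IntermediateField (kA A) (LaurentSeries (kA A)))
      (D' : RedData Qb (FL M) (kA A) L') (D₁ : RedData Qb (FL (M * p)) (kA A) L₁)
      (ι₁ ι₂ : FL M →ₐ[Qb] FL (M * p)) (j : L' →ₐ[kA A] L₁) (Fr : L' →+* L') (φb : L' ≃+* L')
      (τ : kA A →+* kA A) (s0 : FL M), GeoData M p A W L' L₁ D' D₁ ι₁ ι₂ j Fr φb τ s0 := by
  obtain ⟨L', D', hD'⟩ := BR.Inst.exists_gaussS M A
  obtain ⟨L₁, D₁, hD₁⟩ := BR.Inst.exists_gaussS (M * p) A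
  obtain ⟨ι₁, ι₂, j, Fr, φb, τ, hmaps, hTC⟩ :=
    BR.Inst.all_TCData 2 M p A hctx L' D' hD' L₁ D₁ hD₁ W hW
  obtain ⟨s0, hs0⟩ : ∃ s0 : FL M, (s0 : LaurentSeries Qb) = sS M (cJ 2) Qb :=
    ⟨⟨_, BR.Inst.GM_sS_mem (NeZero.ne M) dvd_rfl (cJ 2)⟩, rfl⟩
  exact ⟨L', L₁, D', D₁, ι₁, ι₂, j, Fr, φb, τ, s0, hctx, hW, hD', hD₁, hmaps, hTC, hs0⟩

/-- **[GEO]**. -/
theorem geo (hStd : Stmt_GeoStd) (hRes : Stmt_GeoRes) (hCusp : Stmt_GeoCusp) (hUA : Stmt_UnifA)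
    (hUB : Stmt_UnifB) (hFE : Stmt_FrobEx) : Stmt_Geo := by
  intro p _ hp _ A hA M _ _ hpM h4 T
  have hctx : Ctx 2 M p A := ⟨Or.inl rfl, dvd_trans (by norm_num) h4, hp, hpM, hA⟩
  have : IsAlgClosed (kA A) := S18G.isAlgClosed_kA A
  have hM0 : M ≠ 0 := NeZero.ne M
  obtain ⟨L', L₁, D', D₁, ι₁, ι₂, j, Fr, φb, τ, s0, hG⟩ := Geo_exists M p A hctx T.W T.isAL
  obtain ⟨hj, -, pk, pk'⟩ := hStd M p A T.W L' L₁ D' D₁ ι₁ ι₂ j Fr φb τ s0 hG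
  obtain ⟨-, hL⟩ := hRes M p A T.W L' L₁ D' D₁ ι₁ ι₂ j Fr φb τ s0 hG
  have hmaps := hG.maps
  have hs0 := hG.s0
  have hs : ((ι₁ s0 : FL (M * p)) : LaurentSeries Qb) = sS M (cJ 2) Qb := by rw [hmaps.ι₁, hs0]
  have hsr : ((ι₂ s0 : FL (M * p)) : LaurentSeries Qb) = sS (M * p) (cJ 2) Qb := by
    rw [hmaps.ι₂, hs0, BR.Inst.GM_Vq_sS Qb hM0 hp.ne_zero]
  obtain ⟨a, b, hab, ha, hb⟩ := unitBB p M (cJ 2) hp hpM h4 A hA L₁ D₁ hG.g₁.gauss T.W T.isAL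
    (ι₁ s0) (ι₂ s0) hs hsr
  have hrd0 : ((D'.rd s0 : L') : LaurentSeries (kA A)) = sS M (cJ 2) (kA A) := by
    have h := (hG.g'.gauss.mem_rd (sS M (cJ 2) A) s0 (by rw [hs0, BR.Inst.GM_coeffMap_sS])).2
    rwa [BR.Inst.GM_coeffMap_sS] at h
  have hτs : ((j (D'.rd s0) : L₁) : LaurentSeries (kA A)) = sS M (cJ 2) (kA A) := by
    rw [hmaps.j, hrd0]
  have hX0 : D'.rd s0 ≠ 0 := by
    intro h0
    have := pk.chart.trans
    rw [h0] at this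
    exact this isAlgebraic_zero
  have hTinv : ι₁ s0⁻¹ * ι₂ s0⁻¹ = (ι₁ s0 * ι₂ s0)⁻¹ := by rw [map_inv₀, map_inv₀, mul_inv]
  have hτinv : j (D'.rd s0⁻¹) = (j (D'.rd s0))⁻¹ := by rw [RedData.rd_inv hX0, map_inv₀]
  have hgal0 : ∀ σ : ES.Mid.GQ, ES.Mid.gal M σ s0 = s0 := fun σ =>
    BR.Inst.GM_gal_eq_self σ _ _ _ hs0
  have hFC := hFE 2 M p A hctx L' D' hG.g' L₁ D₁ hG.g₁ T.W T.isAL ι₁ ι₂ j Fr φb τ hmaps s0 hgal0
    pk.normal
  obtain ⟨jb, hjb⟩ : ∃ jb : L₁, (jb : LaurentSeries (kA A)) = S28.jd (kA A) 1 :=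
    ⟨⟨_, by rw [hL]; exact Geo_jd_mem (kA A) M⟩, rfl⟩
  obtain ⟨t1, t2⟩ := JInt_tower (kA A) M hM0
  obtain ⟨t3, t4⟩ := JInt_shift (kA A) M (cJ 2)
  refine ⟨L₁, D₁, ι₁ s0 * ι₂ s0, a, b, j (D'.rd s0), jb, ?_⟩
  exact
  { hL := hL
    gauss := hG.g₁
    std := pk.std
    std' := by
      have := pk'.std
      rwa [hTinv, hτinv] at this
    gal_T := fun σ => by
      rw [map_mul, BR.Inst.GM_gal_eq_self σ _ _ _ hs, BR.Inst.GM_gal_eq_self σ _ _ _ hsr]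
    gal_a := hab.gal_a
    gal_b := hab.gal_b
    a_mem := ha
    b_mem := hb
    ab := hab.mul
    rd₁a := hab.rd₁a
    rd₂a := hab.rd₂a
    rd₁b := hab.rd₁b
    rd₂b := hab.rd₂b
    b_series := ⟨b⁻¹, mul_inv_cancel₀ hab.b_ne, hab.ser⟩
    unifA := fun x₁ x₂ hn =>
      hUA Qb (FL M) (FL (M * p)) (kA A) L' L₁ D' D₁ (twist D₁ T.W) ι₁ ι₂ j Fr φb p hG.tc hj s0
        pk.fix pk.std.compat pk.int₁ pk.int₂ pk.lift₁ pk.lift₂
        (fun f hf => by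
          obtain ⟨g, g', h1, -, h3⟩ := hFC f hf
          exact ⟨g, g', h1, h3⟩)
        a ha b hb hab.mul hab.rd₁a hab.rd₂a x₁ x₂ hn
    unifB := fun x₁ x₂ hn =>
      hUB Qb (FL M) (FL (M * p)) (kA A) L' L₁ D' D₁ (twist D₁ T.W) ι₁ ι₂ j Fr φb p hG.tc hj s0
        pk.fix pk.std.compat pk.int₁ pk.int₂ pk.lift₁ pk.lift₂
        (fun f hf => by
          obtain ⟨g, g', -, h2, h3⟩ := hFC f hf
          exact ⟨g, g', h2, h3⟩)
        a ha b hb hab.mul hab.rd₂b hab.rd₁b x₁ x₂ hn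
    cusp := fun x₁ hx₁ hv => by
      have := hCusp M p A T.W L' L₁ D' D₁ ι₁ ι₂ j Fr φb τ s0 hG x₁ hx₁ (by rw [hτinv]; exact hv)
      rwa [hTinv, hτinv] at this
    isJ := hjb
    int_jτ := Geo_isInt_coe L₁ _ _ (by
      rw [hjb, hτs]
      exact BR.Inst.isInt_trans t1 t3)
    int_τj := Geo_isInt_coe L₁ _ _ (by
      rw [hjb, hτs]
      exact BR.Inst.isInt_trans t4 t2) }

end Fermat.Agent.MR.Node

end
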