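import Fermat.Agent.MR.Node.GeoInterface
import Fermat.Agent.BR.Inst.GM
import Fermat.Agent.BR.Inst.TCInt
import Fermat.Agent.S36.Phi.Out
import Fermat.Agent.S36.Phi.Deg

/-!
# MR / Node / Geo : the cusps are smooth points (concrete)
-/

set_option autoImplicit false
set_option synthInstance.maxHeartbeats 400000

noncomputable section

namespace Fermat.Agent.MR.Node

open Polynomial IntermediateField AlgebraicCurve ModularCurve
open Fermat.Agent.INJ (IsInt RedData Arch Chart)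
open Fermat.Agent.INJ.Inst (Qb FL kA)
open Fermat.Agent.BR.Inst (IsGaussS IsAL IsTCMaps Ctx twist sS cJ)

theorem GeoCusp_sum {E Ω : Type*} [Field E] [Field Ω] (φ : E →+* Ω) (n : ℕ) (c : ℕ → ℕ → ℤ)
    (Z W : E)
    (h : ∑ a ∈ Finset.range n, ∑ b ∈ Finset.range n, (c a b : Ω) * φ Z ^ a * φ W ^ b = 0) :
    ∑ a ∈ Finset.range n, ∑ b ∈ Finset.range n, (c a b : E) * Z ^ a * W ^ b = 0 := by
  apply φ.injective
  rw [map_zero, ← h]
  simp only [map_sum, map_mul, map_pow, map_intCast]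

theorem GeoCusp_inv {Ω : Type*} [Field Ω] (s J : Ω) (e : ℕ) (hs : s = J - (e : Ω)) (hs0 : s ≠ 0)
    : s⁻¹ / (1 + (e : Ω) * s⁻¹) = J⁻¹ := by
  have h1 : 1 + (e : Ω) * s⁻¹ = J * s⁻¹ := by
    rw [hs] at hs0 ⊢
    field_simp
    ring
  rw [h1, div_mul_eq_div_div_swap, div_self (inv_ne_zero hs0), one_div]

/-- **GEO-CUSP**. -/
theorem geoCusp (hS : Stmt_GeoStd) (hC : Stmt_CuspTC) : Stmt_GeoCusp := by
  intro M p _ _ A W L' L₁ D' D₁ ι₁ ι₂ j Fr φb τ s0 hG x₁ hx₁ hv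
  have hctx := hG.ctx
  have hrP : p.Prime := hctx.hr
  have hM0 : M ≠ 0 := NeZero.ne M
  have : IsAlgClosed (kA A) := S18G.isAlgClosed_kA A
  obtain ⟨-, -, -, hpkg⟩ := hS M p A W L' L₁ D' D₁ ι₁ ι₂ j Fr φb τ s0 hG
  obtain ⟨c, hc, hΦ⟩ := S36.Phi.phi (S36.Phi.phiDeg S36.Phi.phiOrd S36.Phi.phiSym) p hrP
  have hΦ2 := (hΦ Qb M (Nat.pos_of_ne_zero hM0)).2
  refine hC Qb (FL M) (FL (M * p)) (kA A) L' L₁ D' D₁ (twist D₁ W) ι₁ ι₂ j Fr φb p hG.tc s0⁻¹ hpkg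
    c (cJ 2) hc ?_ x₁ hx₁ hv
  -- the modular equation
  have hJ0 : S28.jd Qb M ≠ 0 := by
    intro h
    have h1 := INJ.Inst.coeff_jd Qb hM0
    rw [h, HahnSeries.coeff_zero] at h1
    exact zero_ne_one h1
  have hs00 : (s0 : LaurentSeries Qb) ≠ 0 := by
    rw [hG.s0]
    exact BR.Inst.TCInt_sS_ne_zero hM0 _
  have hZ0 : ((s0⁻¹ / (1 + ((cJ 2 : ℕ) : FL M) * s0⁻¹) : FL M) : LaurentSeries Qb) =
      (S28.jd Qb M)⁻¹ := by
    have e : ((s0⁻¹ / (1 + ((cJ 2 : ℕ) : FL M) * s0⁻¹) : FL M) : LaurentSeries Qb) =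
        (s0 : LaurentSeries Qb)⁻¹ / (1 + ((cJ 2 : ℕ) : LaurentSeries Qb) *
          (s0 : LaurentSeries Qb)⁻¹) := by
      have := map_div₀ (algebraMap (FL M) (LaurentSeries Qb)) s0⁻¹
        (1 + ((cJ 2 : ℕ) : FL M) * s0⁻¹)
      rw [map_add, map_one, map_mul, map_natCast, map_inv₀] at this
      exact this
    rw [e]
    exact GeoCusp_inv _ _ _ (by rw [hG.s0, sS]) hs00
  apply GeoCusp_sum (algebraMap (FL (M * p)) (LaurentSeries Qb))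
  have e1 : algebraMap (FL (M * p)) (LaurentSeries Qb)
      (ι₁ (s0⁻¹ / (1 + ((cJ 2 : ℕ) : FL M) * s0⁻¹))) = (S28.jd Qb M)⁻¹ := by
    show ((ι₁ _ : FL (M * p)) : LaurentSeries Qb) = _
    rw [hG.maps.ι₁, hZ0]
  have e2 : algebraMap (FL (M * p)) (LaurentSeries Qb)
      (ι₂ (s0⁻¹ / (1 + ((cJ 2 : ℕ) : FL M) * s0⁻¹))) = (S28.jd Qb (p * M))⁻¹ := by
    show ((ι₂ _ : FL (M * p)) : LaurentSeries Qb) = _
    rw [hG.maps.ι₂, hZ0, map_inv₀, S28.jd, S28.tower_Vq_Vq Qb hrP.ne_zero hM0, S28.jd]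
  rw [e1, e2]
  exact hΦ2

end Fermat.Agent.MR.Node

end
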