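import Fermat.Agent.MR.Node.GeoInterface

/-!
# MR / Node / Geo : GEO-CUSPTC (abstract) : the cusps are smooth points

`Stmt_CuspSmooth → Stmt_CuspTC`.  With `ξ = rd x`, `Z0 = x / (1 + e x)`, `ζ0 = ξ / (1 + e ξ)` apply
`Stmt_CuspSmooth` to `Z = ι₁ Z0`, `W = ι₂ Z0`, `ζ = j ζ0`.
-/

set_option autoImplicit false
set_option synthInstance.maxHeartbeats 400000

noncomputable section

namespace Fermat.Agent.MR.Node

open Polynomial IntermediateField AlgebraicCurve ModularCurve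
open Fermat.Agent.INJ (IsInt RedData Arch Chart)
open Fermat.Agent.BR.Inv (TC IsPairData Normal SData SChart SN)

/-- natural numbers lie in `O` and reduce to themselves. -/
theorem CuspTC_rd_natCast {K F k Fb : Type*} [Field K] [Field F] [Algebra K F] [Field k] [Field Fb]
    [Algebra k Fb] (D : RedData K F k Fb) (e : ℕ) : (e : F) ∈ D.O ∧ D.rd (e : F) = (e : Fb) := by
  have h : (e : F) ∈ D.O := natCast_mem D.O e
  refine ⟨h, ?_⟩
  rw [RedData.rd_of_mem h]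
  have : (⟨(e : F), h⟩ : D.O) = ((e : ℕ) : D.O) := by
    apply Subtype.ext
    simp
  rw [this, map_natCast]

/-- `1 + e y ∈ O` reduces to `1 + e (rd y)`. -/
theorem CuspTC_rd_den {K F k Fb : Type*} [Field K] [Field F] [Algebra K F] [Field k] [Field Fb]
    [Algebra k Fb] (D : RedData K F k Fb) (e : ℕ) {y : F} (hy : y ∈ D.O) :
    1 + (e : F) * y ∈ D.O ∧ D.rd (1 + (e : F) * y) = 1 + (e : Fb) * D.rd y := by
  obtain ⟨h1, h2⟩ := CuspTC_rd_natCast D e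
  refine ⟨add_mem (one_mem _) (mul_mem h1 hy), ?_⟩
  rw [RedData.rd_add (one_mem _) (mul_mem h1 hy), RedData.rd_one, RedData.rd_mul h1 hy, h2]

/-- `1 + e ξ ≠ 0` for `ξ` transcendental. -/
theorem CuspTC_den_ne {k L : Type*} [Field k] [Field L] [Algebra k L] {ξ : L}
    (h : Transcendental k ξ) (e : ℕ) : 1 + (e : L) * ξ ≠ 0 := by
  intro h0
  apply h
  refine ⟨1 + (e : k[X]) * X, ?_, ?_⟩
  · intro hp
    have := congrArg (fun p : k[X] => p.coeff 0) hp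
    simp at this
  · simpa using h0

/-- `v (1 + e y) = 1` if `v y < 1`, at a point. -/
theorem CuspTC_val_den {κ : Type*} [Field κ] (x₁ : ValuationSubring κ)
    (e : ℕ) {y : κ} (hy : x₁.valuation y < 1) :
    x₁.valuation (1 + (e : κ) * y) = 1 := by
  have he : x₁.valuation (e : κ) ≤ 1 := by
    rw [ValuationSubring.valuation_le_one_iff]
    exact natCast_mem x₁ e
  have h1 : x₁.valuation ((e : κ) * y) < 1 := by
    rw [map_mul]
    calc x₁.valuation (e : κ) * x₁.valuation y ≤ 1 * x₁.valuation y := mul_le_mul_left he _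
      _ = x₁.valuation y := one_mul _
      _ < 1 := hy
  exact Valuation.map_one_add_of_lt _ h1

/-- membership in `R_s` of `y / (1 + e y)`. -/
theorem CuspTC_mem_Rs {K F k κ : Type*} [Field K] [Field F] [Algebra K F] [Field k] [Field κ]
    [Algebra k κ] (D₁ D₂ : RedData K F k κ) (T : F) (x₁ : ValuationSubring κ) (e : ℕ) {y : F}
    (hy : y ∈ BB D₁ D₂ T) (hv : x₁.valuation (D₁.rd y) < 1) (hne : 1 + (e : F) * y ≠ 0) :
    y / (1 + (e : F) * y) ∈ Rs D₁ D₂ T x₁ := by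
  refine ⟨y, hy, 1 + (e : F) * y, add_mem (one_mem _) (mul_mem (natCast_mem _ e) hy), ?_, ?_⟩
  · rw [(CuspTC_rd_den D₁ e hy.2.1).2]
    exact CuspTC_val_den x₁ e hv
  · exact div_mul_cancel₀ _ hne

/-- **GEO-CUSPTC**. -/
theorem cuspTC (h : Stmt_CuspSmooth) : Stmt_CuspTC := by
  intro K F' F k L κ _ _ _ _ _ _ _ _ _ _ _ D' D₁ D₂ ι₁ ι₂ j Fr φb r tc x pkg c e hc hrel x₁ hpt hval
  have hxO : x ∈ D'.O := pkg.chart.t_mem
  have htr : Transcendental k (D'.rd x) := pkg.chart.trans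
  set ξ : L := D'.rd x with hξ
  have hden : 1 + (e : L) * ξ ≠ 0 := CuspTC_den_ne htr e
  obtain ⟨hdO, hdrd⟩ := CuspTC_rd_den D' e hxO
  rw [← hξ] at hdrd
  have hdrd0 : D'.rd (1 + (e : F') * x) ≠ 0 := by rw [hdrd]; exact hden
  have hd0 : 1 + (e : F') * x ≠ 0 := by
    intro h0
    rw [h0] at hdrd0
    exact hdrd0 RedData.rd_zero
  have hξ0 : ξ ≠ 0 := by
    intro h0
    rw [h0] at htr
    exact htr (isAlgebraic_zero)
  have hZO : x / (1 + (e : F') * x) ∈ D'.O := RedData.div_mem hxO hdrd0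
  have hZrd : D'.rd (x / (1 + (e : F') * x)) = ξ / (1 + (e : L) * ξ) := by
    rw [RedData.rd_div hxO hdrd0, hdrd]
  set Z0 : F' := x / (1 + (e : F') * x) with hZ0
  set ζ0 : L := ξ / (1 + (e : L) * ξ) with hζ0
  have hζ0ne : ζ0 ≠ 0 := div_ne_zero hξ0 hden
  have hφξ : φb ξ = ξ := pkg.fix
  have hφζ : φb ζ0 = ζ0 := by
    rw [hζ0, map_div₀, map_add, map_one, map_mul, map_natCast, hφξ]
  have hFrξ : Fr ξ = ξ ^ r := by
    conv_lhs => rw [← hφξ]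
    exact tc.frob ξ
  have hFrζ : Fr ζ0 = ζ0 ^ r := by
    conv_lhs => rw [← hφζ]
    exact tc.frob ζ0
  have hr0 : r ≠ 0 := by have := tc.two_le; omega
  -- valuations
  have hv1 : x₁.valuation (1 + (e : κ) * j ξ) = 1 := CuspTC_val_den x₁ e hval
  have hjζ : j ζ0 = j ξ / (1 + (e : κ) * j ξ) := by
    rw [hζ0, map_div₀, map_add, map_one, map_mul, map_natCast]
  have hvζ : x₁.valuation (j ζ0) < 1 := by
    rw [hjζ, map_div₀, hv1, div_one]
    exact hval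
  have hτ : j ξ ∈ x₁ := by
    rw [← ValuationSubring.valuation_le_one_iff]
    exact hval.le
  -- membership in `BB`
  have hB1 : ι₁ x ∈ BB D₁ D₂ (ι₁ x * ι₂ x) := ⟨pkg.int₁, (tc.c11 x hxO).1, (tc.c21 x hxO).1⟩
  have hB2 : ι₂ x ∈ BB D₁ D₂ (ι₁ x * ι₂ x) := ⟨pkg.int₂, (tc.c12 x hxO).1, (tc.c22 x hxO).1⟩
  have hι1 : ι₁ Z0 = ι₁ x / (1 + (e : F) * ι₁ x) := by
    rw [hZ0, map_div₀, map_add, map_one, map_mul, map_natCast]
  have hι2 : ι₂ Z0 = ι₂ x / (1 + (e : F) * ι₂ x) := by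
    rw [hZ0, map_div₀, map_add, map_one, map_mul, map_natCast]
  have hne1 : 1 + (e : F) * ι₁ x ≠ 0 := by
    have : ι₁ (1 + (e : F') * x) ≠ 0 := (map_ne_zero ι₁).2 hd0
    rwa [map_add, map_one, map_mul, map_natCast] at this
  have hne2 : 1 + (e : F) * ι₂ x ≠ 0 := by
    have : ι₂ (1 + (e : F') * x) ≠ 0 := (map_ne_zero ι₂).2 hd0
    rwa [map_add, map_one, map_mul, map_natCast] at this
  have hZ : ι₁ Z0 ∈ Rs D₁ D₂ (ι₁ x * ι₂ x) x₁ := by
    rw [hι1]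
    refine CuspTC_mem_Rs D₁ D₂ _ x₁ e hB1 ?_ hne1
    rw [(tc.c11 x hxO).2]
    exact hval
  have hW : ι₂ Z0 ∈ Rs D₁ D₂ (ι₁ x * ι₂ x) x₁ := by
    rw [hι2]
    refine CuspTC_mem_Rs D₁ D₂ _ x₁ e hB2 ?_ hne2
    rw [(tc.c12 x hxO).2, ← hξ, hFrξ, map_pow, map_pow]
    exact pow_lt_one₀ zero_le hval hr0
  refine h K F k κ D₁ D₂ (ι₁ x * ι₂ x) (j ξ) pkg.std.compat pkg.alg r c (ι₁ Z0) (ι₂ Z0) (j ζ0)
    tc.two_le hc ((map_ne_zero j).2 hζ0ne) hrel ?_ ?_ ?_ ?_ x₁ hpt hτ hvζ hZ hW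
  · rw [(tc.c11 Z0 hZO).2, hZrd]
  · rw [(tc.c12 Z0 hZO).2, hZrd, hFrζ, map_pow]
  · rw [(tc.c21 Z0 hZO).2, hZrd, hFrζ, map_pow]
  · rw [(tc.c22 Z0 hZO).2, hZrd]

end Fermat.Agent.MR.Node

end
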