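import Fermat.Agent.MR.Node.GeoInterface
import Fermat.Agent.MR.Node.PlaceFactsAbs

/-!
# MR / Node / GEO-PLACES : `Stmt_PlaceAbs` (helper8, task 1580); the proof is in `PlaceFactsAbs.lean`.
-/

set_option autoImplicit false

namespace Fermat.Agent.MR.Node

/-- **GEO-PLACES**. -/
theorem placeAbs : Stmt_PlaceAbs := fun K F _ _ _ _ _ T hT hfin => placeFacts K F T hT hfin

end Fermat.Agent.MR.Node
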