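import Fermat.Agent.MR.Node.GeoInterface
import Fermat.Agent.BR.Inst.LKf

/-!
# MR / Node / Geo : the residue fields are `k(X₀(M))`
-/

set_option autoImplicit false
set_option synthInstance.maxHeartbeats 400000

noncomputable section

namespace Fermat.Agent.MR.Node

open Polynomial IntermediateField AlgebraicCurve ModularCurve
open Fermat.Agent.INJ (IsInt RedData Arch Chart)
open Fermat.Agent.INJ.Inst (Qb FL kA)
open Fermat.Agent.BR.Inst (IsGaussS IsAL IsTCMaps Ctx twist sS cJ)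
open Fermat.Agent.S28 (Kf)

/-- **GEO-RES**. -/
theorem geoRes (h : Stmt_GeoStd) : Stmt_GeoRes := by
  intro M p _ _ A W L' L₁ D' D₁ ι₁ ι₂ j Fr φb τ s0 hG
  have hctx := hG.ctx
  have : Fact p.Prime := ⟨hctx.hr⟩
  obtain ⟨hj, -⟩ := h M p A W L' L₁ D' D₁ ι₁ ι₂ j Fr φb τ s0 hG
  have h1 : L' = Kf (kA A) M := BR.Inst.stmt_LKf M p hctx.hrM A hctx.hA L' D' hG.g'.gauss
  have h2 : L₁ = L' := by
    apply SetLike.ext
    intro y
    constructor
    · intro hy
      obtain ⟨y', hy'⟩ := hj ⟨y, hy⟩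
      have e : ((j y' : L₁) : LaurentSeries (kA A)) = y := by rw [hy']
      rw [hG.maps.j] at e
      rw [← e]
      exact y'.2
    · intro hy
      have e := hG.maps.j ⟨y, hy⟩
      have e' : ((j ⟨y, hy⟩ : L₁) : LaurentSeries (kA A)) = y := e
      rw [← e']
      exact (j ⟨y, hy⟩).2
  exact ⟨h1, h2.trans h1⟩

end Fermat.Agent.MR.Node

end
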