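import Fermat.Agent.MR.Node.GeoInterface
import Fermat.Agent.BR.Inst.Final

/-!
# MR / Node / Geo : the standing hypotheses on the two charts `s0`, `s0⁻¹` (concrete)
-/

set_option autoImplicit false
set_option synthInstance.maxHeartbeats 400000

noncomputable section

namespace Fermat.Agent.MR.Node

open Polynomial IntermediateField AlgebraicCurve ModularCurve
open Fermat.Agent.INJ (IsInt RedData Arch Chart)
open Fermat.Agent.INJ.Inst (Qb FL kA)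
open Fermat.Agent.BR.Inv (TC IsPairData Normal SData SChart SN)
open Fermat.Agent.BR.Inst (IsGaussS IsAL IsTCMaps Ctx twist sS cJ)

/-- both charts, abstract form. -/
theorem GeoStd_abs (h : Stmt_StdTC) {K F' F k L κ : Type} [Field K] [IsAlgClosed K] [CharZero K]
    [Field F'] [Algebra K F'] [Field F] [Algebra K F] [Field k] [Field L] [Algebra k L] [Field κ]
    [Algebra k κ] (D' : RedData K F' k L) (D₁ D₂ : RedData K F k κ) (ι₁ ι₂ : F' →ₐ[K] F)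
    (j : L →ₐ[k] κ) (Fr : L →+* L) (φb : L ≃+* L) (r : ℕ) (hTC : TC D' D₁ D₂ ι₁ ι₂ j Fr φb r)
    (hArch : Arch D₁) (x : F') (hCh : Chart D' x) (hCh' : Chart D' x⁻¹)
    (hφ : φb (D'.rd x) = D'.rd x) (hN : Normal D' x) (hN' : Normal D' x⁻¹)
    (hi1 : IsInt K (ι₁ x * ι₂ x) (ι₁ x)) (hi2 : IsInt K (ι₁ x * ι₂ x) (ι₂ x))
    (hi3 : IsInt K (ι₁ x * ι₂ x)⁻¹ (ι₁ x)⁻¹) (hi4 : IsInt K (ι₁ x * ι₂ x)⁻¹ (ι₂ x)⁻¹)
    (htr : Transcendental K (ι₁ x * ι₂ x)) (hfin : FiniteDimensional K⟮ι₁ x * ι₂ x⟯ F)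
    (hdeg : Module.finrank K⟮ι₁ x * ι₂ x⟯ F ≤ 2 * ((r + 1) * Module.finrank K⟮x⟯ F')) :
    Function.Surjective j ∧ ChartPkg D' D₁ D₂ ι₁ ι₂ j Fr φb x ∧
      ChartPkg D' D₁ D₂ ι₁ ι₂ j Fr φb x⁻¹ := by
  obtain ⟨hj, h1⟩ := h K F' F k L κ D' D₁ D₂ ι₁ ι₂ j Fr φb r hTC hArch x hCh hφ hN hi1 hi2 htr hfin
    hdeg
  have hX0 : D'.rd x ≠ 0 := by
    intro h0
    have := hCh.trans
    rw [h0] at this
    exact this isAlgebraic_zero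
  have hXi : D'.rd x⁻¹ = (D'.rd x)⁻¹ := RedData.rd_inv hX0
  have hTinv : ι₁ x⁻¹ * ι₂ x⁻¹ = (ι₁ x * ι₂ x)⁻¹ := by rw [map_inv₀, map_inv₀, mul_inv]
  have hfin' : FiniteDimensional K⟮ι₁ x⁻¹ * ι₂ x⁻¹⟯ F := by
    rw [hTinv, S24.adjoin_simple_inv_eq]
    exact hfin
  have hdeg' : Module.finrank K⟮ι₁ x⁻¹ * ι₂ x⁻¹⟯ F ≤
      2 * ((r + 1) * Module.finrank K⟮x⁻¹⟯ F') := by
    rw [hTinv, S24.adjoin_simple_inv_eq, S24.adjoin_simple_inv_eq]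
    exact hdeg
  obtain ⟨-, h2⟩ := h K F' F k L κ D' D₁ D₂ ι₁ ι₂ j Fr φb r hTC hArch x⁻¹ hCh'
    (by rw [hXi, map_inv₀, hφ]) hN' (by rw [hTinv, map_inv₀]; exact hi3)
    (by rw [hTinv, map_inv₀]; exact hi4)
    (by rw [hTinv]; exact S24.transcendental_inv_of_transcendental htr) hfin' hdeg'
  exact ⟨hj, h1, h2⟩

/-- **GEO-STD**. -/
theorem geoStd (h : Stmt_StdTC) : Stmt_GeoStd := by
  intro M p _ _ A W L' L₁ D' D₁ ι₁ ι₂ j Fr φb τ s0 hG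
  have hctx := hG.ctx
  have hrP : p.Prime := hctx.hr
  have : Fact p.Prime := ⟨hrP⟩
  have hM0 : M ≠ 0 := NeZero.ne M
  have hmaps := hG.maps
  have hs0 := hG.s0
  have hs : ((ι₁ s0 : FL (M * p)) : LaurentSeries Qb) = sS M (cJ 2) Qb := by rw [hmaps.ι₁, hs0]
  have hsr : ((ι₂ s0 : FL (M * p)) : LaurentSeries Qb) = sS (M * p) (cJ 2) Qb := by
    rw [hmaps.ι₂, hs0, BR.Inst.GM_Vq_sS Qb hM0 hrP.ne_zero]
  obtain ⟨hCh, hCh', hN1, hN2⟩ :=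
    BR.Inst.all_NormS.1 M p hctx.haM hctx.hrM A hctx.hA L' D' hG.g'.gauss s0 hs0
  have hrd0 : ((D'.rd s0 : L') : LaurentSeries (kA A)) = sS M (cJ 2) (kA A) := by
    have h := (hG.g'.gauss.mem_rd (sS M (cJ 2) A) s0 (by rw [hs0, BR.Inst.GM_coeffMap_sS])).2
    rwa [BR.Inst.GM_coeffMap_sS] at h
  have hφ : φb (D'.rd s0) = D'.rd s0 := by
    apply Subtype.ext
    rw [hmaps.φb, hrd0, BR.Inst.GM_coeffMap_sS]
  obtain ⟨hI1, hI2, hI3, hI4, -, -⟩ := BR.Inst.stmt_TCInt M p (cJ 2) hrP (ι₁ s0) (ι₂ s0) hs hsr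
  obtain ⟨hfin, hdeg⟩ :=
    BR.Inst.all_TCDeg M p (cJ 2) hrP hctx.hrM W hG.al s0 (ι₁ s0) (ι₂ s0) hs0 hs hsr
  have hArch : Arch D₁ := INJ.Inst.AR36_stmt_ArchD (M * p) p A hctx.hA L₁ D₁ hG.g₁.gauss
  have htrs : Transcendental Qb (ι₁ s0) :=
    INJ.Inst.transcendental_of_coe (by rw [hs]; exact BR.Inst.GM_transcendental_sS hM0 (cJ 2) Qb)
  have htrT : Transcendental Qb (ι₁ s0 * ι₂ s0) := BR.Inst.GM_transcendental_of_isInt htrs hI1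
  obtain ⟨h1, h2, h3⟩ := GeoStd_abs h D' D₁ (twist D₁ W) ι₁ ι₂ j Fr φb p hG.tc hArch s0 hCh hCh' hφ
    hN1 hN2 hI1 hI2 hI3 hI4 htrT hfin hdeg
  exact ⟨h1, hArch, h2, h3⟩

end Fermat.Agent.MR.Node

end
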