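import Fermat.Agent.MR.Node.GeoInterface
import Fermat.Agent.BR.Inv.TCAll

/-!
# MR / Node / Geo : the standing hypotheses on a chart of the two copies package (abstract)
-/

set_option autoImplicit false

namespace Fermat.Agent.MR.Node

open Polynomial IntermediateField AlgebraicCurve
open Fermat.Agent.INJ (IsInt RedData Arch Chart)
open Fermat.Agent.BR.Inv (TC IsPairData Normal SData SChart SN)

theorem StdTC_isInt_self {K F : Type*} [Field K] [Field F] [Algebra K F] (T : F) : IsInt K T T := by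
  have h : IsIntegral (Algebra.adjoin K {T})
      (algebraMap (Algebra.adjoin K {T}) F ⟨T, Algebra.self_mem_adjoin_singleton K T⟩) :=
    isIntegral_algebraMap
  exact h

/-- **GEO-STDTC**. -/
theorem stdTC (hC : Stmt_Compat) (hB : Stmt_BBFin) (hP : Stmt_PlaceAbs) : Stmt_StdTC := by
  intro K F' F k L κ _ _ _ _ _ _ _ _ _ _ _ _ D' D₁ D₂ ι₁ ι₂ j Fr φb r hTC hArch x hCh hφ hN hi1 hi2
    htr hfin hdeg
  have hxO := hCh.t_mem
  have hXtr := hCh.trans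
  have hPair := BR.Inv.stmt_TCPair K F' F k L κ D' D₁ D₂ ι₁ ι₂ j Fr φb r hTC x hxO hXtr hφ
  obtain ⟨S, hSA, hSra, hSmem, hSrd, -, hSunit⟩ := BR.Inv.stmt_OfPair K F k κ κ D₁ D₂ hPair hArch
  have hIP : IsPairData D₁ D₂ S := ⟨hSA, hSra, hSmem, hSrd, hSunit⟩
  obtain ⟨hSC, hjs⟩ := BR.Inv.stmt_TCChart BR.Inv.stmt_SGauss BR.Inv.GAll_SOrtho BR.Inv.stmt_TCIndep
    K F' F k L κ D' D₁ D₂ ι₁ ι₂ j Fr φb r hTC S hIP x hCh hφ hfin hdeg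
  obtain ⟨hSN, -⟩ := BR.Inv.stmt_TCSN BR.Inv.stmt_TCLift BR.Inv.stmt_TCIdeal
    K F' F k L κ D' D₁ D₂ ι₁ ι₂ j Fr φb r hTC hjs S hIP x hxO hXtr hφ hN hi1 hi2
  obtain ⟨hCo, hl1, hl2⟩ := hC K F' F k L κ D' D₁ D₂ ι₁ ι₂ j Fr φb r hTC hjs S hIP x hCh hφ hN hSC
    hi1 hi2
  have hT : ι₁ x * ι₂ x ∈ BB D₁ D₂ (ι₁ x * ι₂ x) :=
    ⟨StdTC_isInt_self _, mul_mem (hTC.c11 x hxO).1 (hTC.c12 x hxO).1,
      mul_mem (hTC.c21 x hxO).1 (hTC.c22 x hxO).1⟩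
  refine ⟨hjs, hCh, hN, hφ, ⟨hCo, hArch, hT, hP K F _ htr hfin, ?_⟩, hi1, hi2, ?_, hl1, hl2⟩
  · exact hB K F k κ D₁ D₂ S hIP _ hSC hSN
  · exact Algebra.IsAlgebraic.of_finite _ _

end Fermat.Agent.MR.Node
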