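import Fermat.Agent.MR.Node.Interface

/-!
# MR / Node, task NODE-C4 (helper77): `rd₂ a` is a uniformiser (`Stmt_N3`)
-/

set_option autoImplicit false

namespace Fermat.Agent.MR.Node

open Fermat.Agent.INJ (IsInt RedData)

/-- an element integral over `k[τ]` is regular at every point where `τ` is regular. -/
theorem N3_mem_of_isInt {k κ : Type} [Field k] [Field κ] [Algebra k κ] (x : ValuationSubring κ)
    (hk : ∀ c : k, algebraMap k κ c ∈ x) {τ f : κ} (hτ : τ ∈ x) (hf : IsInt k τ f) : f ∈ x := by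
  have hle : ∀ z ∈ Algebra.adjoin k {τ}, z ∈ x := by
    intro z hz
    induction hz using Algebra.adjoin_induction with
    | mem y hy => rw [Set.mem_singleton_iff.1 hy]; exact hτ
    | algebraMap c => exact hk c
    | add y z _ _ hy hz => exact add_mem hy hz
    | mul y z _ _ hy hz => exact mul_mem hy hz
  let φ : Algebra.adjoin k {τ} →+* x :=
    { toFun := fun z => ⟨z.1, hle z.1 z.2⟩
      map_one' := rfl
      map_mul' := fun _ _ => rfl
      map_zero' := rfl
      map_add' := fun _ _ => rfl }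
  have h1 : IsIntegral x f := by
    have := IsIntegral.map_of_comp_eq (R := Algebra.adjoin k {τ}) (S := κ) (T := x) (U := κ) φ
      (RingHom.id κ) (by ext z; rfl) hf
    exact this
  obtain ⟨y, hy⟩ := IsIntegrallyClosed.algebraMap_eq_of_integral h1
  rw [← hy]
  exact y.2

theorem n3 : Stmt_N3 := by
  intro K F k κ _ _ _ _ _ _ D₁ D₂ T τ hC x₁ x₂ hN a b h ϖ hϖ ha hb hab ha1 ha2 hh hhϖ hu
  have hϖF : algebraMap K F ϖ ≠ 0 := by
    rw [Ne, map_eq_zero]
    exact hϖ
  have ha0 : a ≠ 0 := by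
    rintro rfl
    rw [zero_mul] at hab
    exact hϖF hab.symm
  -- `q = h / a`
  have hq1 : h / a = h * b * algebraMap K F ϖ⁻¹ := by
    rw [map_inv₀, ← hab]
    have hb0 : b ≠ 0 := by
      rintro rfl
      rw [mul_zero] at hab
      exact hϖF hab.symm
    field_simp
  have hq2 : h / a = h / algebraMap K F ϖ * b := by
    rw [hq1, map_inv₀]
    ring
  have hqB : h / a ∈ BB D₁ D₂ T := by
    refine ⟨?_, ?_, ?_⟩
    · rw [hq1]
      refine IsIntegral.mul (IsIntegral.mul hh.1 hb.1) ?_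
      have : algebraMap K F ϖ⁻¹ = algebraMap (Algebra.adjoin K {T}) F
          (algebraMap K (Algebra.adjoin K {T}) ϖ⁻¹) := rfl
      rw [this]
      exact isIntegral_algebraMap
    · rw [hq2]
      exact mul_mem hhϖ hb.2.1
    · rw [div_eq_mul_inv]
      exact mul_mem hh.2.2 (RedData.inv_mem_of_rd_ne_zero ha2)
  have hrd : D₂.rd h = D₂.rd a * D₂.rd (h / a) := by
    rw [← RedData.rd_mul ha.2.2 hqB.2.2, mul_div_cancel₀ _ ha0]
  have hqx : D₂.rd (h / a) ∈ x₂ :=
    N3_mem_of_isInt x₂ hN.pt₂.const hN.τ₂ (hC.int₂ _ hqB)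
  refine ⟨ha2, ?_, fun f hf => ?_⟩
  · rw [← hN.same a ha, ha1, map_zero]
    exact zero_lt_one
  · have h1 := hu.2.2 f hf
    have h2 : f / D₂.rd a = f / D₂.rd h * D₂.rd (h / a) := by
      have h3 : D₂.rd (h / a) ≠ 0 := by
        intro h0
        rw [h0, mul_zero] at hrd
        exact hu.1 hrd
      rw [hrd]
      field_simp
    rw [h2]
    exact mul_mem h1 hqx

end Fermat.Agent.MR.Node
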