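import Fermat.Agent.MR.Node.Interface
import Fermat.Agent.BR.Inv.TC5
import Fermat.Agent.BR.Inst.Defs

/-!
# MR / Node : NODE-F2, `rd₂ a` is a uniformiser at every node (`Stmt_UnifA`)
-/

set_option autoImplicit false

namespace Fermat.Agent.MR.Node

open Fermat.Agent.INJ (IsInt RedData)
open Fermat.Agent.BR.Inv (TC)

/-- integrality is reflected by a bijective algebra homomorphism. -/
theorem UnifA_isInt_of_map {k L κ : Type*} [Field k] [Field L] [Algebra k L] [Field κ]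
    [Algebra k κ] (j : L →ₐ[k] κ) (hj : Function.Surjective j) {t c : L}
    (h : IsInt k (j t) (j c)) : IsInt k t c := by
  let je : L ≃ₐ[k] κ := AlgEquiv.ofBijective j ⟨j.toRingHom.injective, hj⟩
  have h1 := BR.Inst.isInt_map (je.symm : κ →ₐ[k] L) h
  have e : ∀ y : L, (je.symm : κ →ₐ[k] L) (j y) = y := fun y => je.symm_apply_apply y
  rwa [e, e] at h1

theorem unifA (hU : Stmt_PtUnif) (hF : Stmt_FrobPt) (hN : Stmt_N3) : Stmt_UnifA := by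
  intro K F' F k L κ _ _ _ _ _ _ _ _ _ _ _ _ D' D₁ D₂ ι₁ ι₂ j Fr φb r htc hjs x hφx hC hi1 hi2
    h12 h21 hFC a ha b hb hab ha1 ha2 x₁ x₂ hnode
  obtain ⟨⟨π, hπi, hπu⟩, -, -⟩ :=
    hU k κ (j (D'.rd x)) hC.trans hC.fin hC.sep x₂ hnode.pt₂ hnode.τ₂
  obtain ⟨c, rfl⟩ := hjs π
  have hc : IsInt k (D'.rd x) c := UnifA_isInt_of_map j hjs hπi
  have hf : IsInt k (D'.rd x) (φb.symm c) := BR.Inv.TC5_isInt_symm hφx htc.φk' hc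
  obtain ⟨g, g', ⟨hg, hg', hgi, hgi', hrd', hdiv⟩, hgf⟩ := hFC (φb.symm c) hf
  have hrdg' : D'.rd g' = c := by rw [hrd', hgf, RingEquiv.apply_symm_apply]
  -- `h = ι₁ g ^ r - ι₂ g'`
  have hI1 : IsInt K (ι₁ x * ι₂ x) (ι₁ g) := BR.Inst.isInt_trans hi1 (BR.Inst.isInt_map ι₁ hgi)
  have hI2 : IsInt K (ι₁ x * ι₂ x) (ι₂ g') := BR.Inst.isInt_trans hi2 (BR.Inst.isInt_map ι₂ hgi')
  have hB1 : ι₁ g ∈ BB D₁ D₂ (ι₁ x * ι₂ x) := ⟨hI1, (htc.c11 g hg).1, (htc.c21 g hg).1⟩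
  have hB2 : ι₂ g' ∈ BB D₁ D₂ (ι₁ x * ι₂ x) := ⟨hI2, (htc.c12 g' hg').1, (htc.c22 g' hg').1⟩
  have hh : ι₁ g ^ r - ι₂ g' ∈ BB D₁ D₂ (ι₁ x * ι₂ x) := sub_mem (pow_mem hB1 r) hB2
  have hrd2 : D₂.rd (ι₁ g ^ r - ι₂ g') = j (Fr (Fr c) - c) := by
    rw [RedData.rd_sub (pow_mem hB1.2.2 r) hB2.2.2, RedData.rd_pow hB1.2.2, (htc.c21 g hg).2,
      (htc.c22 g' hg').2, hrdg', hgf, ← map_pow, ← map_pow, ← htc.frob,
      RingEquiv.apply_symm_apply, map_sub]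
  have hr0 : (r : K) ≠ 0 := Nat.cast_ne_zero.2 (by have := htc.two_le; omega)
  have hunif : IsUnifAt x₂ (j (Fr (Fr c) - c)) :=
    hF K F' F k L κ D' D₁ D₂ ι₁ ι₂ j Fr φb r htc x hφx h12 h21 x₁ x₂ hnode c hc hπu
  exact hN K F k κ D₁ D₂ (ι₁ x * ι₂ x) (j (D'.rd x)) hC x₁ x₂ hnode a b (ι₁ g ^ r - ι₂ g') (r : K)
    hr0 ha hb hab ha1 ha2 hh hdiv (by rw [hrd2]; exact hunif)

end Fermat.Agent.MR.Node
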