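import Fermat.Agent.MR.Node.FrobInterface

/-!
# MR / Node / Frob : (NODE-F6) the mirror image of `Stmt_UnifA` (task 1590, tag `UB_`)

`unifB : Stmt_UnifA → Stmt_UnifB`, pure symmetry.
-/

set_option autoImplicit false
set_option synthInstance.maxHeartbeats 400000

namespace Fermat.Agent.MR.Node

open Fermat.Agent
open Fermat.Agent.INJ (IsInt RedData)
open Fermat.Agent.BR.Inv (TC)

section UB

variable {K F' F k L κ : Type} [Field K] [Field F'] [Algebra K F'] [Field F] [Algebra K F]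
  [Field k] [Field L] [Algebra k L] [Field κ] [Algebra k κ]

theorem UB_TC_swap {D' : RedData K F' k L} {D₁ D₂ : RedData K F k κ} {ι₁ ι₂ : F' →ₐ[K] F}
    {j : L →ₐ[k] κ} {Fr : L →+* L} {φb : L ≃+* L} {r : ℕ} (h : TC D' D₁ D₂ ι₁ ι₂ j Fr φb r) :
    TC D' D₂ D₁ ι₂ ι₁ j Fr φb r where
  A₁ := h.A₂
  A₂ := h.A₁
  ra₁ := h.ra₂
  ra₂ := h.ra₁
  c11 := h.c22
  c12 := h.c21
  c21 := h.c12
  c22 := h.c11
  frob := h.frob
  two_le := h.two_le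
  φk := h.φk
  φk' := h.φk'

theorem UB_BB_swap (D₁ D₂ : RedData K F k κ) (T : F) : BB D₂ D₁ T = BB D₁ D₂ T := by
  ext z
  rw [mem_BB, mem_BB]
  constructor
  · rintro ⟨h1, h2, h3⟩
    exact ⟨h1, h3, h2⟩
  · rintro ⟨h1, h2, h3⟩
    exact ⟨h1, h3, h2⟩

theorem UB_Compat_swap {D₁ D₂ : RedData K F k κ} {T : F} {τ : κ} (h : Compat D₁ D₂ T τ) :
    Compat D₂ D₁ T τ where
  A_eq := h.A_eq.symm
  ra_eq := fun a => (h.ra_eq a).symm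
  trans := h.trans
  fin := h.fin
  sep := h.sep
  int₁ := fun z hz => h.int₂ z (by rwa [UB_BB_swap] at hz)
  int₂ := fun z hz => h.int₁ z (by rwa [UB_BB_swap] at hz)
  surj₁ := fun f hf => by
    obtain ⟨ξ, hξ, h1⟩ := h.surj₂ f hf
    exact ⟨ξ, by rwa [UB_BB_swap], h1⟩
  surj₂ := fun f hf => by
    obtain ⟨ξ, hξ, h1⟩ := h.surj₁ f hf
    exact ⟨ξ, by rwa [UB_BB_swap], h1⟩

theorem UB_IsNode_swap {D₁ D₂ : RedData K F k κ} {T : F} {τ : κ} {x₁ x₂ : ValuationSubring κ}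
    (h : IsNode D₁ D₂ T τ x₁ x₂) : IsNode D₂ D₁ T τ x₂ x₁ where
  pt₁ := h.pt₂
  pt₂ := h.pt₁
  τ₁ := h.τ₂
  τ₂ := h.τ₁
  same := fun z hz => (h.same z (by rwa [UB_BB_swap] at hz)).symm

end UB

/-- **NODE-F6**. -/
theorem unifB (h : Stmt_UnifA) : Stmt_UnifB := by
  intro K F' F k L κ _ _ _ _ _ _ _ _ _ _ _ _ D' D₁ D₂ ι₁ ι₂ j Fr φb r hTC hj x hx hC hi1 hi2 hA hB
    hFr a ha b hb hab hb2 hb1 x₁ x₂ hN
  have e : ι₂ x * ι₁ x = ι₁ x * ι₂ x := mul_comm _ _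
  have key := h K F' F k L κ D' D₂ D₁ ι₂ ι₁ j Fr φb r (UB_TC_swap hTC) hj x hx
  rw [e] at key
  refine key (UB_Compat_swap hC) hi2 hi1 ?_ ?_ hFr b (by rwa [UB_BB_swap]) a (by rwa [UB_BB_swap])
    (by rw [mul_comm]; exact hab) hb2 hb1 x₂ x₁ (UB_IsNode_swap hN)
  · intro c hc
    obtain ⟨ξ, hξ, h1, h2⟩ := hB c hc
    exact ⟨ξ, by rwa [UB_BB_swap], h2, h1⟩
  · intro c hc
    obtain ⟨ξ, hξ, h1, h2⟩ := hA c hc
    exact ⟨ξ, by rwa [UB_BB_swap], h2, h1⟩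

end Fermat.Agent.MR.Node
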