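import Fermat.Agent.MR.Node.Geo
import Fermat.Agent.MR.Node.GeoStdTC
import Fermat.Agent.MR.Node.GeoStd
import Fermat.Agent.MR.Node.GeoRes
import Fermat.Agent.MR.Node.GeoCusp
import Fermat.Agent.MR.Node.GeoCuspTC
import Fermat.Agent.MR.Node.GeoPlaces
import Fermat.Agent.MR.Node.CompatTC
import Fermat.Agent.MR.Node.BBFin
import Fermat.Agent.MR.Node.BBNormal
import Fermat.Agent.MR.Node.CuspSmooth
import Fermat.Agent.MR.Node.Dich
import Fermat.Agent.MR.Node.RingR
import Fermat.Agent.MR.Node.PtRes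
import Fermat.Agent.MR.Node.PtUnif
import Fermat.Agent.MR.Node.FrobPt
import Fermat.Agent.MR.Node.N3
import Fermat.Agent.MR.Node.UnifA
import Fermat.Agent.MR.Node.UnifB

/-!
# MR / Node / Geo : unconditional forms; `Stmt_Geo` from the Frobenius congruence `Stmt_FrobEx`
-/

set_option autoImplicit false

namespace Fermat.Agent.MR.Node

theorem all_StdTC : Stmt_StdTC := stdTC compat bbFin placeAbs

theorem all_GeoStd : Stmt_GeoStd := geoStd all_StdTC

theorem all_GeoRes : Stmt_GeoRes := geoRes all_GeoStd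

theorem all_CuspSmooth : Stmt_CuspSmooth :=
  cuspSmooth (dich ptRes) bbNormal (ringR ptRes) ringR2

theorem all_CuspTC : Stmt_CuspTC := cuspTC all_CuspSmooth

theorem all_GeoCusp : Stmt_GeoCusp := geoCusp all_GeoStd all_CuspTC

theorem all_UnifA : Stmt_UnifA := unifA ptUnif frobPt n3

theorem all_UnifB : Stmt_UnifB := unifB all_UnifA

/-- **[GEO]** from the Frobenius congruence. -/
theorem geo_of_FrobEx (h : Stmt_FrobEx) : Stmt_Geo :=
  geo all_GeoStd all_GeoRes all_GeoCusp all_UnifA all_UnifB h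

end Fermat.Agent.MR.Node
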