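import Fermat.Agent.MR.Node.GeoInterface
import Fermat.Agent.S24.PlaceBasic

/-!
# MR / Node / Geo : GEO-CONCL, abstract local-to-global   (helper3)
-/

set_option autoImplicit false

namespace Fermat.Agent.MR.Node

open Polynomial IntermediateField AlgebraicCurve
open Fermat.Agent.INJ (IsInt RedData Arch Chart)
open Fermat.Agent

/-- an element of valuation one at a place has order zero. -/
theorem Concl_ord_eq_zero {k κ : Type*} [Field k] [Field κ] [Algebra k κ] (x : Place k κ) {f : κ}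
    (h : x.toValuationSubring.valuation f = 1) : x.ord f = 0 := by
  have h1 : f ∈ x.toValuationSubring := (ValuationSubring.valuation_le_one_iff _ _).1 h.le
  have h2 : f⁻¹ ∈ x.toValuationSubring := by
    apply (ValuationSubring.valuation_le_one_iff _ _).1
    rw [map_inv₀, h, inv_one]
  have a1 := S24.ord_nonneg_of_mem x h1
  have a2 := S24.ord_nonneg_of_mem x h2
  rw [Place.ord_inv] at a2
  omega

/-- the smooth case, on any chart. -/
theorem Concl_smooth (hU : Stmt_PtUnif) (hS : Stmt_ShapeOrd) {K F k κ : Type} [Field K] [Field F]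
    [Algebra K F] [Field k] [IsAlgClosed k] [Field κ] [Algebra k κ] (D₁ D₂ : RedData K F k κ)
    (T : F) (τ : κ) (hC : Compat D₁ D₂ T τ) (p : ℕ) (u : F) (c : K)
    (hcu : D₁.rd (algebraMap K F c * u) ≠ 0)
    (hsm : ∀ x₁ : ValuationSubring κ, IsSmooth D₁ D₂ T τ x₁ → ∀ ϑ ∈ BB D₁ D₂ T,
        IsUnifAt x₁ (D₁.rd ϑ) → ∃ m : ℤ,
        PL.Shape K D₁.O ϑ (Rs D₁ D₂ T x₁) (ns D₁ D₂ T x₁) u (p * m))
    (x : Place k κ) (hx : IsSmooth D₁ D₂ T τ x.toValuationSubring) :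
    (p : ℤ) ∣ x.ord (D₁.rd (algebraMap K F c * u)) := by
  obtain ⟨⟨π, hπi, hπu⟩, -, -⟩ := hU k κ τ hC.trans hC.fin hC.sep x.toValuationSubring hx.pt hx.τ₁
  obtain ⟨ϑ, hϑ, hϑπ⟩ := hC.surj₁ π hπi
  rw [← hϑπ] at hπu
  obtain ⟨m, hm⟩ := hsm _ hx ϑ hϑ hπu
  rw [hS K F k κ D₁ D₂ T τ hC x hx.τ₁ ϑ u (p * m) c hπu.1 hm hcu, mul_assoc]
  exact dvd_mul_right _ _

theorem concl (hD : Stmt_Dich) (hU : Stmt_PtUnif) (hS : Stmt_ShapeOrd) (hB : Stmt_SmoothB) :
    Stmt_Concl := by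
  intro K F k κ _ _ _ _ _ _ _ D₁ D₂ T₁ T₂ τ hC1 hC2 hArch hcusp p a b ϖ ha hb hϖ hab hrb u c δ hcu
    hnode hsm1 hsm2 x
  have hpt : IsPt k x.toValuationSubring := ⟨x.algebraMap_mem', x.ne_top'⟩
  refine ⟨fun hτ => ?_, fun hτ => ?_⟩
  · rcases hD K F k κ D₁ D₂ T₁ τ hC1 x.toValuationSubring hpt hτ with ⟨x₂, hn⟩ | hs
    · obtain ⟨m, hm⟩ := hnode _ x₂ hn
      rw [hS K F k κ D₁ D₂ T₁ τ hC1 x hτ b u (δ + p * m) c hrb hm hcu]
      exact ⟨m * x.ord (D₁.rd b), by ring⟩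
    · have h1 := Concl_smooth hU hS D₁ D₂ T₁ τ hC1 p u c hcu hsm1 x hs
      have h2 : x.ord (D₁.rd b) = 0 :=
        Concl_ord_eq_zero x (hB K F k κ D₁ D₂ T₁ τ hC1 hArch _ hs a ha b hb ϖ hϖ hab hrb)
      rw [h2, mul_zero, sub_zero]
      exact h1
  · have hlt : x.toValuationSubring.valuation τ⁻¹ < 1 := by
      have h1 : 1 < x.toValuationSubring.valuation τ := by
        rw [← not_le, ValuationSubring.valuation_le_one_iff]
        exact hτ
      rw [map_inv₀]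
      exact inv_lt_one_of_one_lt₀ h1
    exact Concl_smooth hU hS D₁ D₂ T₂ τ⁻¹ hC2 p u c hcu hsm2 x (hcusp _ hpt hlt)

end Fermat.Agent.MR.Node
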