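import Fermat.Agent.MR.Node.GeoAll
import Fermat.Agent.MR.Node.FrobEx

/-!
# MR / Node / Geo : `Stmt_Geo`, unconditional
-/

set_option autoImplicit false

namespace Fermat.Agent.MR.Node

/-- **[GEO]**, unconditional. -/
theorem all_Geo : Stmt_Geo := geo_of_FrobEx frobEx

end Fermat.Agent.MR.Node
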