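import Fermat.Agent.MR.Node.GeoInterface
import Fermat.Agent.ORD.Dep.GOApi

/-!
# MR / Node / Geo : GEO-REDTO, `Skel.RedTo` in terms of the Gauss datum
-/

set_option autoImplicit false
set_option synthInstance.maxHeartbeats 400000

noncomputable section

namespace Fermat.Agent.MR.Node

open Polynomial IntermediateField AlgebraicCurve ModularCurve
open Fermat.Agent.INJ (IsInt RedData Arch Chart)
open Fermat.Agent.INJ.Inst (Qb FL kA)
open Fermat.Agent.BR.Inst (IsGaussS)
open Fermat.Agent.S28 (Kf)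

theorem RedTo_rd_eq {N : ℕ} {A : ValuationSubring Qb}
    {L : IntermediateField (kA A) (LaurentSeries (kA A))} {D : RedData Qb (FL N) (kA A) L}
    (hD : IsGaussS N A L D) (x : FL N) (hx : x ∈ D.O) :
    ORD.Dep.rd A (x : LaurentSeries Qb) = ((D.rd x : L) : LaurentSeries (kA A)) := by
  obtain ⟨f, g, hg, he⟩ := hD.exists_ratio x hx
  have hr : INJ.Inst.Gauss.IsRatio (IsLocalRing.residue A) (x : LaurentSeries Qb) f g := ⟨hg, he⟩
  rw [ORD.Dep.rd_eq hr, (hD.ratio x f g hg he).2]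

theorem RedTo_mem_of_GO {N : ℕ} {A : ValuationSubring Qb}
    {L : IntermediateField (kA A) (LaurentSeries (kA A))} {D : RedData Qb (FL N) (kA A) L}
    (hD : IsGaussS N A L D) (x : FL N) (h : ORD.Dep.GO A (x : LaurentSeries Qb)) : x ∈ D.O := by
  obtain ⟨f, g, hg, he⟩ := h
  exact (hD.ratio x f g hg he).1

theorem RedTo_coe (N : ℕ) (c : Qb) (u : FL N) :
    ((algebraMap Qb (FL N) c * u : FL N) : LaurentSeries Qb)
      = ORD.Dep.cst c * (u : LaurentSeries Qb) := rfl

/-- **GEO-REDTO**. -/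
theorem geoRedTo : Stmt_GeoRedTo := by
  intro M p A D₁ hD
  constructor
  · intro u c h
    refine ⟨h, c, ?_, ?_⟩
    · rintro rfl
      rw [map_zero, zero_mul] at h
      exact h RedData.rd_zero
    · rw [← RedTo_coe]
      exact RedTo_rd_eq hD _ (RedData.mem_of_rd_ne_zero h)
  · rintro u ub ⟨hub0, c, hc, hcu⟩
    refine ⟨c, hc, ?_⟩
    have hub0' : (ub : LaurentSeries (kA A)) ≠ 0 := fun h => hub0 (Subtype.ext h)
    have hGO : ORD.Dep.GO A (ORD.Dep.cst c * (u : LaurentSeries Qb)) :=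
      ORD.Dep.GO_of_rd_ne_zero (by rw [hcu]; exact hub0')
    rw [← RedTo_coe] at hGO hcu
    apply Subtype.ext
    rw [← RedTo_rd_eq hD _ (RedTo_mem_of_GO hD _ hGO), hcu]

end Fermat.Agent.MR.Node

end
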