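import Fermat.Agent.MR.Node.GeoInterface
import Fermat.Agent.MR.Node.RingR
import Fermat.Agent.S24.PlaceBasic

/-!
# MR / Node / Geo : GEO-SHAPE (`Stmt_ShapeOrd`) and GEO-SMOOTHB (`Stmt_SmoothB`)   (helper93)
-/

set_option autoImplicit false

namespace Fermat.Agent.MR.Node

open AlgebraicCurve
open Fermat.Agent.INJ (IsInt RedData Arch)

section

variable {K F k κ : Type*} [Field K] [Field F] [Algebra K F] [Field k] [Field κ] [Algebra k κ]

/-- reduction of an integral power of a unit. -/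
theorem Shape_rd_zpow (D : RedData K F k κ) {t : F} (ht : D.rd t ≠ 0) (m : ℤ) :
    t ^ m ∈ D.O ∧ D.rd (t ^ m) = D.rd t ^ m := by
  have htO := RedData.mem_of_rd_ne_zero ht
  obtain ⟨n, rfl | rfl⟩ := m.eq_nat_or_neg
  · rw [zpow_natCast, zpow_natCast]
    exact ⟨pow_mem htO n, RedData.rd_pow htO n⟩
  · rw [zpow_neg, zpow_neg, zpow_natCast, zpow_natCast]
    have h1 : D.rd (t ^ n) ≠ 0 := by
      rw [RedData.rd_pow htO n]
      exact pow_ne_zero _ ht
    exact ⟨RedData.inv_mem_of_rd_ne_zero h1, by rw [RedData.rd_inv h1, RedData.rd_pow htO n]⟩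

/-- `|e - 1| < 1` gives `rd e = 1`. -/
theorem Shape_rd_one (D : RedData K F k κ) {e : F} (he : D.O.valuation (e - 1) < 1) :
    e ∈ D.O ∧ D.rd e = 1 := by
  have h1 : e - 1 ∈ D.O := (ValuationSubring.valuation_le_one_iff _ _).1 he.le
  have h2 : D.rd (e - 1) = 0 :=
    RingR_rd_of_nonunit D ((ValuationSubring.mem_nonunits_iff _).2 he)
  have h3 : e = (e - 1) + 1 := by ring
  refine ⟨by rw [h3]; exact add_mem h1 (one_mem _), ?_⟩
  rw [h3, RedData.rd_add h1 (one_mem _), h2, RedData.rd_one, zero_add]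

/-- an element of valuation one has order zero. -/
theorem Shape_ord_eq_zero (x : Place k κ) {f : κ} (hf : x.toValuationSubring.valuation f = 1) :
    x.ord f = 0 := by
  have h1 : f ∈ x.toValuationSubring := (ValuationSubring.valuation_le_one_iff _ _).1 hf.le
  have h2 : f⁻¹ ∈ x.toValuationSubring := by
    rw [← ValuationSubring.valuation_le_one_iff, map_inv₀, hf, inv_one]
  have h3 := Fermat.Agent.S24.ord_nonneg_of_mem x h1
  have h4 := Fermat.Agent.S24.ord_nonneg_of_mem x h2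
  rw [x.ord_inv] at h4
  omega

end

/-- **GEO-SHAPE**, without hypotheses. -/
theorem Shape_shapeOrd : Stmt_ShapeOrd := by
  intro K F k κ _ _ _ _ _ _ _ D₁ D₂ T τ hC x hτ t u m c ht hSh hne
  obtain ⟨c₀, e, r, hc₀, he, hr, hrn, hu⟩ := hSh
  have hpt : IsPt k x.toValuationSubring := ⟨x.algebraMap_mem', x.ne_top'⟩
  obtain ⟨heO, hre⟩ := Shape_rd_one D₁ he
  obtain ⟨htO, hrt⟩ := Shape_rd_zpow D₁ ht m
  have hrO : r ∈ D₁.O := RingR_mem_O _ hr
  have hr1 : x.toValuationSubring.valuation (D₁.rd r) = 1 := by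
    refine le_antisymm ((ValuationSubring.valuation_le_one_iff _ _).2
      (RingR_rd_mem hC hpt hτ hr)) ?_
    rw [← not_lt]
    exact fun h => hrn ((RingR_mem_ns_iff hr).2 h)
  have hr0 : D₁.rd r ≠ 0 := by
    intro h0
    rw [h0, map_zero] at hr1
    exact zero_ne_one hr1
  have hwO : t ^ m * e * r ∈ D₁.O := mul_mem (mul_mem htO heO) hrO
  have hrw : D₁.rd (t ^ m * e * r) = D₁.rd t ^ m * D₁.rd r := by
    rw [RedData.rd_mul (mul_mem htO heO) hrO, RedData.rd_mul htO heO, hrt, hre, mul_one]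
  have htm0 : D₁.rd t ^ m ≠ 0 := zpow_ne_zero _ ht
  have hrw0 : D₁.rd (t ^ m * e * r) ≠ 0 := by
    rw [hrw]
    exact mul_ne_zero htm0 hr0
  have hw0 : t ^ m * e * r ≠ 0 := by
    intro h0
    rw [h0] at hrw0
    exact hrw0 RedData.rd_zero
  have heq : algebraMap K F c * u = algebraMap K F (c * c₀) * (t ^ m * e * r) := by
    rw [hu, map_mul]
    ring
  have hcO : algebraMap K F (c * c₀) ∈ D₁.O := by
    have h1 : algebraMap K F (c * c₀) = (algebraMap K F c * u) / (t ^ m * e * r) := by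
      rw [heq, mul_div_assoc, div_self hw0, mul_one]
    rw [h1]
    exact RedData.div_mem (RedData.mem_of_rd_ne_zero hne) hrw0
  have hcA : c * c₀ ∈ D₁.A := (D₁.mem_iff _).1 hcO
  have hrd : D₁.rd (algebraMap K F c * u)
      = algebraMap k κ (D₁.ra (c * c₀)) * (D₁.rd t ^ m * D₁.rd r) := by
    rw [heq, RedData.rd_mul hcO hwO, hrw, RedData.rd_algebraMap hcA]
  have hc0 : algebraMap k κ (D₁.ra (c * c₀)) ≠ 0 := by
    intro h0
    rw [hrd, h0, zero_mul] at hne
    exact hne rfl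
  rw [hrd, x.ord_mul hc0 (mul_ne_zero htm0 hr0), x.ord_mul htm0 hr0,
    Fermat.Agent.S24.ord_algebraMap, x.ord_zpow, Shape_ord_eq_zero x hr1]
  ring

/-- **GEO-SHAPE**. -/
theorem shapeOrd (_hR : Stmt_RingR) : Stmt_ShapeOrd := Shape_shapeOrd

/-- **GEO-SMOOTHB**. -/
theorem smoothB : Stmt_SmoothB := by
  intro K F k κ _ _ _ _ _ _ D₁ D₂ T τ hC hA x₁ hS a ha b hb ϖ hϖ hab hrb
  obtain ⟨e, he, he2, he1⟩ := hS.sep
  have hre0 : D₁.rd e ≠ 0 := by
    intro h0
    rw [h0, map_zero] at he1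
    exact zero_ne_one he1
  have he0 : e ≠ 0 := by
    rintro rfl
    exact hre0 RedData.rd_zero
  have hb0 : b ≠ 0 := by
    rintro rfl
    exact hrb RedData.rd_zero
  obtain ⟨c, hc0, hc1, hc2⟩ := D₂.unram e he0
  have hcF : algebraMap K F c ≠ 0 := (map_ne_zero _).2 hc0
  have hϖF : algebraMap K F ϖ ≠ 0 := (map_ne_zero _).2 hϖ
  -- `π = c⁻¹`
  have hπeq : algebraMap K F c⁻¹ = e * (e * algebraMap K F c)⁻¹ := by
    rw [map_inv₀, mul_inv, ← mul_assoc, mul_inv_cancel₀ he0, one_mul]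
  have hπO : algebraMap K F c⁻¹ ∈ D₂.O := by
    rw [hπeq]
    exact mul_mem he.2.2 hc2
  have hπA2 : c⁻¹ ∈ D₂.A := (D₂.mem_iff _).1 hπO
  have hπA : c⁻¹ ∈ D₁.A := hC.A_eq ▸ hπA2
  have hπra : D₁.ra c⁻¹ = 0 := by
    rw [hC.ra_eq]
    have h1 : D₂.rd (algebraMap K F c⁻¹) = 0 := by
      rw [hπeq, RedData.rd_mul he.2.2 hc2, he2, zero_mul]
    rw [RedData.rd_algebraMap hπA2] at h1
    exact (map_eq_zero _).1 h1
  obtain ⟨n, hn⟩ := hA c⁻¹ hπA hπra ϖ hϖ
  -- the element `z`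
  have hinv : a / algebraMap K F ϖ = b⁻¹ := by
    rw [← hab, div_eq_iff (mul_ne_zero (by rintro rfl; rw [zero_mul] at hab; exact hϖF hab.symm) hb0)]
    field_simp
  have hzint : IsInt K T (e ^ n * a / algebraMap K F ϖ) := by
    have h1 : IsInt K T (algebraMap K F ϖ⁻¹) := by
      have : algebraMap K F ϖ⁻¹ = algebraMap (Algebra.adjoin K {T}) F
          (algebraMap K (Algebra.adjoin K {T}) ϖ⁻¹) := rfl
      unfold IsInt
      rw [this]
      exact isIntegral_algebraMap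
    rw [div_eq_mul_inv, ← map_inv₀]
    exact IsIntegral.mul (IsIntegral.mul (IsIntegral.pow he.1 n) ha.1) h1
  have hz1 : e ^ n * a / algebraMap K F ϖ ∈ D₁.O := by
    rw [mul_div_assoc, hinv]
    exact mul_mem (pow_mem he.2.1 n) (RedData.inv_mem_of_rd_ne_zero hrb)
  have hz2 : e ^ n * a / algebraMap K F ϖ ∈ D₂.O := by
    have h1 : e ^ n * a / algebraMap K F ϖ
        = (e * algebraMap K F c) ^ n * algebraMap K F (c⁻¹ ^ n * ϖ⁻¹) * a := by
      rw [map_mul, map_pow, map_inv₀, map_inv₀, mul_pow, inv_pow]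
      have hcn : algebraMap K F c ^ n ≠ 0 := pow_ne_zero _ hcF
      field_simp
    rw [h1]
    exact mul_mem (mul_mem (pow_mem hc1 n) (RedData.algebraMap_mem (hC.A_eq ▸ hn))) ha.2.2
  have hz : e ^ n * a / algebraMap K F ϖ ∈ BB D₁ D₂ T := ⟨hzint, hz1, hz2⟩
  have hzb : e ^ n * a / algebraMap K F ϖ * b = e ^ n := by
    rw [mul_div_assoc, hinv, mul_assoc, inv_mul_cancel₀ hb0, mul_one]
  have hprod : x₁.valuation (D₁.rd (e ^ n * a / algebraMap K F ϖ)) * x₁.valuation (D₁.rd b) = 1 := by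
    rw [← map_mul, ← RedData.rd_mul hz1 hb.2.1, hzb, RedData.rd_pow he.2.1, map_pow, he1, one_pow]
  have hzle : x₁.valuation (D₁.rd (e ^ n * a / algebraMap K F ϖ)) ≤ 1 :=
    (ValuationSubring.valuation_le_one_iff _ _).2 (RingR_rd₁_mem hC hS.pt hS.τ₁ hz)
  have hble : x₁.valuation (D₁.rd b) ≤ 1 :=
    (ValuationSubring.valuation_le_one_iff _ _).2 (RingR_rd₁_mem hC hS.pt hS.τ₁ hb)
  refine le_antisymm hble ?_
  rw [← hprod]
  exact mul_le_of_le_one_left' hzle

end Fermat.Agent.MR.Node
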