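import Fermat.Agent.MR.Node.FinalInterface
import Fermat.Agent.ORD.Dep.GOApi

/-!
# MR / Node, DICT-5 : the Gauss datum versus `ORD.Dep.rd`  (task 1576, helper53)
-/

set_option autoImplicit false
set_option synthInstance.maxHeartbeats 400000
set_option maxHeartbeats 4000000

noncomputable section

namespace Fermat.Agent.MR.Node

open AlgebraicCurve ModularCurve
open Fermat.Agent.S24 (Qbar FF)
open Fermat.Agent.INJ (RedData)
open Fermat.Agent.INJ.Inst (kA)
open Fermat.Agent.BR.Inst (IsGaussS)

theorem rdSeries : Stmt_RdSeries := by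
  intro A N _ L D₁ hG x hx
  obtain ⟨f, g, hg0, hfg⟩ := hG.exists_ratio x hx
  have h3 := (hG.ratio x f g hg0 hfg).2
  have hr : INJ.Inst.Gauss.IsRatio (IsLocalRing.residue A) (x : LaurentSeries Qbar) f g :=
    ⟨hg0, hfg⟩
  rw [ORD.Dep.rd_eq hr]
  exact h3

end Fermat.Agent.MR.Node

end
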