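import Fermat.Agent.MR.Node.GeoFinal
import Fermat.Agent.MR.Node.RESFinal
import Fermat.Agent.MR.Node.RESL
import Fermat.Agent.MR.Node.SmoothOrd
import Fermat.Agent.MR.Node.Loc
import Fermat.Agent.MR.Node.ShapeRd
import Fermat.Agent.MR.Node.PlaceOrd
import Fermat.Agent.MR.Node.RdPow
import Fermat.Agent.MR.Node.DivOf
import Fermat.Agent.MR.Node.RdSeries
import Fermat.Agent.MR.Node.N1
import Fermat.Agent.MR.Node.N3PL
import Fermat.Agent.MR.Node.ValA
import Fermat.Agent.MR.Node.Kill
import Fermat.Agent.MR.Node.Reg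
import Fermat.Agent.MR.Node.SepUnif
import Fermat.Agent.MR.Node.FG
import Fermat.Agent.MR.Node.Small
import Fermat.Agent.MR.PL.Final
import Fermat.Agent.MR.Field.NodesOut
import Fermat.Agent.MR.Field.NodePL
import Fermat.Agent.MR.Field.AOut2
import Fermat.Agent.MR.Field.CongB
import Fermat.Agent.MR.Field.YDec
import Fermat.Agent.MR.Field.DeepFix
import Fermat.Agent.MR.Field.RepFixP
import Fermat.Agent.MR.Field.LiftFixP
import Fermat.Agent.MR.Field.PresRs
import Fermat.Agent.MR.Field.Bridge
import Fermat.Agent.MR.Field.TwistVal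
import Fermat.Agent.MR.Field.VG
import Fermat.Agent.MR.Field.Roots
import Fermat.Agent.MR.Field.Dicho
import Fermat.Agent.MR.Field.GtLvl
import Fermat.Agent.MR.Field.ILvl

/-!
# MR / Node : [RES], unconditional (assembly of all the blocks Node, Geo, PL, Field)
-/

set_option autoImplicit false

namespace Fermat.Agent.MR.Node

theorem RESAll_RingR : Stmt_RingR := ringR ptRes

theorem RESAll_NodeLoc : Stmt_NodeLoc :=
  nodeLoc RESAll_RingR ringR2 (n1 ptUnif small) (n3PL₁ ptUnif RESAll_RingR)
    (n3PL₂ ptUnif RESAll_RingR ringR2) valA (kill ptRes RESAll_RingR) reg sepUnif fg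

theorem RESAll_SmoothLoc : Stmt_SmoothLoc :=
  smoothLoc RESAll_RingR (smN1 ptUnif small) (n3PL₁ ptUnif RESAll_RingR) valA
    (kill ptRes RESAll_RingR) reg regSm sepUnif fg

theorem RESAll_ShapeRd : Stmt_ShapeRd := shapeRd RESAll_RingR

theorem RESAll_SmoothOrd : Stmt_SmoothOrd :=
  smoothOrd PL.all_Smooth PL.all_SDec RESAll_SmoothLoc ptUnif RESAll_ShapeRd placeOrd

theorem RESAll_AOut : Field.Stmt_AOut :=
  Field.aOut3 Field.gtLvl (Field.dicho Field.gtLvl Field.iLvl) (Field.vg Field.bridge) Field.roots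
    Field.bridge Field.twistVal

theorem RESAll_CongB : Field.Stmt_CongB :=
  Field.congB (Field.yDec (Field.repFixP Field.liftFixP) Field.deepFix) PL.all_YC2 Field.bridge
    Field.twistVal

theorem RESAll_NodePL : Field.Stmt_NodePL :=
  Field.nodePL RESAll_AOut RESAll_CongB Field.bridge Field.twistVal PL.all_PLA PL.all_PLC divOf

theorem RESAll_NodesOut : Stmt_NodesOut :=
  Field.nodesOut RESAll_NodePL (Field.presRs Field.bridge) RESAll_NodeLoc

theorem RESAll_RESL : Stmt_RESL :=
  resL RESAll_NodesOut (dich ptRes) RESAll_SmoothOrd RESAll_ShapeRd placeOrd rdPow divOf rdSeries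

/-- **[RES]**, unconditional. -/
theorem RESAll_RES : Stmt_RESFinal := resFinal all_Geo RESAll_RESL rdSeries

end Fermat.Agent.MR.Node
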