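import Fermat.Agent.CAR.Unit.Main
import Fermat.Agent.S36.Val.AL
import Fermat.Agent.S36.Val.ExtRing
import Fermat.Agent.S36.Val.EmbGen

/-!
# MR / Node : the unit `x₁ = f(r z) / f(z)` (`f = θ²`) under the Atkin-Lehner involution `w_r`,
level `r * M`, `r` prime to `M`, `4 ∣ M`   (helper37)

`x₁ ∘ w_r = ± 1 / (r x₁)`: function level, `q`-expansions, and in `FF (r * M)`.
-/

set_option autoImplicit false

namespace Fermat.Agent.MR.Node

open CongruenceSubgroup Complex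
open UpperHalfPlane hiding I
open scoped MatrixGroups
open Fermat.Agent.CAR.Unit
open Fermat.Agent.S24 (Qbar FF funAlg iota jF)
open Fermat.Agent.S24.QX (qExpHom cmI Rep Nice)
open Fermat.Agent.S36.Val (ALData ALMap incl IsExpOf)
attribute [local instance] Fermat.Agent.S24.algQbarComplex

/-! ### function level -/

theorem UX_AL_point {r M : ℕ} (hr : 0 < r) (D : ALData r M) (τ : ℍ) :
    ((D.fn τ : ℍ) : ℂ) * ((r : ℂ) * ((M : ℂ) * D.z * τ + D.w)) = (r : ℂ) * D.x * τ + D.y := by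
  have h := XF_coe_smul D.mat (ofComplex ((r : ℂ) * (τ : ℂ)))
  have hfn : D.mat • ofComplex ((r : ℂ) * (τ : ℂ)) = D.fn τ := rfl
  rw [hfn, den, Fermat.Agent.S24.QX.coe_ofComplex_natCast_mul hr] at h
  have e00 : D.mat 0 0 = D.x := rfl
  have e01 : D.mat 0 1 = D.y := rfl
  have e10 : D.mat 1 0 = (M : ℤ) * D.z := rfl
  have e11 : D.mat 1 1 = (r : ℤ) * D.w := rfl
  rw [e00, e01, e10, e11] at h
  generalize ((D.fn τ : ℍ) : ℂ) = v at h ⊢
  push_cast at h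
  linear_combination h

theorem UX_AL_ne {r M : ℕ} (D : ALData r M) (τ : ℍ) : (M : ℂ) * D.z * τ + D.w ≠ 0 := by
  have := XF_lin_ne_zero' ((r : ℤ) * D.x) D.y ((M : ℤ) * D.z) D.w
    (by linear_combination D.det) τ τ.im_pos
  push_cast at this
  exact this

/-- the two values of a weight one form at `w_r τ`. -/
theorem UX_AL_slash {a : ℕ} {f : ℂ → ℂ} {χ : ℤ → ℂ}
    (h : ∀ γ ∈ Gamma0 a, ∀ z : ℍ, f ((γ • z : ℍ) : ℂ) = χ (γ 1 1) * den γ z * f z) {r M : ℕ}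
    (haM : a ∣ M) (hr : 0 < r) (D : ALData r M) (τ : ℍ) :
    f (D.fn τ : ℂ) = χ ((r : ℤ) * D.w) * ((r : ℂ) * ((M : ℂ) * D.z * τ + D.w)) *
        f ((r : ℂ) * τ) ∧
    f ((r : ℂ) * (D.fn τ : ℂ)) = χ D.w * ((M : ℂ) * D.z * τ + D.w) * f τ := by
  have hp := UX_AL_point hr D τ
  have hdet := D.det
  have hC : (a : ℤ) ∣ (M : ℤ) * D.z := Dvd.dvd.mul_right (Int.natCast_dvd_natCast.2 haM) _
  refine ⟨?_, ?_⟩
  · have := L3_slash h D.x D.y ((M : ℤ) * D.z) ((r : ℤ) * D.w) (by linear_combination hdet) hC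
      ((r : ℂ) * τ) (D.fn τ : ℂ) (XF_im_pos hr τ.im_pos) (by push_cast; linear_combination hp)
    rw [this]
    congr 2
    push_cast
    ring
  · have := L3_slash h ((r : ℤ) * D.x) D.y ((M : ℤ) * D.z) D.w (by linear_combination hdet) hC
      (τ : ℂ) ((r : ℂ) * (D.fn τ : ℂ)) τ.im_pos (by push_cast; linear_combination hp)
    rw [this]
    congr 2
    push_cast
    ring

/-- `x₁ ∘ w_r = ± 1 / (r x₁)`. -/
theorem UX_xL_AL {a : ℕ} {lf : List (ℕ × ℤ)} {χ : ℤ → ℂ} {r M : ℕ} (h : W1 a lf χ) (haM : a ∣ M)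
    (hr : 0 < r) (D : ALData r M) (τ : ℍ) :
    etaL (lx1 lf r) (D.fn τ : ℂ) * ((r : ℂ) * etaL (lx1 lf r) τ) = χ D.w * χ ((r : ℤ) * D.w) := by
  obtain ⟨e0, e1⟩ := UX_AL_slash h.slash haM hr D τ
  have hℓ := UX_AL_ne D τ
  have hr0 : (r : ℂ) ≠ 0 := by exact_mod_cast hr.ne'
  have n0 : etaL lf τ ≠ 0 := etaL_ne_zero h.pos τ.im_pos
  have n1 : etaL lf ((r : ℂ) * τ) ≠ 0 := etaL_ne_zero h.pos (XF_im_pos hr τ.im_pos)
  have c0 := L3_chi_ne h D.w
  have c1 := L3_chi_ne h ((r : ℤ) * D.w)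
  have q1 := L3_chi_sq h ((r : ℤ) * D.w)
  rw [L3_x1 listCalc, L3_x1 listCalc, e1, e0]
  generalize etaL lf ((r : ℂ) * τ) = u1 at n1 ⊢
  generalize etaL lf (τ : ℂ) = u0 at n0 ⊢
  generalize (M : ℂ) * D.z * τ + D.w = ℓ at hℓ ⊢
  generalize χ ((r : ℤ) * D.w) = y1 at c1 q1 ⊢
  generalize χ D.w = y0 at c0 ⊢
  field_simp
  linear_combination (-1 : ℂ) * q1

/-! ### `q`-expansions -/

theorem UX_rep {a : ℕ} {lf : List (ℕ × ℤ)} {χ : ℤ → ℂ} {r M : ℕ} (h : W1 a lf χ) (haM : a ∣ M)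
    (hr : 0 < r) (D : ALData r M) :
    ∃ ε : Qbar, (ε = 1 ∨ ε = -1) ∧
      Rep (cmI ((ε * (r : Qbar)⁻¹) • etaLser Qbar 0 (negL (lx1 lf r))))
        (fun τ => etaL (lx1 lf r) (D.fn τ : ℂ)) :=
  RepX_key listCalc U.etaL_good hr (RepX_lx1 h hr)
    (RepX_pm_mul (h.chi_sq D.w) (h.chi_sq ((r : ℤ) * D.w))) _ (fun τ => UX_xL_AL h haM hr D τ)

/-! ### in the function field -/

/-- `w_r x₁ * (r x₁) = ± 1` in `FF (r * M)`. -/
theorem UX_W {a : ℕ} {lf : List (ℕ × ℤ)} {χ : ℤ → ℂ} {r M : ℕ} [NeZero (r * M)] (h : W1 a lf χ)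
    (haM : a ∣ M) (D : ALData r M) (C : ALMap r M) (x : FF (r * M))
    (hx : (x : LaurentSeries Qbar) = etaLser Qbar 0 (lx1 lf r)) :
    ∃ ε : Qbar, (ε = 1 ∨ ε = -1) ∧
      C.W x * (algebraMap Qbar (FF (r * M)) (r : Qbar) * x) = algebraMap Qbar (FF (r * M)) ε := by
  have hr : 0 < r := Nat.pos_of_ne_zero (fun h0 => NeZero.ne (r * M) (by rw [h0, zero_mul]))
  have hM : 0 < M := Nat.pos_of_ne_zero (fun h0 => NeZero.ne (r * M) (by rw [h0, mul_zero]))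
  obtain ⟨ε, hε, hrep⟩ := UX_rep h haM hr D
  obtain ⟨l1, l2, l3⟩ := RepX_lx1 h hr
  obtain ⟨g1, g2, g3⟩ := U.etaL_good (lx1 lf r) 0 l1 l2 (by rw [l3, mul_zero])
  have hinv := (U.xL_inv a lf χ r M h haM hr hM).1
  have key := Fermat.Agent.S36.Val.stmt_TransportInv (r * M) D.fn
    ((incl (r * M)).comp C.W.toAlgHom) (C.exp D) (onH (etaL (lx1 lf r))) x _ g1
    (fun γ hγ z => hinv γ hγ z) g2 (by rw [hx]; exact g3) hrep
  have key' : ((C.W x : FF (r * M)) : LaurentSeries Qbar) =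
      (ε * (r : Qbar)⁻¹) • etaLser Qbar 0 (negL (lx1 lf r)) := key
  have hmul := L7_mul listCalc (lx1 lf r) 0 l1
  rw [neg_zero] at hmul
  have hr0 : (r : Qbar) ≠ 0 := by exact_mod_cast hr.ne'
  refine ⟨ε, hε, Subtype.ext ?_⟩
  show ((C.W x : FF (r * M)) : LaurentSeries Qbar) *
    (algebraMap Qbar (LaurentSeries Qbar) (r : Qbar) * (x : LaurentSeries Qbar)) =
      algebraMap Qbar (LaurentSeries Qbar) ε
  have hs : ∀ (c : Qbar) (y : LaurentSeries Qbar),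
      c • y = algebraMap Qbar (LaurentSeries Qbar) c * y := fun c y => by
    have h1 : algebraMap Qbar (PowerSeries Qbar) c = PowerSeries.C c := by simp
    rw [← HahnSeries.C_mul_eq_smul, HahnSeries.algebraMap_apply', h1, HahnSeries.ofPowerSeries_C]
  rw [key', hx, hs, map_mul]
  calc algebraMap Qbar (LaurentSeries Qbar) ε * algebraMap Qbar (LaurentSeries Qbar) (r : Qbar)⁻¹ *
        etaLser Qbar 0 (negL (lx1 lf r)) *
        (algebraMap Qbar (LaurentSeries Qbar) (r : Qbar) * etaLser Qbar 0 (lx1 lf r))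
      = algebraMap Qbar (LaurentSeries Qbar) ε *
        (algebraMap Qbar (LaurentSeries Qbar) (r : Qbar)⁻¹ *
          algebraMap Qbar (LaurentSeries Qbar) (r : Qbar)) *
        (etaLser Qbar 0 (lx1 lf r) * etaLser Qbar 0 (negL (lx1 lf r))) := by ring
    _ = algebraMap Qbar (LaurentSeries Qbar) ε := by
        rw [hmul, ← map_mul, inv_mul_cancel₀ hr0, map_one, mul_one, mul_one]

end Fermat.Agent.MR.Node
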