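import Fermat.Agent.MR.Node.UnitAL
import Fermat.Agent.MR.Node.Defs
import Fermat.Agent.CAR.Unit.SerCalc
import Fermat.Agent.BR.Inst.ALProps

/-!
# MR / Node : the elements `a = p x₁`, `b = 1 / x₁` of `BB` at level `M * p`   (helper37)

`x₁ = f(q^p) / f(q)`, `f = θ²` (`etaLser ℚ̄ 0 (lx1 lf4 p)`), `4 ∣ M`, `p ∤ M`.
`D₁ = D` the Gauss datum of `FL (M * p)`, `D₂ = twist D W`, `W = w_p`.
Main results: `UX_exists`, `UX_AL`, `UX_gauss`, `unitX`.
-/

set_option autoImplicit false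
set_option synthInstance.maxHeartbeats 400000

namespace Fermat.Agent.MR.Node

open CongruenceSubgroup
open scoped MatrixGroups
open ModularCurve (coeffMap modularFunctionFieldBar)
open Fermat.Agent.CAR.Unit
open Fermat.Agent.S24 (Qbar FF jF)
open Fermat.Agent.S36.Val (ALData ALMap IsJ)
open Fermat.Agent.INJ (IsInt RedData)
open Fermat.Agent.INJ.Inst (kA IsGauss jd_mem_bar)
open Fermat.Agent.BR.Inst (IsAL IsGaussS twist mem_twist_O twist_rd isInt_trans)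
open Fermat.Agent.ES.Mid (GQ gal coe_gal)

theorem UX_serCalc : Stmt_serCalc := serCalc listCalc U.frob

/-! ### existence, integrality over `ℚ̄[j]` -/

theorem UX_exists {a : ℕ} {lf : List (ℕ × ℤ)} {χ : ℤ → ℂ} (h : W1 a lf χ) (r M : ℕ)
    [NeZero (M * r)] (haM : a ∣ M) :
    ∃ x : FF (M * r), (x : LaurentSeries Qbar) = etaLser Qbar 0 (lx1 lf r) ∧ x ≠ 0 ∧
      IsInt Qbar (jF (M * r)) x ∧ IsInt Qbar (jF (M * r)) x⁻¹ := by
  have hr : 0 < r := Nat.pos_of_ne_zero (fun h0 => NeZero.ne (M * r) (by rw [h0, mul_zero]))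
  have hM : 0 < M := Nat.pos_of_ne_zero (fun h0 => NeZero.ne (M * r) (by rw [h0, zero_mul]))
  obtain ⟨l1, l2, l3⟩ := RepX_lx1 h hr
  have hinv := (U.xL_inv a lf χ r M h haM hr hM).1
  rw [Nat.mul_comm r M] at hinv
  exact U.etaL_elt (M * r) (lx1 lf r) 0 l1 l2 (by rw [l3, mul_zero]) hinv

/-! ### Atkin-Lehner -/

theorem UX_AL_gen {a : ℕ} {lf : List (ℕ × ℤ)} {χ : ℤ → ℂ} (h : W1 a lf χ) (N r M : ℕ) [NeZero N]
    (hN : N = r * M) (hcop : Nat.Coprime r M) (haM : a ∣ M) (W : FF N ≃ₐ[Qbar] FF N)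
    (hW : ∀ d e : ℕ, d ∣ M → e ∣ r → ∀ x y : FF N, (x : LaurentSeries Qbar) = S28.jd Qbar (d * e) →
      (y : LaurentSeries Qbar) = S28.jd Qbar (d * (r / e)) → W x = y)
    (x : FF N) (hx : (x : LaurentSeries Qbar) = etaLser Qbar 0 (lx1 lf r)) :
    ∃ ε : Qbar, (ε = 1 ∨ ε = -1) ∧
      W x * (algebraMap Qbar (FF N) (r : Qbar) * x) = algebraMap Qbar (FF N) ε := by
  subst hN
  obtain ⟨⟨D⟩, ⟨C⟩⟩ := Fermat.Agent.S36.Val.stmt_AL Fermat.Agent.S36.Val.stmt_ExtRing r M hcop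
  have hWC : (W : FF (r * M) →+* FF (r * M)) = (C.W : FF (r * M) →+* FF (r * M)) := by
    refine Fermat.Agent.S36.Val.stmt_ExtRing (r * M) (FF (r * M)) _ _ ?_ ?_
    · intro c
      rw [RingHom.coe_coe, RingHom.coe_coe, AlgEquiv.commutes, AlgEquiv.commutes]
    · intro d y hd hy
      obtain ⟨e, b, he, hb, rfl⟩ := (Nat.dvd_mul).1 hd
      have hdvd : b * (r / e) ∣ r * M := by
        rw [Nat.mul_comm r M]
        exact Nat.mul_dvd_mul hb (Nat.div_dvd_of_dvd he)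
      let y' : FF (r * M) := ⟨S28.jd Qbar (b * (r / e)), jd_mem_bar (NeZero.ne _) hdvd⟩
      have h1 : W y = y' := hW b e hb he y y' (by rw [Nat.mul_comm b e]; exact hy) rfl
      have h2 : C.W y = y' := C.gen e b y y' he hb hy (by
        show (y' : LaurentSeries Qbar) = S28.jd Qbar (r / e * b)
        rw [Nat.mul_comm (r / e) b])
      rw [RingHom.coe_coe, RingHom.coe_coe, h1, h2]
  obtain ⟨ε, hε, hh⟩ := UX_W h haM D C x hx
  refine ⟨ε, hε, ?_⟩
  have : W x = C.W x := DFunLike.congr_fun hWC x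
  rw [this]
  exact hh

/-- `w_r x₁ * (r x₁) = ± 1` in `FF (M * r)`. -/
theorem UX_AL {a : ℕ} {lf : List (ℕ × ℤ)} {χ : ℤ → ℂ} (h : W1 a lf χ) (r M : ℕ) [NeZero (M * r)]
    (hcop : Nat.Coprime r M) (haM : a ∣ M) (W : FF (M * r) ≃ₐ[Qbar] FF (M * r)) (hW : IsAL M r W)
    (x : FF (M * r)) (hx : (x : LaurentSeries Qbar) = etaLser Qbar 0 (lx1 lf r)) :
    ∃ ε : Qbar, (ε = 1 ∨ ε = -1) ∧
      W x * (algebraMap Qbar (FF (M * r)) (r : Qbar) * x) = algebraMap Qbar (FF (M * r)) ε :=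
  UX_AL_gen h (M * r) r M (Nat.mul_comm M r) hcop haM W hW x hx

/-! ### Gauss valuation, Galois action -/

theorem UX_gauss {N : ℕ} {A : ValuationSubring Qbar}
    {L : IntermediateField (kA A) (LaurentSeries (kA A))} {D : RedData Qbar (FF N) (kA A) L}
    (hD : IsGauss N A L D) (n : ℤ) (l : List (ℕ × ℤ)) (x : FF N)
    (hx : (x : LaurentSeries Qbar) = etaLser Qbar n l) :
    x ∈ D.O ∧ ((D.rd x : L) : LaurentSeries (kA A)) = etaLser (kA A) n l ∧ D.rd x ≠ 0 := by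
  have e1 : coeffMap A.subtype (etaLser A n l) = etaLser Qbar n l :=
    UX_serCalc.1 A Qbar A.subtype n l
  have hmem : coeffMap A.subtype (etaLser A n l) ∈ modularFunctionFieldBar N := by
    rw [e1, ← hx]; exact x.2
  obtain ⟨h1, h2⟩ := hD.rd (etaLser A n l) hmem
  have hxe : (⟨_, hmem⟩ : FF N) = x := Subtype.ext (by rw [hx]; exact e1)
  rw [hxe] at h1 h2
  have h3 : ((D.rd x : L) : LaurentSeries (kA A)) = etaLser (kA A) n l := by
    rw [h2]; exact UX_serCalc.1 A (kA A) (IsLocalRing.residue A) n l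
  refine ⟨h1, h3, fun h0 => ?_⟩
  rw [h0] at h3
  exact UX_serCalc.2.2.2.2.2 (kA A) n l h3.symm

theorem UX_inv_ser {N : ℕ} (n : ℤ) (l : List (ℕ × ℤ)) (x : FF N)
    (hx : (x : LaurentSeries Qbar) = etaLser Qbar n l) :
    ((x⁻¹ : FF N) : LaurentSeries Qbar) = etaLser Qbar (-n) (negL l) := by
  have h1 := UX_serCalc.2.2.1 Qbar n l
  have h2 : ((x⁻¹ : FF N) : LaurentSeries Qbar) = (x : LaurentSeries Qbar)⁻¹ := rfl
  rw [h2, hx]
  exact inv_eq_of_mul_eq_one_right h1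

theorem UX_gal {N : ℕ} (n : ℤ) (l : List (ℕ × ℤ)) (x : FF N)
    (hx : (x : LaurentSeries Qbar) = etaLser Qbar n l) (σ : GQ) : gal N σ x = x := by
  apply Subtype.ext
  rw [coe_gal, hx]
  exact UX_serCalc.1 Qbar Qbar (σ : Qbar →+* Qbar) n l

theorem UX_gal_nat (N : ℕ) (σ : GQ) (m : ℕ) :
    gal N σ (algebraMap Qbar (FF N) (m : Qbar)) = algebraMap Qbar (FF N) (m : Qbar) := by
  rw [map_natCast, map_natCast]

/-! ### the elements `a`, `b` -/

/-- everything about `a = p x₁`, `b = 1 / x₁`. -/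
structure UnitAB (p M : ℕ) (A : ValuationSubring Qbar)
    (L : IntermediateField (kA A) (LaurentSeries (kA A)))
    (D : RedData Qbar (FF (M * p)) (kA A) L) (W : FF (M * p) ≃ₐ[Qbar] FF (M * p))
    (a b : FF (M * p)) : Prop where
  /-- `1 / b = x₁` -/
  ser : ((b⁻¹ : FF (M * p)) : LaurentSeries Qbar) = etaLser Qbar 0 (lx1 lf4 p)
  ser_b : (b : LaurentSeries Qbar) = etaLser Qbar 0 (negL (lx1 lf4 p))
  a_eq : a = algebraMap Qbar (FF (M * p)) (p : Qbar) * b⁻¹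
  mul : a * b = algebraMap Qbar (FF (M * p)) (p : Qbar)
  a_ne : a ≠ 0
  b_ne : b ≠ 0
  /-- `w_p` exchanges `a` and `b` up to a sign -/
  al : ∃ ε : Qbar, (ε = 1 ∨ ε = -1) ∧ W a = algebraMap Qbar (FF (M * p)) ε * b ∧
    W b = algebraMap Qbar (FF (M * p)) ε * a
  int_a : IsInt Qbar (jF (M * p)) a
  int_b : IsInt Qbar (jF (M * p)) b
  int_a' : IsInt Qbar (jF (M * p)) a⁻¹
  int_b' : IsInt Qbar (jF (M * p)) b⁻¹
  a_mem₁ : a ∈ D.O
  b_mem₁ : b ∈ D.O
  a_mem₂ : a ∈ (twist D W).O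
  b_mem₂ : b ∈ (twist D W).O
  rd₁a : D.rd a = 0
  rd₁b : D.rd b ≠ 0
  rd₂a : (twist D W).rd a ≠ 0
  rd₂b : (twist D W).rd b = 0
  rd₁b_ser : ((D.rd b : L) : LaurentSeries (kA A)) = etaLser (kA A) 0 (negL (lx1 lf4 p))
  rd₁b'_ser : ((D.rd b⁻¹ : L) : LaurentSeries (kA A)) = etaLser (kA A) 0 (lx1 lf4 p)
  gal_a : ∀ σ : GQ, gal (M * p) σ a = a
  gal_b : ∀ σ : GQ, gal (M * p) σ b = b

theorem UnitAB.mem_BB {p M : ℕ} {A : ValuationSubring Qbar}
    {L : IntermediateField (kA A) (LaurentSeries (kA A))}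
    {D : RedData Qbar (FF (M * p)) (kA A) L} {W : FF (M * p) ≃ₐ[Qbar] FF (M * p)}
    {a b : FF (M * p)} (h : UnitAB p M A L D W a b) {T : FF (M * p)}
    (hT : IsInt Qbar T (jF (M * p))) : a ∈ BB D (twist D W) T ∧ b ∈ BB D (twist D W) T :=
  ⟨⟨isInt_trans hT h.int_a, h.a_mem₁, h.a_mem₂⟩, ⟨isInt_trans hT h.int_b, h.b_mem₁, h.b_mem₂⟩⟩

theorem UX_isInt_const {F : Type*} [Field F] [Algebra Qbar F] (t : F) (c : Qbar) :
    IsInt Qbar t (algebraMap Qbar F c) := by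
  have : algebraMap Qbar F c = algebraMap (Algebra.adjoin Qbar {t}) F
      (algebraMap Qbar (Algebra.adjoin Qbar {t}) c) := rfl
  unfold IsInt
  rw [this]
  exact isIntegral_algebraMap

/-- **(G3')** -/
theorem unitX (p M : ℕ) [NeZero (M * p)] (hp : p.Prime) (hpM : ¬ p ∣ M) (h4 : 4 ∣ M)
    (A : ValuationSubring Qbar) (hA : A.LiesOverPrime p)
    (L : IntermediateField (kA A) (LaurentSeries (kA A)))
    (D : RedData Qbar (FF (M * p)) (kA A) L) (hD : IsGauss (M * p) A L D)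
    (W : FF (M * p) ≃ₐ[Qbar] FF (M * p)) (hW : IsAL M p W) :
    ∃ a b : FF (M * p), UnitAB p M A L D W a b := by
  obtain ⟨x, hx, hx0, hi, hi'⟩ := UX_exists U.w1.1 p M h4
  obtain ⟨ε, hε, hWx⟩ := UX_AL U.w1.1 p M ((Nat.Prime.coprime_iff_not_dvd hp).2 hpM) h4 W hW x hx
  set P : FF (M * p) := algebraMap Qbar (FF (M * p)) (p : Qbar) with hP
  set E : FF (M * p) := algebraMap Qbar (FF (M * p)) ε with hE
  have hp0 : (p : Qbar) ≠ 0 := by exact_mod_cast hp.ne_zero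
  have hP0 : P ≠ 0 := (map_ne_zero _).2 hp0
  have hEE : E * E = 1 := by
    rw [hE, ← map_mul]
    rcases hε with rfl | rfl <;> simp
  have hE0 : E ≠ 0 := left_ne_zero_of_mul_eq_one hEE
  have hεA : ε ∈ A := by
    rcases hε with rfl | rfl
    · exact A.one_mem
    · exact A.neg_mem _ A.one_mem
  have hDA : D.A = A := hD.hA
  have hEO : E ∈ D.O := RedData.algebraMap_mem (by rw [hDA]; exact hεA)
  have hpA : (p : Qbar) ∈ A := (ValuationSubring.mem_nonunits_iff_exists_mem_maximalIdeal.1 hA).1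
  have hPO : P ∈ D.O := RedData.algebraMap_mem (by rw [hDA]; exact hpA)
  have hPrd : D.rd P = 0 := by
    rw [hP, RedData.rd_algebraMap (by rw [hDA]; exact hpA), hD.ra _ hpA]
    obtain ⟨ha, hm⟩ := ValuationSubring.mem_nonunits_iff_exists_mem_maximalIdeal.1 hA
    rw [(IsLocalRing.residue_eq_zero_iff _).2 hm, map_zero]
  have hErd : D.rd E ≠ 0 := by
    intro h0
    have := RedData.rd_mul hEO hEO
    rw [hEE, RedData.rd_one, h0, mul_zero] at this
    exact one_ne_zero this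
  obtain ⟨g1, g2, g3⟩ := UX_gauss hD 0 _ x hx
  have hx' := UX_inv_ser 0 _ x hx
  rw [neg_zero] at hx'
  obtain ⟨g1', g2', g3'⟩ := UX_gauss hD 0 _ x⁻¹ hx'
  -- `W x = E / (P x)`
  have hWx1 : W x = E * (P⁻¹ * x⁻¹) := by
    field_simp
    rw [← hWx]; ring
  have hWP : W P = P := AlgEquiv.commutes W _
  have hWa : W (P * x) = E * x⁻¹ := by
    rw [map_mul, hWP, hWx1]; field_simp
  have hWb : W x⁻¹ = E * (P * x) := by
    rw [map_inv₀, hWx1]
    field_simp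
    rw [← hEE]; ring
  refine ⟨P * x, x⁻¹, ?_⟩
  exact
  { ser := by rw [inv_inv]; exact hx
    ser_b := hx'
    a_eq := by rw [inv_inv]
    mul := by rw [mul_assoc, mul_inv_cancel₀ hx0, mul_one]
    a_ne := mul_ne_zero hP0 hx0
    b_ne := inv_ne_zero hx0
    al := ⟨ε, hε, hWa, hWb⟩
    int_a := IsIntegral.mul (UX_isInt_const _ _) hi
    int_b := hi'
    int_a' := by
      rw [mul_inv, hP, ← map_inv₀]
      exact IsIntegral.mul (UX_isInt_const _ _) hi'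
    int_b' := by rw [inv_inv]; exact hi
    a_mem₁ := mul_mem hPO g1
    b_mem₁ := g1'
    a_mem₂ := by
      rw [mem_twist_O, hWa]; exact mul_mem hEO g1'
    b_mem₂ := by
      rw [mem_twist_O, hWb]; exact mul_mem hEO (mul_mem hPO g1)
    rd₁a := by rw [RedData.rd_mul hPO g1, hPrd, zero_mul]
    rd₁b := g3'
    rd₂a := by
      rw [twist_rd, hWa, RedData.rd_mul hEO g1']; exact mul_ne_zero hErd g3'
    rd₂b := by
      rw [twist_rd, hWb, RedData.rd_mul hEO (mul_mem hPO g1), RedData.rd_mul hPO g1, hPrd,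
        zero_mul, mul_zero]
    rd₁b_ser := g2'
    rd₁b'_ser := by rw [inv_inv]; exact g2
    gal_a := fun σ => by rw [map_mul, hP, UX_gal_nat, UX_gal 0 _ x hx]
    gal_b := fun σ => UX_gal 0 _ _ hx' σ }

end Fermat.Agent.MR.Node
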